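import Mathlib

set_option autoImplicit false

namespace Fermat.Agent.S51

/-- The plane model `F(w,x) = 0` of `X_0(15)`: `w` parametrises the 5-isogeny (`s = 2w - 11`),
`x` is the (normalised) x-coordinate of the 3-torsion point. -/
def modF (w x : ℚ) : ℚ :=
  3 * (1 + w ^ 2) ^ 2 * x ^ 4 + 4 * (1 + w ^ 2) ^ 2 * x ^ 3 + 6 * (2 * w - 1) * (1 + w ^ 2) * x ^ 2 +
    12 * (1 + w ^ 2) * x + (4 * w + 3)

/-- coefficient of `x^10` -/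
def cofG_c10 (w : ℚ) : ℚ :=
  -192*w^10 - 960*w^8 - 1920*w^6 - 1920*w^4 - 960*w^2 - 192

/-- coefficient of `x^9` -/
def cofG_c9 (w : ℚ) : ℚ :=
  -512*w^10 - 2560*w^8 - 5120*w^6 - 5120*w^4 - 2560*w^2 - 512

/-- coefficient of `x^8` -/
def cofG_c8 (w : ℚ) : ℚ :=
  -468*w^10 - 836*w^9 - 1517*w^8 - 3344*w^7 - 1388*w^6 - 5016*w^5 + 258*w^4 - 3344*w^3 + 952*w^2 - 836*w + 355

/-- coefficient of `x^7` -/
def cofG_c7 (w : ℚ) : ℚ :=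
  -144*w^10 - 1552*w^9 + 476*w^8 - 6208*w^7 + 3344*w^6 - 9312*w^5 + 5736*w^4 - 6208*w^3 + 4064*w^2 - 1552*w + 1052

/-- coefficient of `x^6` -/
def cofG_c6 (w : ℚ) : ℚ :=
  -720*w^9 - 1040*w^8 - 540*w^7 - 4280*w^6 + 2700*w^5 - 6600*w^4 + 4140*w^3 - 4520*w^2 + 1620*w - 1160

/-- coefficient of `x^5` -/
def cofG_c5 (w : ℚ) : ℚ :=
  -1360*w^8 + 1680*w^7 - 5060*w^6 + 5040*w^5 - 7020*w^4 + 5040*w^3 - 4300*w^2 + 1680*w - 980

/-- coefficient of `x^4` -/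
def cofG_c4 (w : ℚ) : ℚ :=
  -1040*w^7 + 2440*w^6 - 4772*w^5 + 6406*w^4 - 6424*w^3 + 5492*w^2 - 2692*w + 1526

/-- coefficient of `x^3` -/
def cofG_c3 (w : ℚ) : ℚ :=
  80*w^6 + 272*w^5 + 244*w^4 + 544*w^3 + 248*w^2 + 272*w + 84

/-- coefficient of `x^2` -/
def cofG_c2 (w : ℚ) : ℚ :=
  656*w^5 - 912*w^4 + 1836*w^3 - 1456*w^2 + 1180*w - 544

/-- coefficient of `x^1` -/
def cofG_c1 (w : ℚ) : ℚ :=
  400*w^4 - 400*w^3 + 500*w^2 - 400*w + 100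

/-- coefficient of `x^0` -/
def cofG_c0 (w : ℚ) : ℚ :=
  80*w^3 - 20*w^2 - 40*w + 15

/-- cofactor polynomial -/
def cofG (w x : ℚ) : ℚ :=
  cofG_c10 w * x ^ 10 +
    cofG_c9 w * x ^ 9 +
    cofG_c8 w * x ^ 8 +
    cofG_c7 w * x ^ 7 +
    cofG_c6 w * x ^ 6 +
    cofG_c5 w * x ^ 5 +
    cofG_c4 w * x ^ 4 +
    cofG_c3 w * x ^ 3 +
    cofG_c2 w * x ^ 2 +
    cofG_c1 w * x ^ 1 +
    cofG_c0 w

/-- coefficient of `x^20` -/
def cofH_c20 (w : ℚ) : ℚ :=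
  243*w^20 + 2430*w^18 + 10935*w^16 + 29160*w^14 + 51030*w^12 + 61236*w^10 + 51030*w^8 + 29160*w^6 + 10935*w^4 + 2430*w^2 + 243

/-- coefficient of `x^19` -/
def cofH_c19 (w : ℚ) : ℚ :=
  1620*w^20 + 16200*w^18 + 72900*w^16 + 194400*w^14 + 340200*w^12 + 408240*w^10 + 340200*w^8 + 194400*w^6 + 72900*w^4 + 16200*w^2 + 1620

/-- coefficient of `x^18` -/
def cofH_c18 (w : ℚ) : ℚ :=
  4644*w^20 + 2916*w^19 + 44982*w^18 + 26244*w^17 + 195858*w^16 + 104976*w^15 + 504792*w^14 + 244944*w^13 + 852768*w^12 + 367416*w^11 + 986580*w^10 + 367416*w^9 + 791532*w^8 + 244944*w^7 + 434808*w^6 + 104976*w^5 + 156492*w^4 + 26244*w^3 + 33318*w^2 + 2916*w + 3186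

/-- coefficient of `x^17` -/
def cofH_c17 (w : ℚ) : ℚ :=
  7416*w^20 + 16848*w^19 + 66708*w^18 + 151632*w^17 + 266652*w^16 + 606528*w^15 + 621648*w^14 + 1415232*w^13 + 931392*w^12 + 2122848*w^11 + 929880*w^10 + 2122848*w^9 + 618408*w^8 + 1415232*w^7 + 263952*w^6 + 606528*w^5 + 65448*w^4 + 151632*w^3 + 7092*w^2 + 16848*w - 36

/-- coefficient of `x^16` -/
def cofH_c16 (w : ℚ) : ℚ :=
  7122*w^20 + 40608*w^19 + 72300*w^18 + 349596*w^17 + 318303*w^16 + 1334880*w^15 + 798264*w^14 + 2966544*w^13 + 1252944*w^12 + 4227552*w^11 + 1264032*w^10 + 4005288*w^9 + 798210*w^8 + 2522016*w^7 + 278568*w^6 + 1017360*w^5 + 25974*w^4 + 238464*w^3 - 14316*w^2 + 24732*w - 3705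

/-- coefficient of `x^15` -/
def cofH_c15 (w : ℚ) : ℚ :=
  4112*w^20 + 52272*w^19 + 104624*w^18 + 405216*w^17 + 693072*w^16 + 1359936*w^15 + 2271552*w^14 + 2564352*w^13 + 4419744*w^12 + 2933280*w^11 + 5481504*w^10 + 2020032*w^9 + 4419744*w^8 + 737856*w^7 + 2271552*w^6 + 55296*w^5 + 693072*w^4 - 51408*w^3 + 104624*w^2 - 12960*w + 4112

/-- coefficient of `x^14` -/
def cofH_c14 (w : ℚ) : ℚ :=
  1236*w^20 + 39432*w^19 + 148092*w^18 + 336744*w^17 + 1046196*w^16 + 1259496*w^15 + 3268548*w^14 + 2699928*w^13 + 5766516*w^12 + 3639384*w^11 + 6198444*w^10 + 3176712*w^9 + 4059972*w^8 + 1774584*w^7 + 1482156*w^6 + 598536*w^5 + 195048*w^4 + 105408*w^3 - 40344*w^2 + 6384*w - 12072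

/-- coefficient of `x^13` -/
def cofH_c13 (w : ℚ) : ℚ :=
  -216*w^20 + 21840*w^19 + 99144*w^18 + 473088*w^17 + 423720*w^16 + 2883552*w^15 + 86472*w^14 + 8772960*w^13 - 2885400*w^12 + 15824256*w^11 - 7946568*w^10 + 18086880*w^9 - 10548216*w^8 + 13298208*w^7 - 8087400*w^6 + 6115872*w^5 - 3626928*w^4 + 1604400*w^3 - 874080*w^2 + 183456*w - 85392

/-- coefficient of `x^12` -/
def cofH_c12 (w : ℚ) : ℚ :=
  -749*w^20 + 15168*w^19 - 9626*w^18 + 595576*w^17 - 187107*w^16 + 3473504*w^15 - 1093032*w^14 + 9181432*w^13 - 3141957*w^12 + 13586096*w^11 - 5351934*w^10 + 12002488*w^9 - 5844531*w^8 + 6283136*w^7 - 4201092*w^6 + 1787464*w^5 - 1953582*w^4 + 207152*w^3 - 540572*w^2 - 1904*w - 68330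

/-- coefficient of `x^11` -/
def cofH_c11 (w : ℚ) : ℚ :=
  -708*w^20 + 10128*w^19 - 27480*w^18 + 204960*w^17 + 820308*w^16 - 419040*w^15 + 6586176*w^14 - 6953088*w^13 + 20937708*w^12 - 22717056*w^11 + 36537864*w^10 - 37026432*w^9 + 38404500*w^8 - 34703520*w^7 + 24637968*w^6 - 19000320*w^5 + 9183576*w^4 - 5647248*w^3 + 1707648*w^2 - 701856*w + 96792

/-- coefficient of `x^10` -/
def cofH_c10 (w : ℚ) : ℚ :=
  -336*w^20 + 2292*w^19 + 23694*w^18 - 233004*w^17 + 1492458*w^16 - 2332992*w^15 + 7889088*w^14 - 8717472*w^13 + 17935548*w^12 - 17147652*w^11 + 21911970*w^10 - 20031828*w^9 + 15228654*w^8 - 14586264*w^7 + 5934828*w^6 - 6668472*w^5 + 1269168*w^4 - 1825752*w^3 + 201348*w^2 - 239592*w + 35436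

/-- coefficient of `x^9` -/
def cofH_c9 (w : ℚ) : ℚ :=
  -64*w^20 - 1248*w^19 + 28292*w^18 - 143696*w^17 + 219516*w^16 + 1476000*w^15 - 3507104*w^14 + 13341056*w^13 - 22552408*w^12 + 40421168*w^11 - 54578868*w^10 + 63551472*w^9 - 69144748*w^8 + 57213184*w^7 - 49181144*w^6 + 29401120*w^5 - 18951744*w^4 + 7838736*w^3 - 3308568*w^2 + 797888*w - 117944

/-- coefficient of `x^8` -/
def cofH_c8 (w : ℚ) : ℚ :=
  -576*w^19 + 3312*w^18 + 52524*w^17 - 571203*w^16 + 2348544*w^15 - 4203192*w^14 + 9097248*w^13 - 10248294*w^12 + 12049344*w^11 - 9515772*w^10 + 1724964*w^9 + 798987*w^8 - 10857936*w^7 + 8233932*w^6 - 11060856*w^5 + 6320448*w^4 - 4325712*w^3 + 2047056*w^2 - 600216*w + 265398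

/-- coefficient of `x^7` -/
def cofH_c7 (w : ℚ) : ℚ :=
  -2304*w^18 + 31104*w^17 - 91944*w^16 - 422112*w^15 + 3512736*w^14 - 9396480*w^13 + 22439616*w^12 - 38320944*w^11 + 55011120*w^10 - 69505440*w^9 + 69374856*w^8 - 66226176*w^7 + 48279456*w^6 - 33643392*w^5 + 18365136*w^4 - 8200560*w^3 + 3669456*w^2 - 655584*w + 382800

/-- coefficient of `x^6` -/
def cofH_c6 (w : ℚ) : ℚ :=
  -5376*w^17 + 90720*w^16 - 546296*w^15 + 1362308*w^14 - 784712*w^13 - 1548568*w^12 + 9400208*w^11 - 21875600*w^10 + 34532288*w^9 - 48023928*w^8 + 49533960*w^7 - 47149564*w^6 + 35859224*w^5 - 22764296*w^4 + 13317472*w^3 - 4899416*w^2 + 2103920*w - 316200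

/-- coefficient of `x^5` -/
def cofH_c5 (w : ℚ) : ℚ :=
  -8064*w^16 + 149184*w^15 - 1065720*w^14 + 3854304*w^13 - 8333424*w^12 + 14785296*w^11 - 20288880*w^10 + 21592416*w^9 - 20424816*w^8 + 13095072*w^7 - 7391832*w^6 + 2901984*w^5 + 331632*w^4 + 1043472*w^3 - 21120*w^2 + 724320*w - 332880

/-- coefficient of `x^4` -/
def cofH_c4 (w : ℚ) : ℚ :=
  -8064*w^15 + 155232*w^14 - 1179048*w^13 + 4678749*w^12 - 11491824*w^11 + 21881430*w^10 - 33229824*w^9 + 40298301*w^8 - 42281568*w^7 + 36462348*w^6 - 26254632*w^5 + 17314719*w^4 - 8142576*w^3 + 4014318*w^2 - 1260528*w + 221559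

/-- coefficient of `x^3` -/
def cofH_c3 (w : ℚ) : ℚ :=
  -5376*w^14 + 104832*w^13 - 810196*w^12 + 3282512*w^11 - 8221736*w^10 + 15582048*w^9 - 23545572*w^8 + 27905376*w^7 - 27321936*w^6 + 21873536*w^5 - 12925500*w^4 + 6575568*w^3 - 1782344*w^2 + 203040*w - 50124

/-- coefficient of `x^2` -/
def cofH_c2 (w : ℚ) : ℚ :=
  -2304*w^13 + 44784*w^12 - 344124*w^11 + 1379982*w^10 - 3411180*w^9 + 6376122*w^8 - 9509688*w^7 + 10682604*w^6 - 9077880*w^5 + 6101412*w^4 - 2116044*w^3 - 50874*w^2 + 521508*w - 510606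

/-- coefficient of `x^1` -/
def cofH_c1 (w : ℚ) : ℚ :=
  -576*w^12 + 11040*w^11 - 83148*w^10 + 324720*w^9 - 784980*w^8 + 1467648*w^7 - 2197368*w^6 + 2343072*w^5 - 1655592*w^4 + 1010784*w^3 - 256188*w^2 - 178320*w - 95556

/-- coefficient of `x^0` -/
def cofH_c0 (w : ℚ) : ℚ :=
  -64*w^11 + 1200*w^10 - 8772*w^9 + 33075*w^8 - 78576*w^7 + 151452*w^6 - 236216*w^5 + 264354*w^4 - 269936*w^3 + 590540*w^2 - 901284*w + 385091

/-- cofactor polynomial -/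
def cofH (w x : ℚ) : ℚ :=
  cofH_c20 w * x ^ 20 +
    cofH_c19 w * x ^ 19 +
    cofH_c18 w * x ^ 18 +
    cofH_c17 w * x ^ 17 +
    cofH_c16 w * x ^ 16 +
    cofH_c15 w * x ^ 15 +
    cofH_c14 w * x ^ 14 +
    cofH_c13 w * x ^ 13 +
    cofH_c12 w * x ^ 12 +
    cofH_c11 w * x ^ 11 +
    cofH_c10 w * x ^ 10 +
    cofH_c9 w * x ^ 9 +
    cofH_c8 w * x ^ 8 +
    cofH_c7 w * x ^ 7 +
    cofH_c6 w * x ^ 6 +
    cofH_c5 w * x ^ 5 +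
    cofH_c4 w * x ^ 4 +
    cofH_c3 w * x ^ 3 +
    cofH_c2 w * x ^ 2 +
    cofH_c1 w * x ^ 1 +
    cofH_c0 w

/-- Key identity: the biquadratic relation `B(u,v) = 0` (cleared of denominators) is a multiple of `F`. -/
theorem key_identity (w x : ℚ) :
    (2 * w - 11) ^ 2 * ((1 + w ^ 2) * x ^ 2 - 1) ^ 5 * (((1 + w ^ 2) * x ^ 2 - 1) - 4)
      - 80 * (1 + w ^ 2) * (2 * w - 11) * ((1 + w ^ 2) * x ^ 2 - 1) ^ 3 *
          ((1 + w ^ 2) * x ^ 3 + (1 + w ^ 2) * x ^ 2 + (2 * w - 1) * x + 1) ^ 2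
      - 64 * (1 + w ^ 2) ^ 2 * (9 * ((1 + w ^ 2) * x ^ 2 - 1) + 4) *
          ((1 + w ^ 2) * x ^ 3 + (1 + w ^ 2) * x ^ 2 + (2 * w - 1) * x + 1) ^ 4
    = modF w x * cofG w x := by
  unfold modF cofG cofG_c10 cofG_c9 cofG_c8 cofG_c7 cofG_c6 cofG_c5 cofG_c4 cofG_c3 cofG_c2 cofG_c1 cofG_c0
  ring

/-- j-identity: `j_3(t) = j_5(s)` (cleared of denominators) is a multiple of `F`. -/
theorem j_identity (w x : ℚ) :
    (4 * (2 * w - 11) + 27 * ((1 + w ^ 2) *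
        ((1 + w ^ 2) * x ^ 3 + (1 + w ^ 2) * x ^ 2 + (2 * w - 1) * x + 1) ^ 2)) *
      (4 * (2 * w - 11) + 3 * ((1 + w ^ 2) *
        ((1 + w ^ 2) * x ^ 3 + (1 + w ^ 2) * x ^ 2 + (2 * w - 1) * x + 1) ^ 2)) ^ 3
      - 256 * (w ^ 2 - 6 * w + 4) ^ 3 * (1 + w ^ 2) ^ 3 *
          ((1 + w ^ 2) * x ^ 3 + (1 + w ^ 2) * x ^ 2 + (2 * w - 1) * x + 1) ^ 6
    = modF w x * cofH w x := by
  unfold modF cofH cofH_c20 cofH_c19 cofH_c18 cofH_c17 cofH_c16 cofH_c15 cofH_c14 cofH_c13 cofH_c12 cofH_c11 cofH_c10 cofH_c9 cofH_c8 cofH_c7 cofH_c6 cofH_c5 cofH_c4 cofH_c3 cofH_c2 cofH_c1 cofH_c0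
  ring

end Fermat.Agent.S51
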