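import Mathlib
import Fermat.Agent.S51.KeyIdentity

set_option autoImplicit false

namespace Fermat.Agent.S51

/-- generic identity: `B(u,v)` cleared of denominators. -/
theorem core_B_identity (n Y s μ : ℚ) (hn : n ≠ 0) (hY : Y ≠ 0) (hs : s ≠ 0) (hμ : μ ≠ 0) :
    ((-64 / ((4 * s / (n * Y ^ 2)) * μ ^ 3)) + ((4 * s / (n * Y ^ 2)) * μ ^ 2 / 144)
      + 5 * ((4 * s / (n * Y ^ 2)) * μ ^ 2 / 144) * (-64 / ((4 * s / (n * Y ^ 2)) * μ ^ 3))
      - ((4 * s / (n * Y ^ 2)) * μ ^ 2 / 144) * (-64 / ((4 * s / (n * Y ^ 2)) * μ ^ 3)) ^ 2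
      + 9 * ((4 * s / (n * Y ^ 2)) * μ ^ 2 / 144) ^ 2 * (-64 / ((4 * s / (n * Y ^ 2)) * μ ^ 3)))
      * (36 * n * Y ^ 2 * s * μ ^ 4)
    = s ^ 2 * μ ^ 5 * (μ - 4) - 80 * n * s * μ ^ 3 * Y ^ 2 - 64 * n ^ 2 * (9 * μ + 4) * Y ^ 4 := by
  field_simp
  ring

/-- generic identity: `t = 729 u³ v²`. -/
theorem core_t_identity (t μ : ℚ) (ht : t ≠ 0) (hμ : μ ≠ 0) :
    t = 729 * (t * μ ^ 2 / 144) ^ 3 * (-64 / (t * μ ^ 3)) ^ 2 := by
  field_simp
  ring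

/-- generic identity: `c₄³ t = Δ (t+27)(t+3)³` from the cleared form. -/
theorem core_j_identity (a n Y s q : ℚ) (hn : n ≠ 0) (hY : Y ≠ 0)
    (hJP : (4 * s + 27 * (n * Y ^ 2)) * (4 * s + 3 * (n * Y ^ 2)) ^ 3
      - 256 * q ^ 3 * n ^ 3 * Y ^ 6 = 0) :
    (16 * a ^ 2 * q / n) ^ 3 * (4 * s / (n * Y ^ 2)) =
      (64 * s * a ^ 6 / n ^ 3) * ((4 * s / (n * Y ^ 2)) + 27) * ((4 * s / (n * Y ^ 2)) + 3) ^ 3 := by
  have key : (16 * a ^ 2 * q / n) ^ 3 * (4 * s / (n * Y ^ 2)) -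
      (64 * s * a ^ 6 / n ^ 3) * ((4 * s / (n * Y ^ 2)) + 27) * ((4 * s / (n * Y ^ 2)) + 3) ^ 3
      = -(64 * s * a ^ 6 / (n ^ 7 * Y ^ 8)) * ((4 * s + 27 * (n * Y ^ 2)) * (4 * s + 3 * (n * Y ^ 2)) ^ 3
      - 256 * q ^ 3 * n ^ 3 * Y ^ 6) := by
    field_simp
    ring
  rw [hJP, mul_zero] at key
  exact sub_eq_zero.mp key

/-- Core algebra: a curve `y² = x³ + a x² + b x + c` over `ℚ` with 5-isogeny kernel polynomial `x² - m`
(`c = a m`, `5m² + 2bm + b² = 4ac`) and a rational 3-torsion abscissa `X` gives a rational point on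
Fricke's model of `X_0(15)`, hence (given the determination `hD` of its rational points) the
parameter `t = Δ / (16 f(X)²)` lies in an explicit list of four values, and `j = j₃(t)`. -/
theorem core_abc (a b c m X : ℚ) (hm : m ≠ 0) (hc : c = a * m)
    (h5 : 5 * m ^ 2 + 2 * b * m + b ^ 2 = 4 * a * c)
    (h3 : 3 * X ^ 4 + 4 * a * X ^ 3 + 6 * b * X ^ 2 + 12 * c * X + (4 * a * c - b ^ 2) = 0)
    (hΔ : 16 * (a ^ 2 * b ^ 2 - 4 * b ^ 3 - 4 * a ^ 3 * c + 18 * a * b * c - 27 * c ^ 2) ≠ 0)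
    (hf : X ^ 3 + a * X ^ 2 + b * X + c ≠ 0) (hμ : X ^ 2 - m ≠ 0)
    (hD : ∀ v y : ℚ, y ^ 2 = (v ^ 2 + v - 1) * (v ^ 2 - 11 * v - 1) → v = 0 ∨ v = -2 ∨ v = 1 / 2) :
    ∃ t : ℚ, (t = -32 ∨ t = -2 ∨ t = -729 / 2 ∨ t = -729 / 32) ∧
      (16 * (a ^ 2 - 3 * b)) ^ 3 * t =
        (16 * (a ^ 2 * b ^ 2 - 4 * b ^ 3 - 4 * a ^ 3 * c + 18 * a * b * c - 27 * c ^ 2)) *
          (t + 27) * (t + 3) ^ 3 := by
  -- a ≠ 0
  have ha : a ≠ 0 := by
    rintro rfl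
    have h0 : (b + m) ^ 2 + 4 * m ^ 2 = 0 := by
      have : c = 0 := by rw [hc]; ring
      rw [this] at h5; linear_combination h5
    have : m ^ 2 = 0 := by nlinarith [sq_nonneg (b + m), sq_nonneg m]
    exact hm (pow_eq_zero_iff (by norm_num) |>.mp this)
  -- the parameter w
  obtain ⟨w, hw⟩ : ∃ w : ℚ, w = (b + m) / (2 * m) := ⟨_, rfl⟩
  have hn0 : (1 + w ^ 2 : ℚ) ≠ 0 := by positivity
  have hnm : (1 + w ^ 2) * m = a ^ 2 := by
    rw [hw]; field_simp; rw [hc] at h5; linear_combination h5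
  have hmeq : m = a ^ 2 / (1 + w ^ 2) := by
    field_simp; linear_combination hnm
  have hb : b = a ^ 2 / (1 + w ^ 2) * (2 * w - 1) := by
    rw [← hmeq, hw]; field_simp; ring
  have hceq : c = a ^ 3 / (1 + w ^ 2) := by
    rw [hc, hmeq]; ring
  -- the normalised abscissa
  obtain ⟨x, hx⟩ : ∃ x : ℚ, x = X / a := ⟨_, rfl⟩
  have hX : X = a * x := by rw [hx]; field_simp
  -- F(w,x) = 0
  have hF : modF w x = 0 := by
    have h : modF w x * a ^ 4 = (1 + w ^ 2) ^ 2 *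
        (3 * X ^ 4 + 4 * a * X ^ 3 + 6 * b * X ^ 2 + 12 * c * X + (4 * a * c - b ^ 2)) := by
      rw [hb, hceq, hX]; unfold modF; field_simp; ring
    rw [h3, mul_zero] at h
    exact (mul_eq_zero.mp h).resolve_right (pow_ne_zero 4 ha)
  have hKP := key_identity w x
  have hJP := j_identity w x
  rw [hF, zero_mul] at hKP hJP
  -- abbreviations
  obtain ⟨n, hn⟩ : ∃ n : ℚ, n = 1 + w ^ 2 := ⟨_, rfl⟩
  obtain ⟨s, hs⟩ : ∃ s : ℚ, s = 2 * w - 11 := ⟨_, rfl⟩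
  obtain ⟨q, hq⟩ : ∃ q : ℚ, q = w ^ 2 - 6 * w + 4 := ⟨_, rfl⟩
  obtain ⟨Y, hY⟩ : ∃ Y : ℚ, Y = n * x ^ 3 + n * x ^ 2 + (2 * w - 1) * x + 1 := ⟨_, rfl⟩
  obtain ⟨μ, hμdef⟩ : ∃ μ : ℚ, μ = n * x ^ 2 - 1 := ⟨_, rfl⟩
  rw [← hn] at hn0 hnm hmeq hb hceq hKP hJP
  rw [← hs, ← hY, ← hμdef] at hKP
  rw [← hs, ← hY, ← hq] at hJP
  -- discriminant and c₄ in terms of w
  have hΔeq : 16 * (a ^ 2 * b ^ 2 - 4 * b ^ 3 - 4 * a ^ 3 * c + 18 * a * b * c - 27 * c ^ 2)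
      = 64 * s * a ^ 6 / n ^ 3 := by
    rw [hb, hceq, hs]; field_simp; rw [hn]; ring
  have hc4eq : 16 * (a ^ 2 - 3 * b) = 16 * a ^ 2 * q / n := by
    rw [hb, hq]; field_simp; rw [hn]; ring
  have hs0 : s ≠ 0 := by
    intro h0
    apply hΔ
    rw [hΔeq, h0]; simp
  have hY0 : Y ≠ 0 := by
    have h : X ^ 3 + a * X ^ 2 + b * X + c = a ^ 3 / n * Y := by
      rw [hb, hceq, hX, hY]; field_simp
    intro h0
    apply hf
    rw [h, h0, mul_zero]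
  have hμ0 : μ ≠ 0 := by
    have h : X ^ 2 - m = m * μ := by
      rw [hμdef, hX, hmeq]; field_simp
    intro h0
    apply hμ
    rw [h, h0, mul_zero]
  -- the modular parameters
  obtain ⟨t, ht⟩ : ∃ t : ℚ, t = 4 * s / (n * Y ^ 2) := ⟨_, rfl⟩
  have ht0 : t ≠ 0 := by
    rw [ht]
    exact div_ne_zero (mul_ne_zero four_ne_zero hs0) (mul_ne_zero hn0 (pow_ne_zero 2 hY0))
  obtain ⟨u, hu⟩ : ∃ u : ℚ, u = t * μ ^ 2 / 144 := ⟨_, rfl⟩
  obtain ⟨v, hv⟩ : ∃ v : ℚ, v = -64 / (t * μ ^ 3) := ⟨_, rfl⟩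
  have hv0 : v ≠ 0 := by
    rw [hv]
    exact div_ne_zero (by norm_num) (mul_ne_zero ht0 (pow_ne_zero 3 hμ0))
  -- the biquadratic relation B(u,v) = 0
  have hB : v + u + 5 * u * v - u * v ^ 2 + 9 * u ^ 2 * v = 0 := by
    have h := core_B_identity n Y s μ hn0 hY0 hs0 hμ0
    rw [← ht, ← hu, ← hv, hKP] at h
    have hne : (36 * n * Y ^ 2 * s * μ ^ 4) ≠ 0 :=
      mul_ne_zero (mul_ne_zero (mul_ne_zero (mul_ne_zero (by norm_num) hn0) (pow_ne_zero 2 hY0)) hs0)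
        (pow_ne_zero 4 hμ0)
    exact (mul_eq_zero.mp h).resolve_right hne
  have htuv : t = 729 * u ^ 3 * v ^ 2 := by
    have h := core_t_identity t μ ht0 hμ0
    rw [← hu, ← hv] at h
    exact h
  -- the point on Fricke's quartic
  have hquartic : (18 * v * u + (1 + 5 * v - v ^ 2)) ^ 2 = (v ^ 2 + v - 1) * (v ^ 2 - 11 * v - 1) := by
    linear_combination (36 * v) * hB
  have hvval := hD v _ hquartic
  have huval : u = -2 / 9 ∨ u = -1 / 2 := by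
    have h18 : (9 * u + 2) * (2 * u + 1) = 0 := by
      rcases hvval with h | h | h
      · exact absurd h hv0
      · rw [h] at hB; linear_combination (-1 : ℚ) * hB
      · rw [h] at hB; linear_combination (4 : ℚ) * hB
    rcases mul_eq_zero.mp h18 with h | h
    · left; linarith
    · right; linarith
  refine ⟨t, ?_, ?_⟩
  · rcases hvval with h | h | h
    · exact absurd h hv0
    · rcases huval with h' | h'
      · left; rw [htuv, h, h']; norm_num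
      · right; right; left; rw [htuv, h, h']; norm_num
    · rcases huval with h' | h'
      · right; left; rw [htuv, h, h']; norm_num
      · right; right; right; rw [htuv, h, h']; norm_num
  · rw [hc4eq, hΔeq, ht]
    exact core_j_identity a n Y s q hn0 hY0 hJP

end Fermat.Agent.S51
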