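import Mathlib
import Fermat.Prelude.Def_FLTPrelim_GaloisRep

set_option autoImplicit false

/-!
Common definitions for the S51 development (evaluated division polynomials).
For a Weierstrass curve `E` over a commutative ring `F` and `x : F`:
* `psi2sq E x = 4x³ + b₂x² + 2b₄x + b₆`  (the square of the 2-division polynomial)
* `psi3 E x   = 3x⁴ + b₂x³ + 3b₄x² + 3b₆x + b₈`
* `phi2 E x   = x⁴ - b₄x² - 2b₆x - b₈`  (numerator of the duplication map: `x(2P) * psi2sq = phi2`)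
-/

namespace Fermat.Agent.S51

variable {F : Type*} [CommRing F]

/-- `4x³ + b₂x² + 2b₄x + b₆`. -/
def psi2sq (E : WeierstrassCurve F) (x : F) : F :=
  4 * x ^ 3 + E.b₂ * x ^ 2 + 2 * E.b₄ * x + E.b₆

/-- `3x⁴ + b₂x³ + 3b₄x² + 3b₆x + b₈`. -/
def psi3 (E : WeierstrassCurve F) (x : F) : F :=
  3 * x ^ 4 + E.b₂ * x ^ 3 + 3 * E.b₄ * x ^ 2 + 3 * E.b₆ * x + E.b₈

/-- `x⁴ - b₄x² - 2b₆x - b₈`. -/
def phi2 (E : WeierstrassCurve F) (x : F) : F :=
  x ^ 4 - E.b₄ * x ^ 2 - 2 * E.b₆ * x - E.b₈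

end Fermat.Agent.S51
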