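import Mathlib
import Fermat.Agent.S51.Defs
import Fermat.Agent.S51.AlgebraCore

set_option autoImplicit false

namespace Fermat.Agent.S51

/-- The two duplication relations for the abscissae `x₁ = x(P)`, `x₂ = x(2P)` of a 5-torsion point,
rewritten in the coordinates centred at `e = (x₁ + x₂)/2`. -/
theorem alg_kernel_relations {K : Type*} [Field K] [CharZero K] (B₂ B₄ B₆ B₈ x₁ x₂ e m : K)
    (hb : 4 * B₈ = B₂ * B₆ - B₄ ^ 2) (hne : x₁ ≠ x₂)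
    (he : x₁ + x₂ = 2 * e) (hmdef : m = e ^ 2 - x₁ * x₂)
    (hd1 : x₂ * (4 * x₁ ^ 3 + B₂ * x₁ ^ 2 + 2 * B₄ * x₁ + B₆)
      = x₁ ^ 4 - B₄ * x₁ ^ 2 - 2 * B₆ * x₁ - B₈)
    (hd2 : x₁ * (4 * x₂ ^ 3 + B₂ * x₂ ^ 2 + 2 * B₄ * x₂ + B₆)
      = x₂ ^ 4 - B₄ * x₂ ^ 2 - 2 * B₆ * x₂ - B₈) :
    m ≠ 0 ∧
    (B₆ + 2 * e * B₄ + e ^ 2 * B₂ + 4 * e ^ 3) / 4 = (B₂ / 4 + 3 * e) * m ∧
    5 * m ^ 2 + 2 * ((B₄ + e * B₂ + 6 * e ^ 2) / 2) * m + ((B₄ + e * B₂ + 6 * e ^ 2) / 2) ^ 2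
      = 4 * (B₂ / 4 + 3 * e) * ((B₆ + 2 * e * B₄ + e ^ 2 * B₂ + 4 * e ^ 3) / 4) := by
  obtain ⟨r, hr⟩ : ∃ r : K, r = (x₁ - x₂) / 2 := ⟨_, rfl⟩
  have hr0 : r ≠ 0 := by
    rw [hr]; exact div_ne_zero (sub_ne_zero.mpr hne) two_ne_zero
  have hx1 : x₁ = e + r := by rw [hr]; linear_combination (1 / 2 : K) * he
  have hx2 : x₂ = e - r := by rw [hr]; linear_combination (1 / 2 : K) * he
  have hm : m = r ^ 2 := by rw [hmdef, hx1, hx2]; ring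
  have hB8 : B₈ = (B₂ * B₆ - B₄ ^ 2) / 4 := by field_simp; linear_combination hb
  refine ⟨by rw [hm]; exact pow_ne_zero 2 hr0, ?_, ?_⟩
  · have h : 8 * r * ((B₆ + 2 * e * B₄ + e ^ 2 * B₂ + 4 * e ^ 3) / 4 - (B₂ / 4 + 3 * e) * m) = 0 := by
      rw [hm]; rw [hx1, hx2] at hd1 hd2; linear_combination hd1 - hd2
    have h8 : (8 * r : K) ≠ 0 := mul_ne_zero (by norm_num) hr0
    exact sub_eq_zero.mp ((mul_eq_zero.mp h).resolve_left h8)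
  · rw [hm]; rw [hx1, hx2, hB8] at hd1 hd2; linear_combination (-1 / 2 : K) * hd1 + (-1 / 2 : K) * hd2

local notation "Qbar" => AlgebraicClosure ℚ

/-- Package C: from a rational root of `psi3` and a rational 5-kernel polynomial to the list of
four possible values of the `X_0(3)`-parameter `t`, together with `j = j₃(t)`.
The determination `hD` of the rational points of Fricke's quartic is an explicit hypothesis. -/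
theorem exists_t_of
    (hD : ∀ v y : ℚ, y ^ 2 = (v ^ 2 + v - 1) * (v ^ 2 - 11 * v - 1) → v = 0 ∨ v = -2 ∨ v = 1 / 2)
    (E : WeierstrassCurve ℚ) (hΔ : E.Δ ≠ 0)
    (x₀ : ℚ) (h3 : psi3 E x₀ = 0)
    (s₁ s₂ : ℚ) (x₁ x₂ : Qbar)
    (hs₁ : x₁ + x₂ = algebraMap ℚ Qbar s₁) (hs₂ : x₁ * x₂ = algebraMap ℚ Qbar s₂) (hne : x₁ ≠ x₂)
    (h1 : psi2sq (E.map (algebraMap ℚ Qbar)) x₁ ≠ 0) (h2 : psi2sq (E.map (algebraMap ℚ Qbar)) x₂ ≠ 0)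
    (hd1 : x₂ * psi2sq (E.map (algebraMap ℚ Qbar)) x₁ = phi2 (E.map (algebraMap ℚ Qbar)) x₁)
    (hd2 : x₁ * psi2sq (E.map (algebraMap ℚ Qbar)) x₂ = phi2 (E.map (algebraMap ℚ Qbar)) x₂) :
    ∃ t : ℚ, (t = -32 ∨ t = -2 ∨ t = -729 / 2 ∨ t = -729 / 32) ∧
      E.c₄ ^ 3 * t = E.Δ * (t + 27) * (t + 3) ^ 3 := by
  have hrel : 4 * E.b₈ = E.b₂ * E.b₆ - E.b₄ ^ 2 := E.b_relation
  simp only [psi2sq, phi2, WeierstrassCurve.map_b₂, WeierstrassCurve.map_b₄,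
    WeierstrassCurve.map_b₆, WeierstrassCurve.map_b₈, eq_ratCast] at h1 h2 hd1 hd2 hs₁ hs₂
  unfold psi3 at h3
  have hc4 : E.c₄ = E.b₂ ^ 2 - 24 * E.b₄ := rfl
  have hDelta : E.Δ = -E.b₂ ^ 2 * E.b₈ - 8 * E.b₄ ^ 3 - 27 * E.b₆ ^ 2 + 9 * E.b₂ * E.b₄ * E.b₆ := rfl
  rw [hDelta] at hΔ
  rw [hc4, hDelta]
  clear hc4 hDelta
  generalize E.b₂ = b₂ at *
  generalize E.b₄ = b₄ at *
  generalize E.b₆ = b₆ at *
  generalize E.b₈ = b₈ at *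
  have hb8 : b₈ = (b₂ * b₆ - b₄ ^ 2) / 4 := by field_simp; linear_combination hrel
  -- centred coordinates
  obtain ⟨e, he⟩ : ∃ e : ℚ, e = s₁ / 2 := ⟨_, rfl⟩
  obtain ⟨m, hm⟩ : ∃ m : ℚ, m = e ^ 2 - s₂ := ⟨_, rfl⟩
  have hrelK : 4 * (b₈ : Qbar) = (b₂ : Qbar) * (b₆ : Qbar) - (b₄ : Qbar) ^ 2 := by exact_mod_cast hrel
  have heK : x₁ + x₂ = 2 * (e : Qbar) := by rw [hs₁, he]; push_cast; ring
  have hmK : (m : Qbar) = (e : Qbar) ^ 2 - x₁ * x₂ := by rw [hs₂, hm]; push_cast; ring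
  obtain ⟨hm0K, hcK, h5K⟩ := alg_kernel_relations (b₂ : Qbar) (b₄ : Qbar) (b₆ : Qbar) (b₈ : Qbar)
    x₁ x₂ (e : Qbar) (m : Qbar) hrelK hne heK hmK hd1 hd2
  have hm0 : m ≠ 0 := by exact_mod_cast hm0K
  obtain ⟨a, ha⟩ : ∃ a : ℚ, a = b₂ / 4 + 3 * e := ⟨_, rfl⟩
  obtain ⟨b, hb⟩ : ∃ b : ℚ, b = (b₄ + e * b₂ + 6 * e ^ 2) / 2 := ⟨_, rfl⟩
  obtain ⟨c, hc⟩ : ∃ c : ℚ, c = (b₆ + 2 * e * b₄ + e ^ 2 * b₂ + 4 * e ^ 3) / 4 := ⟨_, rfl⟩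
  have hcam : c = a * m := by
    rw [hc, ha]; exact_mod_cast hcK
  have h5 : 5 * m ^ 2 + 2 * b * m + b ^ 2 = 4 * a * c := by
    rw [hc, ha, hb]; exact_mod_cast h5K
  obtain ⟨X, hX⟩ : ∃ X : ℚ, X = x₀ - e := ⟨_, rfl⟩
  have hx₀ : x₀ = X + e := by rw [hX]; ring
  have h3' : 3 * X ^ 4 + 4 * a * X ^ 3 + 6 * b * X ^ 2 + 12 * c * X + (4 * a * c - b ^ 2) = 0 := by
    rw [← h3, hx₀, ha, hb, hc, hb8]; ring
  have hΔeq : -b₂ ^ 2 * b₈ - 8 * b₄ ^ 3 - 27 * b₆ ^ 2 + 9 * b₂ * b₄ * b₆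
      = 16 * (a ^ 2 * b ^ 2 - 4 * b ^ 3 - 4 * a ^ 3 * c + 18 * a * b * c - 27 * c ^ 2) := by
    rw [ha, hb, hc, hb8]; ring
  have hc4eq : b₂ ^ 2 - 24 * b₄ = 16 * (a ^ 2 - 3 * b) := by
    rw [ha, hb]; ring
  -- psi2sq(x₀) ≠ 0
  have hpsi2 : 4 * x₀ ^ 3 + b₂ * x₀ ^ 2 + 2 * b₄ * x₀ + b₆ ≠ 0 := by
    intro h0
    apply hΔ
    have hcomb : -b₂ ^ 2 * b₈ - 8 * b₄ ^ 3 - 27 * b₆ ^ 2 + 9 * b₂ * b₄ * b₆
        = (4 * x₀ ^ 3 + b₂ * x₀ ^ 2 + 2 * b₄ * x₀ + b₆) *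
            ((b₂ + 12 * x₀) * (b₄ + x₀ * b₂ + 6 * x₀ ^ 2)
              - 27 * (4 * x₀ ^ 3 + b₂ * x₀ ^ 2 + 2 * b₄ * x₀ + b₆))
          + (3 * x₀ ^ 4 + b₂ * x₀ ^ 3 + 3 * b₄ * x₀ ^ 2 + 3 * b₆ * x₀ + b₈) *
            (32 * (b₄ + x₀ * b₂ + 6 * x₀ ^ 2) - (b₂ + 12 * x₀) ^ 2) := by
      rw [hb8]; ring
    rw [hcomb, h0, h3]; ring
  have hf : X ^ 3 + a * X ^ 2 + b * X + c ≠ 0 := by
    intro h0
    apply hpsi2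
    have : 4 * x₀ ^ 3 + b₂ * x₀ ^ 2 + 2 * b₄ * x₀ + b₆ = 4 * (X ^ 3 + a * X ^ 2 + b * X + c) := by
      rw [hx₀, ha, hb, hc]; ring
    rw [this, h0, mul_zero]
  -- x₀ is not a kernel abscissa
  have hμ : X ^ 2 - m ≠ 0 := by
    intro h0
    have hprod : ((x₀ : Qbar) - x₁) * ((x₀ : Qbar) - x₂) = 0 := by
      have : ((x₀ : Qbar) - x₁) * ((x₀ : Qbar) - x₂) = ((X ^ 2 - m : ℚ) : Qbar) := by
        rw [hX, hm, he]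
        push_cast
        linear_combination (-(x₀ : Qbar)) * hs₁ + hs₂
      rw [this, h0]; simp
    have h3K : 3 * (x₀ : Qbar) ^ 4 + (b₂ : Qbar) * (x₀ : Qbar) ^ 3 + 3 * (b₄ : Qbar) * (x₀ : Qbar) ^ 2
        + 3 * (b₆ : Qbar) * (x₀ : Qbar) + (b₈ : Qbar) = 0 := by exact_mod_cast h3
    rcases mul_eq_zero.mp hprod with h | h
    · have hx : (x₀ : Qbar) = x₁ := sub_eq_zero.mp h
      rw [hx] at h3K
      have : (x₁ - x₂) * (4 * x₁ ^ 3 + (b₂ : Qbar) * x₁ ^ 2 + 2 * (b₄ : Qbar) * x₁ + (b₆ : Qbar)) = 0 := by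
        linear_combination h3K - hd1
      rcases mul_eq_zero.mp this with h' | h'
      · exact hne (sub_eq_zero.mp h')
      · exact h1 h'
    · have hx : (x₀ : Qbar) = x₂ := sub_eq_zero.mp h
      rw [hx] at h3K
      have : (x₂ - x₁) * (4 * x₂ ^ 3 + (b₂ : Qbar) * x₂ ^ 2 + 2 * (b₄ : Qbar) * x₂ + (b₆ : Qbar)) = 0 := by
        linear_combination h3K - hd2
      rcases mul_eq_zero.mp this with h' | h'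
      · exact hne (sub_eq_zero.mp h').symm
      · exact h2 h'
  rw [hΔeq] at hΔ
  rw [hΔeq, hc4eq]
  exact core_abc a b c m X hm0 hcam h5 h3' hΔ hf hμ hD

end Fermat.Agent.S51
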