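/-
S51, package D (helper8): the rational points of the genus one quartic
  y^2 = (v^2 + v - 1) (v^2 - 11 v - 1)
(a model of X_0(15), the elliptic curve 15a1) are exactly those with v = 0, -2, 1/2
(plus the two points at infinity).

Method: the quotient of this curve by a 2-torsion translation is the curve
  Y^2 = X (X - 1) (X - 81)   (15a2, Mordell-Weil group Z/2 x Z/2),
and the pull-back of X is the square of R = (y + v^2 + 4 v - 1) / (v + 2).
A complete 2-descent on Y^2 = X (X - 1) (X - 81) is carried out in elementary terms: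
every rational point has X = (U/T)^2 with  U^2 - T^2 = k P^2,  U^2 - 81 T^2 = k Q^2,
k in {1,-1,5,-5} up to squares (`class_k`); translation by a 2-torsion point moves any class to
the principal one (`translate_to_principal`), and the principal system
  u^2 - t^2 = p^2,  u^2 - 81 t^2 = q^2
has only the solutions with t = 0 by infinite descent on |t| (`principal_trivial`).
-/
import Mathlib

namespace Fermat.Agent.S51.Descent

/-- evenness of an integer, read off in `ZMod 8` -/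
theorem two_dvd_iff_zmod8 (x : ℤ) : (2 : ℤ) ∣ x ↔ (4 : ZMod 8) * (x : ZMod 8) = 0 := by
  constructor
  · rintro ⟨c, rfl⟩
    have h8 : ((8 : ℤ) : ZMod 8) = 0 := by decide
    have : (4 : ZMod 8) * ((2 * c : ℤ) : ZMod 8) = ((8 : ℤ) : ZMod 8) * (c : ZMod 8) := by
      push_cast; ring
    rw [this, h8, zero_mul]
  · intro h
    have h' : ((4 * x : ℤ) : ZMod 8) = 0 := by push_cast; exact h
    rw [ZMod.intCast_zmod_eq_zero_iff_dvd] at h'
    omega

theorem zmod8_excl_two : ∀ u t p q : ZMod 8, ¬ (4 * u = 0 ∧ 4 * t = 0) → ¬ (4 * p = 0 ∧ 4 * q = 0) →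
    (u ^ 2 - t ^ 2 = 2 * p ^ 2 ∨ u ^ 2 - t ^ 2 = 6 * p ^ 2) →
    (u ^ 2 - 81 * t ^ 2 = 2 * q ^ 2 ∨ u ^ 2 - 81 * t ^ 2 = 6 * q ^ 2) → False := by
  decide

/-- for `k = 8 k'`, `k'` odd: `k' (P² - Q²) = 10 T²` with `T` odd and `P, Q` not both even
is impossible mod 8 -/
theorem zmod8_excl_eight : ∀ t p q k' : ZMod 8, ¬ (4 * t = 0) → ¬ (4 * p = 0 ∧ 4 * q = 0) →
    k' ^ 2 = 1 → k' * (p ^ 2 - q ^ 2) = 10 * t ^ 2 → False := by
  decide

theorem not_both_even_of_isCoprime {a b : ℤ} (h : IsCoprime a b) :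
    ¬ ((4 : ZMod 8) * (a : ZMod 8) = 0 ∧ (4 : ZMod 8) * (b : ZMod 8) = 0) := by
  rintro ⟨ha, hb⟩
  rw [← two_dvd_iff_zmod8] at ha hb
  have h2 : IsUnit (2 : ℤ) := h.isUnit_of_dvd' ha hb
  rw [Int.isUnit_iff] at h2
  omega

/-- the class analysis: the only possible values of `k` -/
theorem class_k {U T P Q k : ℤ} (hUT : IsCoprime U T) (hPQ : IsCoprime P Q)
    (h1 : U ^ 2 - T ^ 2 = k * P ^ 2) (h2 : U ^ 2 - 81 * T ^ 2 = k * Q ^ 2) :
    k = 1 ∨ k = 4 ∨ k = 16 ∨ k = -1 ∨ k = -4 ∨ k = -16 ∨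
      k = 5 ∨ k = 20 ∨ k = 80 ∨ k = -5 ∨ k = -20 ∨ k = -80 := by
  -- k is coprime to T
  have hkT : IsCoprime k T := by
    have h3 : IsCoprime (U ^ 2) T := hUT.pow_left
    have h4 : U ^ 2 = k * P ^ 2 + T * T := by linarith
    rw [h4] at h3
    have h5 : IsCoprime (k * P ^ 2) T := (IsCoprime.add_mul_left_left_iff).mp h3
    exact h5.of_mul_left_left
  have hk80 : k ∣ 80 := by
    have h3 : k ∣ 80 * T ^ 2 := ⟨P ^ 2 - Q ^ 2, by linarith⟩
    exact (hkT.pow_right (n := 2)).dvd_of_dvd_mul_right h3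
  -- facts in ZMod 8
  have hUT8 := not_both_even_of_isCoprime hUT
  have hPQ8 := not_both_even_of_isCoprime hPQ
  have e1 : ((U : ZMod 8)) ^ 2 - (T : ZMod 8) ^ 2 = (k : ZMod 8) * (P : ZMod 8) ^ 2 := by
    have := congrArg (Int.cast : ℤ → ZMod 8) h1
    push_cast at this
    exact this
  have e2 : ((U : ZMod 8)) ^ 2 - 81 * (T : ZMod 8) ^ 2 = (k : ZMod 8) * (Q : ZMod 8) ^ 2 := by
    have := congrArg (Int.cast : ℤ → ZMod 8) h2
    push_cast at this
    exact this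
  -- the cases k ≡ 2, 6 mod 8
  have bad2 : (k : ZMod 8) = 2 → False := by
    intro hkc
    rw [hkc] at e1 e2
    exact zmod8_excl_two _ _ _ _ hUT8 hPQ8 (Or.inl e1) (Or.inl e2)
  have bad6 : (k : ZMod 8) = 6 → False := by
    intro hkc
    rw [hkc] at e1 e2
    exact zmod8_excl_two _ _ _ _ hUT8 hPQ8 (Or.inr e1) (Or.inr e2)
  -- the cases k = 8 k'
  have bad8 : ∀ k' : ℤ, k = 8 * k' → (k' : ZMod 8) ^ 2 = 1 → False := by
    intro k' hk' hk'8
    -- T is odd
    have hTodd : ¬ ((4 : ZMod 8) * (T : ZMod 8) = 0) := by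
      intro hT
      apply hUT8
      refine ⟨?_, hT⟩
      rw [← two_dvd_iff_zmod8] at hT ⊢
      have : (2 : ℤ) ∣ U ^ 2 := by
        have h4 : U ^ 2 = 8 * k' * P ^ 2 + T * T := by rw [← hk']; linarith
        rw [h4]
        exact dvd_add (Dvd.dvd.mul_right (Dvd.dvd.mul_right (by norm_num) _) _)
          (Dvd.dvd.mul_right hT _)
      exact Int.prime_two.dvd_of_dvd_pow this
    have h3 : k' * (P ^ 2 - Q ^ 2) = 10 * T ^ 2 := by
      have : 8 * (k' * (P ^ 2 - Q ^ 2)) = 8 * (10 * T ^ 2) := by rw [hk'] at h1 h2; linarith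
      linarith
    have e3 := congrArg (Int.cast : ℤ → ZMod 8) h3
    push_cast at e3
    exact zmod8_excl_eight _ _ _ _ hTodd hPQ8 hk'8 e3
  have hnat : k.natAbs ∣ 80 := by
    have := Int.natAbs_dvd_natAbs.mpr hk80
    simpa using this
  have hmem : k.natAbs ∈ Nat.divisors 80 := Nat.mem_divisors.mpr ⟨hnat, by norm_num⟩
  have hdiv : Nat.divisors 80 = {1, 2, 4, 5, 8, 10, 16, 20, 40, 80} := by decide
  rw [hdiv] at hmem
  simp only [Finset.mem_insert, Finset.mem_singleton] at hmem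
  have key : k = 1 ∨ k = -1 ∨ k = 2 ∨ k = -2 ∨ k = 4 ∨ k = -4 ∨ k = 5 ∨ k = -5 ∨ k = 8 ∨ k = -8 ∨
      k = 10 ∨ k = -10 ∨ k = 16 ∨ k = -16 ∨ k = 20 ∨ k = -20 ∨ k = 40 ∨ k = -40 ∨
      k = 80 ∨ k = -80 := by omega
  rcases key with rfl | rfl | rfl | rfl | rfl | rfl | rfl | rfl | rfl | rfl | rfl | rfl | rfl | rfl |
    rfl | rfl | rfl | rfl | rfl | rfl
  · simp
  · simp
  · exact (bad2 (by decide)).elim
  · exact (bad6 (by decide)).elim
  · simp
  · simp
  · simp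
  · simp
  · exact (bad8 1 (by norm_num) (by decide)).elim
  · exact (bad8 (-1) (by norm_num) (by decide)).elim
  · exact (bad2 (by decide)).elim
  · exact (bad6 (by decide)).elim
  · simp
  · simp
  · simp
  · simp
  · exact (bad8 5 (by norm_num) (by decide)).elim
  · exact (bad8 (-5) (by norm_num) (by decide)).elim
  · simp
  · simp


/-- translation to the principal class: from a solution of the system of class `k` we get a
solution of the principal system whose `t`-coordinate is one of `T, U, P, Q`. -/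
theorem translate_to_principal {U T P Q k : ℤ} (hUT : IsCoprime U T) (hPQ : IsCoprime P Q)
    (h1 : U ^ 2 - T ^ 2 = k * P ^ 2) (h2 : U ^ 2 - 81 * T ^ 2 = k * Q ^ 2) :
    ∃ u t p q : ℤ, u ^ 2 - t ^ 2 = p ^ 2 ∧ u ^ 2 - 81 * t ^ 2 = q ^ 2 ∧
      (t = T ∨ t = U ∨ t = P ∨ t = Q) := by
  rcases class_k hUT hPQ h1 h2 with rfl | rfl | rfl | rfl | rfl | rfl | rfl | rfl | rfl | rfl |
    rfl | rfl
  · exact ⟨U, T, P, Q, by linarith, by linarith, Or.inl rfl⟩
  · exact ⟨U, T, 2 * P, 2 * Q, by linarith, by linarith, Or.inl rfl⟩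
  · exact ⟨U, T, 4 * P, 4 * Q, by linarith, by linarith, Or.inl rfl⟩
  · exact ⟨9 * T, U, Q, 9 * P, by linarith, by linarith, Or.inr (Or.inl rfl)⟩
  · exact ⟨9 * T, U, 2 * Q, 18 * P, by linarith, by linarith, Or.inr (Or.inl rfl)⟩
  · exact ⟨9 * T, U, 4 * Q, 36 * P, by linarith, by linarith, Or.inr (Or.inl rfl)⟩
  · exact ⟨9 * P, Q, 4 * U, 36 * T, by linarith, by linarith, Or.inr (Or.inr (Or.inr rfl))⟩
  · exact ⟨9 * P, Q, 2 * U, 18 * T, by linarith, by linarith, Or.inr (Or.inr (Or.inr rfl))⟩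
  · exact ⟨9 * P, Q, U, 9 * T, by linarith, by linarith, Or.inr (Or.inr (Or.inr rfl))⟩
  · exact ⟨Q, P, 4 * T, 4 * U, by linarith, by linarith, Or.inr (Or.inr (Or.inl rfl))⟩
  · exact ⟨Q, P, 2 * T, 2 * U, by linarith, by linarith, Or.inr (Or.inr (Or.inl rfl))⟩
  · exact ⟨Q, P, T, U, by linarith, by linarith, Or.inr (Or.inr (Or.inl rfl))⟩



theorem zmod3_aux : ∀ t p : ZMod 3, (0 : ZMod 3) ^ 2 - t ^ 2 = p ^ 2 → t = 0 := by decide

theorem three_not_dvd_u {u t p : ℤ} (hut : IsCoprime u t) (h1 : u ^ 2 - t ^ 2 = p ^ 2) :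
    ¬ (3 : ℤ) ∣ u := by
  intro h3
  have hu0 : (u : ZMod 3) = 0 := by
    rw [ZMod.intCast_zmod_eq_zero_iff_dvd]; exact_mod_cast h3
  have e1 := congrArg (Int.cast : ℤ → ZMod 3) h1
  push_cast at e1
  rw [hu0] at e1
  have ht0 : (t : ZMod 3) = 0 := zmod3_aux _ _ e1
  rw [ZMod.intCast_zmod_eq_zero_iff_dvd] at ht0
  have h3t : (3 : ℤ) ∣ t := by exact_mod_cast ht0
  have hunit : IsUnit (3 : ℤ) := hut.isUnit_of_dvd' h3 h3t
  rw [Int.isUnit_iff] at hunit
  omega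

theorem sign_aux {s s' z : ℤ} (hs : 0 ≤ s) (hs' : 0 ≤ s') (h : z = s ∨ z = -s)
    (h' : z = s' ∨ z = -s') : s = s' := by
  rcases h with rfl | rfl <;> rcases h' with h' | h' <;> omega

theorem isCoprime_add_sub {m n : ℤ} (hmn : IsCoprime m n)
    (hpar : m % 2 = 0 ∧ n % 2 = 1 ∨ m % 2 = 1 ∧ n % 2 = 0) : IsCoprime (m + n) (m - n) := by
  have h2 : IsCoprime (m + n) 2 := by
    have hodd : (m + n) % 2 = 1 := by omega
    refine ⟨1, -((m + n) / 2), ?_⟩
    omega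
  have hm : IsCoprime (m + n) m := by
    have : IsCoprime (n + 1 * m) m := (IsCoprime.add_mul_right_left_iff).mpr hmn.symm
    simpa [add_comm] using this
  have h2m : IsCoprime (m + n) (2 * m) := h2.mul_right hm
  have : IsCoprime (m + n) ((m - n) + 1 * (m + n)) := by
    have e : (m - n) + 1 * (m + n) = 2 * m := by ring
    rw [e]; exact h2m
  exact (IsCoprime.add_mul_right_right_iff).mp this

theorem exists_abcd {u t p q : ℤ} (hut : IsCoprime u t)
    (h1 : u ^ 2 - t ^ 2 = p ^ 2) (h2 : u ^ 2 - 81 * t ^ 2 = q ^ 2) :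
    ∃ a b c d : ℤ, IsCoprime a b ∧ IsCoprime c d ∧ a ^ 2 + b ^ 2 = c ^ 2 + d ^ 2 ∧
      c * d = 9 * (a * b) ∧ (t = a * b ∨ t = 2 * (a * b)) := by
  have h3u := three_not_dvd_u hut h1
  -- coprimality of the legs
  have hpt : IsCoprime p t := by
    have h3 : IsCoprime (u ^ 2) t := hut.pow_left
    have h4 : u ^ 2 = p ^ 2 + t * t := by linarith
    rw [h4] at h3
    have h5 : IsCoprime (p ^ 2) t := (IsCoprime.add_mul_left_left_iff).mp h3
    exact (IsCoprime.pow_left_iff (by norm_num : 0 < 2)).mp h5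
  have hqt : IsCoprime q t := by
    have h3 : IsCoprime (u ^ 2) t := hut.pow_left
    have h4 : u ^ 2 = q ^ 2 + t * (81 * t) := by linarith
    rw [h4] at h3
    have h5 : IsCoprime (q ^ 2) t := (IsCoprime.add_mul_left_left_iff).mp h3
    exact (IsCoprime.pow_left_iff (by norm_num : 0 < 2)).mp h5
  have h3q : ¬ (3 : ℤ) ∣ q := by
    intro h
    apply h3u
    have : (3 : ℤ) ∣ u ^ 2 := by
      have h4 : u ^ 2 = q ^ 2 + 3 * (27 * t ^ 2) := by linarith
      rw [h4]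
      exact dvd_add (dvd_pow h (by norm_num)) (dvd_mul_right _ _)
    exact Int.prime_three.dvd_of_dvd_pow this
  have hq3 : IsCoprime q 3 := by
    have := (Int.prime_three.coprime_iff_not_dvd).mpr h3q
    exact this.symm
  have hq9t : IsCoprime q (9 * t) := by
    have h9 : IsCoprime q 9 := by
      have : IsCoprime q (3 ^ 2) := hq3.pow_right
      norm_num at this
      exact this
    exact h9.mul_right hqt
  have T1 : PythagoreanTriple p t u := by
    unfold PythagoreanTriple; linarith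
  have T2 : PythagoreanTriple q (9 * t) u := by
    unfold PythagoreanTriple; linarith
  obtain ⟨m, n, hc1, hz1, hg1, hpar1⟩ :=
    PythagoreanTriple.coprime_classification.mp ⟨T1, Int.isCoprime_iff_gcd_eq_one.mp hpt⟩
  obtain ⟨m', n', hc2, hz2, hg2, hpar2⟩ :=
    PythagoreanTriple.coprime_classification.mp ⟨T2, Int.isCoprime_iff_gcd_eq_one.mp hq9t⟩
  have hmn : IsCoprime m n := Int.isCoprime_iff_gcd_eq_one.mpr hg1
  have hmn' : IsCoprime m' n' := Int.isCoprime_iff_gcd_eq_one.mpr hg2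
  have hsum : m ^ 2 + n ^ 2 = m' ^ 2 + n' ^ 2 :=
    sign_aux (by positivity) (by positivity) hz1 hz2
  have hodd1 : (m ^ 2 - n ^ 2) % 2 = 1 := by
    rcases hpar1 with ⟨e1, e2⟩ | ⟨e1, e2⟩ <;>
      simp [Int.sub_emod, pow_two, Int.mul_emod, e1, e2]
  have hodd2 : (m' ^ 2 - n' ^ 2) % 2 = 1 := by
    rcases hpar2 with ⟨e1, e2⟩ | ⟨e1, e2⟩ <;>
      simp [Int.sub_emod, pow_two, Int.mul_emod, e1, e2]
  rcases hc1 with ⟨hp, ht⟩ | ⟨hp, ht⟩ <;> rcases hc2 with ⟨hq, ht'⟩ | ⟨hq, ht'⟩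
  · -- t = 2mn, 9t = 2m'n'
    refine ⟨m, n, m', n', hmn, hmn', hsum, ?_, Or.inr ?_⟩
    · have : 2 * (m' * n') = 2 * (9 * (m * n)) := by rw [ht] at ht'; linarith
      linarith
    · rw [ht]; ring
  · -- t = 2mn even but 9t = m'^2 - n'^2 odd
    exfalso
    rw [ht] at ht'
    have : (9 * (2 * m * n)) % 2 = 0 := by
      have : 9 * (2 * m * n) = 2 * (9 * (m * n)) := by ring
      rw [this]; simp
    omega
  · -- t = m^2 - n^2 odd but 9t = 2m'n' even
    exfalso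
    have : (9 * t) % 2 = 0 := by
      rw [ht']
      have : 2 * m' * n' = 2 * (m' * n') := by ring
      rw [this]; simp
    rw [ht] at this
    omega
  · -- t = m^2 - n^2, 9t = m'^2 - n'^2
    refine ⟨m + n, m - n, m' + n', m' - n', isCoprime_add_sub hmn hpar1,
      isCoprime_add_sub hmn' hpar2, by linear_combination 2 * hsum, ?_, Or.inl ?_⟩
    · have : (m' + n') * (m' - n') = m' ^ 2 - n' ^ 2 := by ring
      rw [this, ← ht', ht]; ring
    · rw [ht]; ring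



theorem nine_dvd_of_mul {c d n : ℤ} (hcd : IsCoprime c d) (h : c * d = 9 * n) :
    (9 : ℤ) ∣ c ∨ (9 : ℤ) ∣ d := by
  have h3 : (3 : ℤ) ∣ c * d := ⟨3 * n, by rw [h]; ring⟩
  have h9 : (9 : ℤ) ∣ c * d := ⟨n, h⟩
  rcases Int.prime_three.dvd_or_dvd h3 with hc | hd
  · left
    have h3d : IsCoprime (3 : ℤ) d := IsCoprime.of_isCoprime_of_dvd_left hcd hc
    have h9d : IsCoprime (9 : ℤ) d := by
      have : IsCoprime ((3 : ℤ) ^ 2) d := h3d.pow_left
      norm_num at this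
      exact this
    exact h9d.dvd_of_dvd_mul_right h9
  · right
    have h3c : IsCoprime (3 : ℤ) c := IsCoprime.of_isCoprime_of_dvd_left hcd.symm hd
    have h9c : IsCoprime (9 : ℤ) c := by
      have : IsCoprime ((3 : ℤ) ^ 2) c := h3c.pow_left
      norm_num at this
      exact this
    exact h9c.dvd_of_dvd_mul_left h9

theorem lt_aux {e x y z w : ℤ} (he : 1 ≤ e) (hx : 1 ≤ x) (hy : 1 ≤ y) (hz : 1 ≤ z) (hw : 1 ≤ w)
    (h : 2 ≤ x ∨ 2 ≤ y ∨ 2 ≤ z) : w < e * (x * y * z * w) := by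
  have hxy : 1 ≤ x * y := by nlinarith
  have hxyz2 : 2 ≤ x * y * z := by
    rcases h with h | h | h
    · have : 2 ≤ x * y := by nlinarith
      nlinarith
    · have : 2 ≤ x * y := by nlinarith
      nlinarith
    · nlinarith
  have h3 : 2 ≤ e * (x * y * z) := by nlinarith
  have : e * (x * y * z * w) = (e * (x * y * z)) * w := by ring
  rw [this]
  nlinarith

theorem one_le_sq {x : ℤ} (hx : x ≠ 0) : 1 ≤ x ^ 2 := by
  have : 0 < x ^ 2 := by positivity
  omega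

theorem two_le_sq_of_ne_one {x : ℤ} (hx : x ≠ 0) (h1 : x ^ 2 ≠ 1) : 2 ≤ x ^ 2 := by
  have := one_le_sq hx
  omega

/-- the core of the descent, once `9 ∣ c` -/
theorem descent_core {t a b c d ε : ℤ} (hab : IsCoprime a b)
    (hsum : a ^ 2 + b ^ 2 = c ^ 2 + d ^ 2) (hprod : c * d = 9 * (a * b))
    (hε : 1 ≤ ε) (ht : t = ε * (a * b)) (ht0 : t ≠ 0) (h9 : (9 : ℤ) ∣ c) :
    ∃ u' t' p' q' : ℤ, u' ^ 2 - t' ^ 2 = p' ^ 2 ∧ u' ^ 2 - 81 * t' ^ 2 = q' ^ 2 ∧ t' ≠ 0 ∧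
      t'.natAbs < t.natAbs := by
  obtain ⟨c', rfl⟩ := h9
  have hab0 : a * b ≠ 0 := by
    rintro h; apply ht0; rw [ht, h, mul_zero]
  have ha0 : a ≠ 0 := left_ne_zero_of_mul hab0
  have hb0 : b ≠ 0 := right_ne_zero_of_mul hab0
  have hc'd : c' * d = a * b := by
    have : 9 * (c' * d) = 9 * (a * b) := by linarith
    linarith
  obtain ⟨a1, b1, ha1, hb1, hc'⟩ := exists_dvd_and_dvd_of_dvd_mul (Dvd.intro d hc'd)
  obtain ⟨a2, rfl⟩ := ha1
  obtain ⟨b2, rfl⟩ := hb1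
  subst hc'
  have ha1 : a1 ≠ 0 := left_ne_zero_of_mul ha0
  have ha2 : a2 ≠ 0 := right_ne_zero_of_mul ha0
  have hb1 : b1 ≠ 0 := left_ne_zero_of_mul hb0
  have hb2 : b2 ≠ 0 := right_ne_zero_of_mul hb0
  have hd : d = a2 * b2 := by
    have h : (a1 * b1) * d = (a1 * b1) * (a2 * b2) := by rw [hc'd]; ring
    exact mul_left_cancel₀ (mul_ne_zero ha1 hb1) h
  subst hd
  have hcop1 : IsCoprime a1 b2 := hab.of_mul_left_left.of_mul_right_right
  have hcop2 : IsCoprime a2 b1 := hab.of_mul_left_right.of_mul_right_left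
  have heq : a1 ^ 2 * (a2 ^ 2 - 81 * b1 ^ 2) = b2 ^ 2 * (a2 ^ 2 - b1 ^ 2) := by
    linear_combination hsum
  have hdvd : a1 ^ 2 ∣ a2 ^ 2 - b1 ^ 2 := by
    have h : a1 ^ 2 ∣ b2 ^ 2 * (a2 ^ 2 - b1 ^ 2) := Dvd.intro _ heq
    exact (hcop1.pow (m := 2) (n := 2)).dvd_of_dvd_mul_left h
  obtain ⟨k, hk⟩ := hdvd
  have hk1 : a2 ^ 2 - b1 ^ 2 = k * a1 ^ 2 := by rw [hk]; ring
  have hk2 : a2 ^ 2 - 81 * b1 ^ 2 = k * b2 ^ 2 := by
    have h : a1 ^ 2 * (a2 ^ 2 - 81 * b1 ^ 2) = a1 ^ 2 * (k * b2 ^ 2) := by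
      rw [heq, hk]; ring
    exact mul_left_cancel₀ (pow_ne_zero 2 ha1) h
  obtain ⟨u', t', p', q', e1, e2, ht'⟩ := translate_to_principal hcop2 hcop1 hk1 hk2
  refine ⟨u', t', p', q', e1, e2, ?_, ?_⟩
  · rcases ht' with rfl | rfl | rfl | rfl <;> assumption
  · rw [Int.natAbs_lt_iff_sq_lt, ht]
    have hA1 := one_le_sq ha1
    have hA2 := one_le_sq ha2
    have hB1 := one_le_sq hb1
    have hB2 := one_le_sq hb2
    have hE : 1 ≤ ε ^ 2 := by nlinarith
    rcases ht' with rfl | rfl | rfl | rfl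
    · -- t' = b1
      have key : 2 ≤ a1 ^ 2 ∨ 2 ≤ a2 ^ 2 ∨ 2 ≤ b2 ^ 2 := by
        by_contra hcon
        simp only [not_or, not_le] at hcon
        obtain ⟨h1, h2, h3⟩ := hcon
        have e1 : a1 ^ 2 = 1 := by omega
        have e2 : a2 ^ 2 = 1 := by omega
        have e3 : b2 ^ 2 = 1 := by omega
        rw [e1, e2] at hk1
        rw [e2, e3] at hk2
        have : t' ^ 2 = 0 := by linarith
        have : t' = 0 := by simpa using this
        exact hb1 this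
      have := lt_aux hE hA1 hA2 hB2 hB1 key
      calc t' ^ 2 < ε ^ 2 * (a1 ^ 2 * a2 ^ 2 * b2 ^ 2 * t' ^ 2) := this
        _ = (ε * (a1 * a2 * (t' * b2))) ^ 2 := by ring
    · -- t' = a2
      have key : 2 ≤ a1 ^ 2 ∨ 2 ≤ b1 ^ 2 ∨ 2 ≤ b2 ^ 2 := by
        by_contra hcon
        simp only [not_or, not_le] at hcon
        obtain ⟨h1, h2, h3⟩ := hcon
        have e1 : a1 ^ 2 = 1 := by omega
        have e2 : b1 ^ 2 = 1 := by omega
        have e3 : b2 ^ 2 = 1 := by omega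
        rw [e1, e2] at hk1
        rw [e2, e3] at hk2
        linarith
      have := lt_aux hE hA1 hB1 hB2 hA2 key
      calc t' ^ 2 < ε ^ 2 * (a1 ^ 2 * b1 ^ 2 * b2 ^ 2 * t' ^ 2) := this
        _ = (ε * (a1 * t' * (b1 * b2))) ^ 2 := by ring
    · -- t' = a1
      have key : 2 ≤ a2 ^ 2 ∨ 2 ≤ b1 ^ 2 ∨ 2 ≤ b2 ^ 2 := by
        by_contra hcon
        simp only [not_or, not_le] at hcon
        obtain ⟨h1, h2, h3⟩ := hcon
        have e1 : a2 ^ 2 = 1 := by omega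
        have e2 : b1 ^ 2 = 1 := by omega
        have e3 : b2 ^ 2 = 1 := by omega
        rw [e1, e2] at hk1
        rw [e1, e2, e3] at hk2
        have hk80 : k = -80 := by linarith
        rw [hk80] at hk1
        have : t' ^ 2 = 0 := by linarith
        have : t' = 0 := by simpa using this
        exact ha1 this
      have := lt_aux hE hA2 hB1 hB2 hA1 key
      calc t' ^ 2 < ε ^ 2 * (a2 ^ 2 * b1 ^ 2 * b2 ^ 2 * t' ^ 2) := this
        _ = (ε * (t' * a2 * (b1 * b2))) ^ 2 := by ring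
    · -- t' = b2
      have key : 2 ≤ a1 ^ 2 ∨ 2 ≤ a2 ^ 2 ∨ 2 ≤ b1 ^ 2 := by
        by_contra hcon
        simp only [not_or, not_le] at hcon
        obtain ⟨h1, h2, h3⟩ := hcon
        have e1 : a1 ^ 2 = 1 := by omega
        have e2 : a2 ^ 2 = 1 := by omega
        have e3 : b1 ^ 2 = 1 := by omega
        rw [e1, e2, e3] at hk1
        rw [e2, e3] at hk2
        have hk0 : k = 0 := by linarith
        rw [hk0] at hk2
        linarith
      have := lt_aux hE hA1 hA2 hB1 hB2 key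
      calc t' ^ 2 < ε ^ 2 * (a1 ^ 2 * a2 ^ 2 * b1 ^ 2 * t' ^ 2) := this
        _ = (ε * (a1 * a2 * (b1 * t'))) ^ 2 := by ring

theorem descent_step {u t p q : ℤ} (hut : IsCoprime u t) (ht : t ≠ 0)
    (h1 : u ^ 2 - t ^ 2 = p ^ 2) (h2 : u ^ 2 - 81 * t ^ 2 = q ^ 2) :
    ∃ u' t' p' q' : ℤ, u' ^ 2 - t' ^ 2 = p' ^ 2 ∧ u' ^ 2 - 81 * t' ^ 2 = q' ^ 2 ∧ t' ≠ 0 ∧
      t'.natAbs < t.natAbs := by
  obtain ⟨a, b, c, d, hab, hcd, hsum, hprod, htab⟩ := exists_abcd hut h1 h2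
  have key : ∃ ε : ℤ, 1 ≤ ε ∧ t = ε * (a * b) := by
    rcases htab with h | h
    · exact ⟨1, le_refl _, by rw [h]; ring⟩
    · exact ⟨2, by norm_num, h⟩
  obtain ⟨ε, hε, htε⟩ := key
  rcases nine_dvd_of_mul hcd hprod with h9 | h9
  · exact descent_core hab hsum hprod hε htε ht h9
  · exact descent_core (c := d) (d := c) hab (by linarith) (by linarith) hε htε ht h9

/-- The principal system has only trivial solutions. -/
theorem principal_trivial : ∀ (n : ℕ) (u t p q : ℤ), t.natAbs = n →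
    u ^ 2 - t ^ 2 = p ^ 2 → u ^ 2 - 81 * t ^ 2 = q ^ 2 → t = 0 := by
  intro n
  induction n using Nat.strong_induction_on with
  | _ n ih =>
    intro u t p q hn h1 h2
    by_contra ht
    -- reduce to the coprime case
    set g : ℤ := (Int.gcd u t : ℤ) with hg
    have hg0 : g ≠ 0 := by
      rw [hg]
      have : Int.gcd u t ≠ 0 := by
        intro h
        exact ht (Int.gcd_eq_zero_iff.mp h).2
      exact_mod_cast this
    obtain ⟨u0, hu0⟩ : g ∣ u := Int.gcd_dvd_left u t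
    obtain ⟨t0, ht0⟩ : g ∣ t := Int.gcd_dvd_right u t
    have hcop : IsCoprime u0 t0 := by
      rw [Int.isCoprime_iff_gcd_eq_one]
      have h3 : Int.gcd u t = Int.gcd (g * u0) (g * t0) := by rw [← hu0, ← ht0]
      rw [Int.gcd_mul_left] at h3
      have h4 : (g.natAbs : ℤ) = g := by
        rw [hg]; simp
      have h5 : g.natAbs = Int.gcd u t := by
        rw [hg]; simp
      have h6 : g.natAbs ≠ 0 := Int.natAbs_ne_zero.mpr hg0
      rw [← h5] at h3
      have : g.natAbs * 1 = g.natAbs * Int.gcd u0 t0 := by rw [mul_one]; exact h3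
      exact (Nat.eq_of_mul_eq_mul_left (Nat.pos_of_ne_zero h6) this).symm
    have hgp : g ∣ p := by
      have : g ^ 2 ∣ p ^ 2 := by
        rw [← h1, hu0, ht0]
        exact ⟨u0 ^ 2 - t0 ^ 2, by ring⟩
      exact (Int.pow_dvd_pow_iff (by norm_num)).mp this
    have hgq : g ∣ q := by
      have : g ^ 2 ∣ q ^ 2 := by
        rw [← h2, hu0, ht0]
        exact ⟨u0 ^ 2 - 81 * t0 ^ 2, by ring⟩
      exact (Int.pow_dvd_pow_iff (by norm_num)).mp this
    obtain ⟨p0, hp0⟩ := hgp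
    obtain ⟨q0, hq0⟩ := hgq
    have hg2 : g ^ 2 ≠ 0 := pow_ne_zero 2 hg0
    have e1 : u0 ^ 2 - t0 ^ 2 = p0 ^ 2 := by
      have : g ^ 2 * (u0 ^ 2 - t0 ^ 2) = g ^ 2 * p0 ^ 2 := by
        have := h1; rw [hu0, ht0, hp0] at this; linarith
      exact mul_left_cancel₀ hg2 this
    have e2 : u0 ^ 2 - 81 * t0 ^ 2 = q0 ^ 2 := by
      have : g ^ 2 * (u0 ^ 2 - 81 * t0 ^ 2) = g ^ 2 * q0 ^ 2 := by
        have := h2; rw [hu0, ht0, hq0] at this; linarith
      exact mul_left_cancel₀ hg2 this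
    have ht00 : t0 ≠ 0 := by
      rintro rfl; apply ht; rw [ht0, mul_zero]
    have hle : t0.natAbs ≤ t.natAbs := by
      rw [ht0, Int.natAbs_mul]
      exact Nat.le_mul_of_pos_left _ (Nat.pos_of_ne_zero (Int.natAbs_ne_zero.mpr hg0))
    obtain ⟨u', t', p', q', f1, f2, ht'0, hlt⟩ := descent_step hcop ht00 e1 e2
    exact ht'0 (ih t'.natAbs (by omega) u' t' p' q' rfl f1 f2)

/-- integral form: coprime `U, T` with `(U² - T²)(U² - 81 T²)` a square. -/
theorem int_class {U T W : ℤ} (hUT : IsCoprime U T)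
    (h : (U ^ 2 - T ^ 2) * (U ^ 2 - 81 * T ^ 2) = W ^ 2) :
    T = 0 ∨ U = 0 ∨ U ^ 2 = T ^ 2 ∨ U ^ 2 = 81 * T ^ 2 := by
  by_contra hcon
  simp only [not_or] at hcon
  obtain ⟨hT, hU, hA, hB⟩ := hcon
  set A := U ^ 2 - T ^ 2 with hAdef
  set B := U ^ 2 - 81 * T ^ 2 with hBdef
  have hA0 : A ≠ 0 := fun h0 => hA (by linarith)
  have hB0 : B ≠ 0 := fun h0 => hB (by linarith)
  have hW0 : W ≠ 0 := by
    rintro rfl
    have : A * B = 0 := by rw [h]; ring
    rcases mul_eq_zero.mp this with h0 | h0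
    · exact hA0 h0
    · exact hB0 h0
  -- split off the gcd
  obtain ⟨A', B', hg1, hA', hB'⟩ := Int.exists_gcd_one (m := A) (n := B)
    (Nat.pos_of_ne_zero (by
      intro h0; exact hA0 (Int.gcd_eq_zero_iff.mp h0).1))
  set g : ℤ := (Int.gcd A B : ℤ) with hg
  have hg0 : g ≠ 0 := by
    rw [hg]
    have : Int.gcd A B ≠ 0 := fun h0 => hA0 (Int.gcd_eq_zero_iff.mp h0).1
    exact_mod_cast this
  have hgpos : 0 < g := by
    rw [hg]; exact_mod_cast Nat.pos_of_ne_zero (fun h0 => hA0 (Int.gcd_eq_zero_iff.mp h0).1)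
  have hgW : g ∣ W := by
    have : g ^ 2 ∣ W ^ 2 := by
      rw [← h, hA', hB']
      exact ⟨A' * B', by ring⟩
    exact (Int.pow_dvd_pow_iff (by norm_num)).mp this
  obtain ⟨W', hW'⟩ := hgW
  have hW'0 : W' ≠ 0 := by
    rintro rfl; apply hW0; rw [hW', mul_zero]
  have hprod : A' * B' = W' ^ 2 := by
    have : g ^ 2 * (A' * B') = g ^ 2 * W' ^ 2 := by
      have := h; rw [hA', hB', hW'] at this; linarith
    exact mul_left_cancel₀ (pow_ne_zero 2 hg0) this
  obtain ⟨P, hP⟩ := Int.sq_of_gcd_eq_one hg1 hprod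
  have hg1' : Int.gcd B' A' = 1 := by rw [Int.gcd_comm]; exact hg1
  obtain ⟨Q, hQ⟩ := Int.sq_of_gcd_eq_one hg1' (by rw [mul_comm]; exact hprod)
  have hcopAB : IsCoprime A' B' := Int.isCoprime_iff_gcd_eq_one.mpr hg1
  have hposprod : 0 < A' * B' := by rw [hprod]; positivity
  -- same sign
  have hsign : (A' = P ^ 2 ∧ B' = Q ^ 2) ∨ (A' = -P ^ 2 ∧ B' = -Q ^ 2) := by
    rcases hP with hP | hP <;> rcases hQ with hQ | hQ
    · exact Or.inl ⟨hP, hQ⟩
    · exfalso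
      rw [hP, hQ] at hposprod
      nlinarith [sq_nonneg P, sq_nonneg Q, sq_nonneg (P * Q)]
    · exfalso
      rw [hP, hQ] at hposprod
      nlinarith [sq_nonneg P, sq_nonneg Q, sq_nonneg (P * Q)]
    · exact Or.inr ⟨hP, hQ⟩
  have hPQ : IsCoprime P Q := by
    rcases hsign with ⟨hP, hQ⟩ | ⟨hP, hQ⟩
    · rw [hP, hQ] at hcopAB
      exact (IsCoprime.pow_iff (by norm_num) (by norm_num)).mp hcopAB
    · rw [hP, hQ] at hcopAB
      have : IsCoprime (P ^ 2) (Q ^ 2) := (IsCoprime.neg_neg_iff _ _).mp hcopAB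
      exact (IsCoprime.pow_iff (by norm_num) (by norm_num)).mp this
  obtain ⟨k, hk1, hk2⟩ : ∃ k : ℤ, A = k * P ^ 2 ∧ B = k * Q ^ 2 := by
    rcases hsign with ⟨hP, hQ⟩ | ⟨hP, hQ⟩
    · exact ⟨g, by rw [hA', hP]; ring, by rw [hB', hQ]; ring⟩
    · exact ⟨-g, by rw [hA', hP]; ring, by rw [hB', hQ]; ring⟩
  have hP0 : P ≠ 0 := by
    rintro rfl; apply hA0; rw [hk1]; ring
  have hQ0 : Q ≠ 0 := by
    rintro rfl; apply hB0; rw [hk2]; ring
  obtain ⟨u', t', p', q', e1, e2, ht'⟩ := translate_to_principal hUT hPQ hk1 hk2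
  have ht'0 : t' = 0 := principal_trivial _ u' t' p' q' rfl e1 e2
  rcases ht' with rfl | rfl | rfl | rfl
  · exact hT ht'0
  · exact hU ht'0
  · exact hP0 ht'0
  · exact hQ0 ht'0

/-- rational form -/
theorem rat_class {R S : ℚ} (h : (R ^ 2 - 1) * (R ^ 2 - 81) = S ^ 2) :
    R = 0 ∨ R ^ 2 = 1 ∨ R ^ 2 = 81 := by
  have hden : (R.den : ℚ) ≠ 0 := by exact_mod_cast R.den_ne_zero
  have hR : R = (R.num : ℚ) / (R.den : ℚ) := (Rat.num_div_den R).symm
  set U : ℤ := R.num with hU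
  set T : ℤ := (R.den : ℤ) with hT
  have hT0 : (T : ℚ) ≠ 0 := by rw [hT]; exact_mod_cast R.den_ne_zero
  have hRU : R = (U : ℚ) / (T : ℚ) := by rw [hR]; simp [hU, hT]
  have hcop : IsCoprime U T := by
    rw [Int.isCoprime_iff_gcd_eq_one, hU, hT]
    have := R.reduced
    simpa [Int.gcd, Nat.Coprime] using this
  -- the integer N is a square
  have hsq : IsSquare (((U ^ 2 - T ^ 2) * (U ^ 2 - 81 * T ^ 2) : ℤ) : ℚ) := by
    refine ⟨S * (T : ℚ) ^ 2, ?_⟩
    have : ((((U ^ 2 - T ^ 2) * (U ^ 2 - 81 * T ^ 2) : ℤ)) : ℚ) =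
        ((R ^ 2 - 1) * (R ^ 2 - 81)) * (T : ℚ) ^ 4 := by
      rw [hRU]; push_cast; field_simp
    rw [this, h]; ring
  rw [Rat.isSquare_intCast_iff] at hsq
  obtain ⟨W, hW⟩ := hsq
  have hint := int_class (W := W) hcop (by rw [hW]; ring)
  rcases hint with h0 | h0 | h0 | h0
  · exfalso; apply hT0; rw [h0]; simp
  · left; rw [hRU, h0]; simp
  · right; left
    rw [hRU, div_pow]
    have : ((U : ℚ)) ^ 2 = (T : ℚ) ^ 2 := by exact_mod_cast h0
    rw [this]; field_simp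
  · right; right
    rw [hRU, div_pow]
    have : ((U : ℚ)) ^ 2 = 81 * (T : ℚ) ^ 2 := by exact_mod_cast h0
    rw [this]; field_simp

/-- The rational points of `y² = (v² + v - 1)(v² - 11 v - 1)`. -/
theorem quartic_rational_points (v y : ℚ) (h : y ^ 2 = (v ^ 2 + v - 1) * (v ^ 2 - 11 * v - 1)) :
    v = 0 ∨ v = -2 ∨ v = 1 / 2 := by
  by_cases hv2 : v = -2
  · exact Or.inr (Or.inl hv2)
  have hv : v + 2 ≠ 0 := fun h0 => hv2 (by linarith)
  set R : ℚ := (y + v ^ 2 + 4 * v - 1) / (v + 2) with hR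
  set K : ℚ := v * (2 * v - 1) / (v + 2) with hK
  have hid : R ^ 2 * (R ^ 2 - 1) = (R ^ 2 - 81) * K ^ 2 := by
    rw [hR, hK]
    field_simp
    ring_nf
    have h4 : y ^ 4 = ((v ^ 2 + v - 1) * (v ^ 2 - 11 * v - 1)) ^ 2 := by rw [← h]; ring
    have h3 : y ^ 3 = y * ((v ^ 2 + v - 1) * (v ^ 2 - 11 * v - 1)) := by rw [← h]; ring
    rw [h4, h3, h]
    ring
  have hK0 : K = 0 → v = 0 ∨ v = -2 ∨ v = 1 / 2 := by
    intro hk
    rw [hK, div_eq_zero_iff] at hk
    rcases hk with hk | hk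
    · rcases mul_eq_zero.mp hk with h0 | h0
      · exact Or.inl h0
      · right; right; linarith
    · exact absurd hk hv
  by_cases hR0 : R = 0
  · apply hK0
    rw [hR0] at hid
    have : K ^ 2 = 0 := by nlinarith
    simpa using this
  · have hS : (R ^ 2 - 1) * (R ^ 2 - 81) = ((R ^ 2 - 81) * K / R) ^ 2 := by
      field_simp
      linear_combination (R ^ 2 - 81) * hid
    rcases rat_class hS with h0 | h0 | h0
    · exact absurd h0 hR0
    · apply hK0
      rw [h0] at hid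
      have : K ^ 2 = 0 := by nlinarith
      simpa using this
    · exfalso
      rw [h0] at hid
      norm_num at hid


end Fermat.Agent.S51.Descent
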