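/-
S51 package L (helper19): pure linear algebra over `ZMod p`.

A proper nonzero subspace of a finite `ZMod p`-vector space with fewer than `p ^ 3` elements
is a line: every element is a natural-number multiple of any nonzero element.
-/
import Mathlib

namespace Fermat.Agent.S51

/-- A finite `ZMod p`-vector space with fewer than `p ^ 3` elements has dimension at most `2`. -/
theorem lines_finrank_le_two {p : ℕ} [Fact p.Prime] {V : Type*} [AddCommGroup V]
    [Module (ZMod p) V] [Finite V] (hcard : Nat.card V < p ^ 3) :
    Module.finrank (ZMod p) V ≤ 2 := by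
  have hp : 1 < p := (Fact.out : p.Prime).one_lt
  have h := Module.natCard_eq_pow_finrank (K := ZMod p) (V := V)
  rw [Nat.card_zmod] at h
  rw [h] at hcard
  have := (Nat.pow_lt_pow_iff_right hp).1 hcard
  omega

/-- A proper subspace of a finite `ZMod p`-vector space with fewer than `p ^ 3` elements has
dimension at most `1`. -/
theorem lines_finrank_le_one {p : ℕ} [Fact p.Prime] {V : Type*} [AddCommGroup V]
    [Module (ZMod p) V] [Finite V] (hcard : Nat.card V < p ^ 3)
    (N : Submodule (ZMod p) V) (htop : N ≠ ⊤) :
    Module.finrank (ZMod p) N ≤ 1 := by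
  have h2 := lines_finrank_le_two (p := p) (V := V) hcard
  have hlt : Module.finrank (ZMod p) N < Module.finrank (ZMod p) V :=
    Submodule.finrank_lt htop
  omega

/-- **Package L.** In a finite `ZMod p`-vector space with fewer than `p ^ 3` elements, a proper
nonzero subspace is a line, and every element of it is a multiple of any nonzero element. -/
theorem exists_nsmul_of_proper {p : ℕ} [Fact p.Prime] {V : Type*} [AddCommGroup V]
    [Module (ZMod p) V] [Finite V] (hcard : Nat.card V < p ^ 3) (N : Submodule (ZMod p) V)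
    (hbot : N ≠ ⊥) (htop : N ≠ ⊤) {P Q : V} (hP : P ∈ N) (hP0 : P ≠ 0) (hQ : Q ∈ N) :
    ∃ k : ℕ, Q = k • P := by
  have _ := hbot
  have h1 : Module.finrank (ZMod p) N ≤ 1 := lines_finrank_le_one hcard N htop
  have hP' : (⟨P, hP⟩ : N) ≠ 0 := fun h => hP0 (by simpa using congrArg Subtype.val h)
  have hpos : 0 < Module.finrank (ZMod p) N :=
    Module.finrank_pos_iff_exists_ne_zero.2 ⟨_, hP'⟩
  have hone : Module.finrank (ZMod p) N = 1 := by omega
  obtain ⟨c, hc⟩ := exists_smul_eq_of_finrank_eq_one hone hP' ⟨Q, hQ⟩
  refine ⟨c.val, ?_⟩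
  have hc' : c • P = Q := by simpa using congrArg Subtype.val hc
  rw [← hc']
  conv_lhs => rw [← ZMod.natCast_zmod_val c]
  rw [Nat.cast_smul_eq_nsmul]

end Fermat.Agent.S51
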