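import Mathlib
import Fermat.Agent.S51.Defs

set_option autoImplicit false

/-!
S51 package `P-polyids` (helper50): the polynomial identities behind the existence of a point of
order five, as statements about elements of an arbitrary commutative ring `F`
(only `WeierstrassCurve.b_relation : 4 b₈ = b₂ b₆ - b₄²` is used, no division).

With `D = psi2sq E x`, `N = phi2 E x`:
* `polyid_phi2` : `N = x * D - psi3`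
* `polyid0` : `16 * psi3 = 2 * D * D'' - D' ^ 2`
* `polyid1` : `4 N³ + b₂ N² D + 2 b₄ N D² + b₆ D³ = pre4²`   (`psi2sq (N / D) * D³ = pre4²`)
* `polyid2` : `(N⁴ - b₄ N² D² - 2 b₆ N D³ - b₈ D⁴) - x * D * pre4² = - psi3 * psi5`
  (`(phi2 (N / D) - x * psi2sq (N / D)) * D⁴ = - psi3 * psi5`, i.e. `x(4P) - x(P)`).
Also bridges to Mathlib's `Ψ₂Sq`, `Ψ₃`, `preΨ₄`, `preΨ' 5`, `Φ 2` and the degree of `preΨ' 5`.
-/

namespace Fermat.Agent.S51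

open Polynomial

variable {F : Type*} [CommRing F]

/-- Evaluated `preΨ₄`:
`2x⁶ + b₂x⁵ + 5b₄x⁴ + 10b₆x³ + 10b₈x² + (b₂b₈ - b₄b₆)x + (b₄b₈ - b₆²)`. -/
def pre4 (E : WeierstrassCurve F) (x : F) : F :=
  2 * x ^ 6 + E.b₂ * x ^ 5 + 5 * E.b₄ * x ^ 4 + 10 * E.b₆ * x ^ 3 + 10 * E.b₈ * x ^ 2 +
    (E.b₂ * E.b₈ - E.b₄ * E.b₆) * x + (E.b₄ * E.b₈ - E.b₆ ^ 2)

/-- Evaluated `Ψ₅ = preΨ₄ * Ψ₂Sq² - Ψ₃³`. -/
def psi5 (E : WeierstrassCurve F) (x : F) : F :=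
  pre4 E x * psi2sq E x ^ 2 - psi3 E x ^ 3

/-- `φ₂ = x ψ₂² - ψ₃ ψ₁`. -/
theorem polyid_phi2 (E : WeierstrassCurve F) (x : F) :
    phi2 E x = x * psi2sq E x - psi3 E x := by
  unfold phi2 psi2sq psi3
  ring

/-- (Id0) `16 Ψ₃ = 2 Ψ₂Sq Ψ₂Sq'' - (Ψ₂Sq')²`. -/
theorem polyid0 (E : WeierstrassCurve F) (x : F) :
    16 * psi3 E x = 2 * psi2sq E x * (24 * x + 2 * E.b₂)
      - (12 * x ^ 2 + 2 * E.b₂ * x + 2 * E.b₄) ^ 2 := by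
  unfold psi2sq psi3
  linear_combination (4 : F) * E.b_relation

/-- (Id1) `4N³ + b₂N²D + 2b₄ND² + b₆D³ = preΨ₄²`, where `N = phi2`, `D = psi2sq`. -/
theorem polyid1 (E : WeierstrassCurve F) (x : F) :
    4 * phi2 E x ^ 3 + E.b₂ * phi2 E x ^ 2 * psi2sq E x
        + 2 * E.b₄ * phi2 E x * psi2sq E x ^ 2 + E.b₆ * psi2sq E x ^ 3
      = pre4 E x ^ 2 := by
  unfold phi2 psi2sq pre4
  linear_combination
    (-13 * x^8 - 8 * x^7 * E.b₂ - x^6 * E.b₂^2 - 28 * x^6 * E.b₄ - 6 * x^5 * E.b₂ * E.b₄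
      - 38 * x^5 * E.b₆ - 7 * x^4 * E.b₂ * E.b₆ - 8 * x^4 * E.b₄^2 - 22 * x^4 * E.b₈
      - 4 * x^3 * E.b₂ * E.b₈ - 16 * x^3 * E.b₄ * E.b₆ - 8 * x^2 * E.b₄ * E.b₈
      - 7 * x^2 * E.b₆^2 - 6 * x * E.b₆ * E.b₈ - E.b₈^2) * E.b_relation

/-- (Id2) `(N⁴ - b₄N²D² - 2b₆ND³ - b₈D⁴) - x D preΨ₄² = -Ψ₃ Ψ₅`. -/
theorem polyid2 (E : WeierstrassCurve F) (x : F) :
    (phi2 E x ^ 4 - E.b₄ * phi2 E x ^ 2 * psi2sq E x ^ 2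
        - 2 * E.b₆ * phi2 E x * psi2sq E x ^ 3 - E.b₈ * psi2sq E x ^ 4)
      - x * psi2sq E x * pre4 E x ^ 2
      = - (psi3 E x * psi5 E x) := by
  unfold psi5 phi2 psi2sq psi3 pre4
  linear_combination
    (-4 * x^12 - 5 * x^11 * E.b₂ - x^10 * E.b₂^2 - 42 * x^10 * E.b₄ - 16 * x^9 * E.b₂ * E.b₄
      - 93 * x^9 * E.b₆ - x^8 * E.b₂^2 * E.b₄ - 36 * x^8 * E.b₂ * E.b₆ - 28 * x^8 * E.b₄^2
      - 72 * x^8 * E.b₈ - 3 * x^7 * E.b₂^2 * E.b₆ - 4 * x^7 * E.b₂ * E.b₄^2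
      - 30 * x^7 * E.b₂ * E.b₈ - 84 * x^7 * E.b₄ * E.b₆ - 3 * x^6 * E.b₂^2 * E.b₈
      - 14 * x^6 * E.b₂ * E.b₄ * E.b₆ - 4 * x^6 * E.b₄^3 - 60 * x^6 * E.b₄ * E.b₈
      - 39 * x^6 * E.b₆^2 - 12 * x^5 * E.b₂ * E.b₄ * E.b₈ - 7 * x^5 * E.b₂ * E.b₆^2
      - 16 * x^5 * E.b₄^2 * E.b₆ - 38 * x^5 * E.b₆ * E.b₈ - 8 * x^4 * E.b₂ * E.b₆ * E.b₈
      - 12 * x^4 * E.b₄^2 * E.b₈ - 15 * x^4 * E.b₄ * E.b₆^2 - 4 * x^4 * E.b₈^2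
      - x^3 * E.b₂ * E.b₈^2 - 16 * x^3 * E.b₄ * E.b₆ * E.b₈ - 4 * x^3 * E.b₆^3
      - 2 * x^2 * E.b₄ * E.b₈^2 - 5 * x^2 * E.b₆^2 * E.b₈ - x * E.b₆ * E.b₈^2) * E.b_relation

/-! ### Bridges to Mathlib's division polynomials -/

theorem eval_Ψ₂Sq (E : WeierstrassCurve F) (x : F) : (E.Ψ₂Sq).eval x = psi2sq E x := by
  simp [WeierstrassCurve.Ψ₂Sq, psi2sq]

theorem eval_Ψ₃ (E : WeierstrassCurve F) (x : F) : (E.Ψ₃).eval x = psi3 E x := by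
  simp [WeierstrassCurve.Ψ₃, psi3]

theorem eval_preΨ₄ (E : WeierstrassCurve F) (x : F) : (E.preΨ₄).eval x = pre4 E x := by
  simp [WeierstrassCurve.preΨ₄, pre4]

/-- Mathlib's `preΨ' 5` is `preΨ₄ * Ψ₂Sq² - Ψ₃³`. -/
theorem preΨ'_five (E : WeierstrassCurve F) :
    E.preΨ' 5 = E.preΨ₄ * E.Ψ₂Sq ^ 2 - E.Ψ₃ ^ 3 := by
  have h := E.preΨ'_odd 0
  simp only [Nat.zero_add, Nat.reduceAdd, Nat.reduceMul] at h
  rw [h, E.preΨ'_four, E.preΨ'_two, E.preΨ'_one, E.preΨ'_three]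
  simp

theorem eval_preΨ'_five (E : WeierstrassCurve F) (x : F) :
    (E.preΨ' 5).eval x = psi5 E x := by
  rw [preΨ'_five, psi5]
  simp [eval_Ψ₂Sq, eval_Ψ₃, eval_preΨ₄]

/-- `preΨ' 5` has degree `12` when `5 ≠ 0`. -/
theorem natDegree_preΨ'_five (E : WeierstrassCurve F) (h5 : (5 : F) ≠ 0) :
    (E.preΨ' 5).natDegree = 12 := by
  have h := E.natDegree_preΨ' (n := 5) (by exact_mod_cast h5)
  rw [h]
  norm_num [Nat.even_iff]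

/-- Over an algebraically closed field with `5 ≠ 0`, `psi5 E` has a root. -/
theorem exists_root_psi5 {K : Type*} [Field K] [IsAlgClosed K] (E : WeierstrassCurve K)
    (h5 : (5 : K) ≠ 0) : ∃ x : K, psi5 E x = 0 := by
  have hdeg : (E.preΨ' 5).degree ≠ 0 := by
    have hne : E.preΨ' 5 ≠ 0 := E.preΨ'_ne_zero (by exact_mod_cast h5)
    rw [Polynomial.degree_eq_natDegree hne, natDegree_preΨ'_five E h5]
    norm_num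
  obtain ⟨x, hx⟩ := IsAlgClosed.exists_root (E.preΨ' 5) hdeg
  exact ⟨x, by rw [← eval_preΨ'_five]; exact hx⟩

end Fermat.Agent.S51
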