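import Mathlib
import Fermat.Agent.S51.Defs
import Fermat.Agent.S51.PolyIds

set_option autoImplicit false

/-!
S51 package `P-polyids`, part 2 (helper50): the purely algebraic chain at a root of `psi5`.

For a Weierstrass curve `E` over a field `K` with `Δ ≠ 0`, `2 ≠ 0`, `3 ≠ 0`, and `x : K` with
`psi5 E x = 0`, put `x₂ := phi2 E x / psi2sq E x` (the `x`-coordinate of `2P`).  Then
`psi2sq E x ≠ 0`, `psi3 E x ≠ 0`, `pre4 E x ≠ 0`, `psi2sq E x₂ ≠ 0`, `x₂ ≠ x`,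
`x₂ * psi2sq E x = phi2 E x` and `x * psi2sq E x₂ = phi2 E x₂`.
No points of the curve are used.
-/

namespace Fermat.Agent.S51

variable {F : Type*} [CommRing F]

/-- Bezout certificate for `Ψ₂Sq` and its derivative: a combination equal to `-144 Δ`. -/
theorem polyid_disc (E : WeierstrassCurve F) (x : F) :
    ((24 * E.b₄ - E.b₂ ^ 2) ^ 2
        + (6 * (24 * E.b₄ - E.b₂ ^ 2) * x + E.b₂ * (24 * E.b₄ - E.b₂ ^ 2)
            - 6 * (18 * E.b₆ - E.b₂ * E.b₄)) * (12 * x + E.b₂))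
        * (12 * x ^ 2 + 2 * E.b₂ * x + 2 * E.b₄)
      + (-36 * (6 * (24 * E.b₄ - E.b₂ ^ 2) * x + E.b₂ * (24 * E.b₄ - E.b₂ ^ 2)
            - 6 * (18 * E.b₆ - E.b₂ * E.b₄))) * psi2sq E x
      = -144 * E.Δ := by
  unfold psi2sq
  rw [WeierstrassCurve.Δ]
  linear_combination (-36 * E.b₂ ^ 2) * E.b_relation

/-- `psi2sq (N / D) * D³ = 4N³ + b₂N²D + 2b₄ND² + b₆D³`. -/
theorem psi2sq_div_mul {K : Type*} [Field K] (E : WeierstrassCurve K) (N D : K) (hD : D ≠ 0) :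
    psi2sq E (N / D) * D ^ 3
      = 4 * N ^ 3 + E.b₂ * N ^ 2 * D + 2 * E.b₄ * N * D ^ 2 + E.b₆ * D ^ 3 := by
  unfold psi2sq
  field_simp

/-- `phi2 (N / D) * D⁴ = N⁴ - b₄N²D² - 2b₆ND³ - b₈D⁴`. -/
theorem phi2_div_mul {K : Type*} [Field K] (E : WeierstrassCurve K) (N D : K) (hD : D ≠ 0) :
    phi2 E (N / D) * D ^ 4
      = N ^ 4 - E.b₄ * N ^ 2 * D ^ 2 - 2 * E.b₆ * N * D ^ 3 - E.b₈ * D ^ 4 := by
  unfold phi2
  field_simp

section Field

variable {K : Type*} [Field K] (E : WeierstrassCurve K)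

/-- At a root of `psi5` the polynomial `psi2sq` does not vanish (if `Δ ≠ 0`, `2, 3 ≠ 0`). -/
theorem psi2sq_ne_zero_of_psi5 (hΔ : E.Δ ≠ 0) (h2 : (2 : K) ≠ 0) (h3 : (3 : K) ≠ 0)
    {x : K} (h5 : psi5 E x = 0) : psi2sq E x ≠ 0 := by
  intro hD
  -- Id2 gives `phi2 ^ 4 = 0`
  have hN : phi2 E x = 0 := by
    have h := polyid2 E x
    rw [h5, hD] at h
    have h4 : phi2 E x ^ 4 = 0 := by linear_combination h
    exact pow_eq_zero_iff (by norm_num) |>.mp h4
  -- hence `psi3 = 0`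
  have hpsi3 : psi3 E x = 0 := by
    have h := polyid_phi2 E x
    rw [hN, hD] at h
    linear_combination h
  -- Id0 gives `D' ^ 2 = 0`
  have hD' : 12 * x ^ 2 + 2 * E.b₂ * x + 2 * E.b₄ = 0 := by
    have h := polyid0 E x
    rw [hpsi3, hD] at h
    have hsq : (12 * x ^ 2 + 2 * E.b₂ * x + 2 * E.b₄) ^ 2 = 0 := by linear_combination h
    exact pow_eq_zero_iff (by norm_num) |>.mp hsq
  -- the discriminant certificate gives `144 Δ = 0`
  have h := polyid_disc E x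
  rw [hD', hD] at h
  have h144 : (144 : K) ≠ 0 := by
    have : (144 : K) = 2 ^ 4 * 3 ^ 2 := by norm_num
    rw [this]
    exact mul_ne_zero (pow_ne_zero _ h2) (pow_ne_zero _ h3)
  apply hΔ
  have : (144 : K) * E.Δ = 0 := by linear_combination h
  exact (mul_eq_zero.mp this).resolve_left h144

/-- At a root of `psi5`, `pre4` does not vanish. -/
theorem pre4_ne_zero_of_psi5 (hΔ : E.Δ ≠ 0) (h2 : (2 : K) ≠ 0) (h3 : (3 : K) ≠ 0)
    {x : K} (h5 : psi5 E x = 0) : pre4 E x ≠ 0 := by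
  intro hp
  have hD := psi2sq_ne_zero_of_psi5 E hΔ h2 h3 h5
  have hpsi3 : psi3 E x = 0 := by
    have h := h5
    rw [psi5, hp] at h
    have h3' : psi3 E x ^ 3 = 0 := by linear_combination -h
    exact pow_eq_zero_iff (by norm_num) |>.mp h3'
  have hN : phi2 E x = x * psi2sq E x := by
    rw [polyid_phi2, hpsi3, sub_zero]
  have h := polyid1 E x
  rw [hp, hN] at h
  have h4 : psi2sq E x ^ 4 = 0 := by
    have hx : 4 * x ^ 3 + E.b₂ * x ^ 2 + 2 * E.b₄ * x + E.b₆ = psi2sq E x := rfl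
    have : psi2sq E x ^ 3 * (4 * x ^ 3 + E.b₂ * x ^ 2 + 2 * E.b₄ * x + E.b₆) = 0 := by
      linear_combination h
    rw [hx] at this
    linear_combination this
  exact hD (pow_eq_zero_iff (by norm_num) |>.mp h4)

/-- At a root of `psi5`, `psi3` does not vanish. -/
theorem psi3_ne_zero_of_psi5 (hΔ : E.Δ ≠ 0) (h2 : (2 : K) ≠ 0) (h3 : (3 : K) ≠ 0)
    {x : K} (h5 : psi5 E x = 0) : psi3 E x ≠ 0 := by
  intro hpsi3
  have hD := psi2sq_ne_zero_of_psi5 E hΔ h2 h3 h5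
  have hp := pre4_ne_zero_of_psi5 E hΔ h2 h3 h5
  have h := h5
  rw [psi5, hpsi3] at h
  have : pre4 E x * psi2sq E x ^ 2 = 0 := by linear_combination h
  rcases mul_eq_zero.mp this with h' | h'
  · exact hp h'
  · exact hD (pow_eq_zero_iff (by norm_num) |>.mp h')

/-- **The algebraic chain at a root of `psi5`.**  With `x₂ := phi2 E x / psi2sq E x`:
all the data needed to exhibit a point of exact order five with `x(P) = x`, `x(2P) = x₂`. -/
theorem psi5_root_chain (hΔ : E.Δ ≠ 0) (h2 : (2 : K) ≠ 0) (h3 : (3 : K) ≠ 0)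
    {x : K} (h5 : psi5 E x = 0) :
    psi2sq E x ≠ 0 ∧ psi3 E x ≠ 0 ∧ pre4 E x ≠ 0 ∧
      psi2sq E (phi2 E x / psi2sq E x) ≠ 0 ∧
      phi2 E x / psi2sq E x ≠ x ∧
      phi2 E x / psi2sq E x * psi2sq E x = phi2 E x ∧
      x * psi2sq E (phi2 E x / psi2sq E x) = phi2 E (phi2 E x / psi2sq E x) := by
  have hD := psi2sq_ne_zero_of_psi5 E hΔ h2 h3 h5
  have hpsi3 := psi3_ne_zero_of_psi5 E hΔ h2 h3 h5
  have hp := pre4_ne_zero_of_psi5 E hΔ h2 h3 h5
  have hD2mul : psi2sq E (phi2 E x / psi2sq E x) * psi2sq E x ^ 3 = pre4 E x ^ 2 := by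
    rw [psi2sq_div_mul E _ _ hD, polyid1]
  have hD2 : psi2sq E (phi2 E x / psi2sq E x) ≠ 0 := by
    intro h0
    rw [h0, zero_mul] at hD2mul
    exact hp (pow_eq_zero_iff (by norm_num) |>.mp hD2mul.symm)
  refine ⟨hD, hpsi3, hp, hD2, ?_, div_mul_cancel₀ _ hD, ?_⟩
  · intro hx
    have h1 : x * psi2sq E x = phi2 E x := by
      have := div_mul_cancel₀ (phi2 E x) hD
      rwa [hx] at this
    have h2' := polyid_phi2 E x
    exact hpsi3 (by linear_combination h2' + h1)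
  · -- `(phi2 x₂ - x * psi2sq x₂) * D⁴ = - psi3 * psi5 = 0`
    have hphi := phi2_div_mul E (phi2 E x) (psi2sq E x) hD
    have hid2 := polyid2 E x
    rw [h5, mul_zero, neg_zero] at hid2
    have key : (phi2 E (phi2 E x / psi2sq E x) - x * psi2sq E (phi2 E x / psi2sq E x))
        * psi2sq E x ^ 4 = 0 := by
      have : x * psi2sq E (phi2 E x / psi2sq E x) * psi2sq E x ^ 4
          = x * psi2sq E x * pre4 E x ^ 2 := by
        rw [← hD2mul]; ring
      rw [sub_mul, hphi, this]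
      linear_combination hid2
    have := (mul_eq_zero.mp key).resolve_right (pow_ne_zero _ hD)
    linear_combination -this

end Field

end Fermat.Agent.S51
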