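import Mathlib
import Fermat.Prelude.Def_FLTPrelim_GaloisRep

/-!
# Auxiliary lemmas on torsion points of Weierstrass curves (package A for S51)

* `taux_card_le_of_forall_isRoot`: a set of points all of whose affine members have `x`-coordinate a root
  of a fixed nonzero polynomial `g` is finite of cardinality at most `2 * deg g + 1`.
* `taux_exists_generator_of_card_le`: in a `ZMod p`-module with at most `p ^ 2` elements, a submodule
  different from `⊥` and `⊤` is a line.
-/

set_option autoImplicit false

namespace Fermat.Agent.S51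

open WeierstrassCurve WeierstrassCurve.Affine Polynomial

section Card

variable {F : Type*} [Field F] {W : Affine F}

open Classical in
/-- A chosen `y`-coordinate above a given `x`-coordinate. -/
noncomputable def taux_chosenY (W : Affine F) (x : F) : F :=
  if h : ∃ y, W.Nonsingular x y then h.choose else 0

lemma taux_chosenY_spec {x y : F} (h : W.Nonsingular x y) : W.Nonsingular x (taux_chosenY W x) := by
  have hex : ∃ y, W.Nonsingular x y := ⟨y, h⟩
  rw [taux_chosenY, dif_pos hex]
  exact hex.choose_spec

open Classical in
/-- The auxiliary injection used for counting. -/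
noncomputable def taux_countMap (g : F[X]) (S : Set W.Point)
    (h : ∀ x y (hxy : W.Nonsingular x y), Point.some x y hxy ∈ S → g.IsRoot x) :
    S → Option ({r : F // g.IsRoot r} × Bool)
  | ⟨.zero, _⟩ => none
  | ⟨.some x y hxy, hP⟩ => some (⟨x, h x y hxy hP⟩, decide (y = taux_chosenY W x))

open Classical in
lemma taux_countMap_injective (g : F[X]) (S : Set W.Point)
    (h : ∀ x y (hxy : W.Nonsingular x y), Point.some x y hxy ∈ S → g.IsRoot x) :
    Function.Injective (taux_countMap g S h) := by
  rintro ⟨P, hP⟩ ⟨Q, hQ⟩ hPQ
  rcases P with _ | ⟨x₁, y₁, h₁⟩ <;> rcases Q with _ | ⟨x₂, y₂, h₂⟩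
  · rfl
  · simp [taux_countMap] at hPQ
  · simp [taux_countMap] at hPQ
  · simp only [taux_countMap, Option.some.injEq, Prod.mk.injEq, Subtype.mk.injEq] at hPQ
    obtain ⟨hx, hdec⟩ := hPQ
    subst hx
    have hc := taux_chosenY_spec h₁
    have hy₁ := Y_eq_of_X_eq h₁.1 hc.1 rfl
    have hy₂ := Y_eq_of_X_eq h₂.1 hc.1 rfl
    have hy₁₂ := Y_eq_of_X_eq h₁.1 h₂.1 rfl
    have : y₁ = y₂ := by
      rcases hy₁₂ with h12 | h12
      · exact h12
      · -- `y₁ = negY x₁ y₂`
        by_cases hc1 : y₁ = taux_chosenY W x₁
        · have hc2 : y₂ = taux_chosenY W x₁ := by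
            have : decide (y₂ = taux_chosenY W x₁) = true := by rw [← hdec]; exact decide_eq_true hc1
            exact of_decide_eq_true this
          rw [hc1, hc2]
        · have hc2 : ¬ y₂ = taux_chosenY W x₁ := by
            intro hc2
            have : decide (y₁ = taux_chosenY W x₁) = true := by rw [hdec]; exact decide_eq_true hc2
            exact hc1 (of_decide_eq_true this)
          -- both are the negative of the chosen one
          have e1 : y₁ = W.negY x₁ (taux_chosenY W x₁) := hy₁.resolve_left hc1
          have e2 : y₂ = W.negY x₁ (taux_chosenY W x₁) := hy₂.resolve_left hc2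
          rw [e1, e2]
    subst this
    rfl

/-- A set of points all of whose affine members have `x`-coordinate a root of a fixed nonzero
polynomial `g` is finite of cardinality at most `2 * deg g + 1`. -/
theorem taux_card_le_of_forall_isRoot (g : F[X]) (hg : g ≠ 0) (S : Set W.Point)
    (h : ∀ x y (hxy : W.Nonsingular x y), Point.some x y hxy ∈ S → g.IsRoot x) :
    Finite S ∧ Nat.card S ≤ 2 * g.natDegree + 1 := by
  classical
  have hfinroots : Finite {r : F // g.IsRoot r} := by
    have : {r : F | g.IsRoot r}.Finite := by
      apply Set.Finite.subset g.roots.toFinset.finite_toSet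
      intro r hr
      simp only [Finset.mem_coe, Multiset.mem_toFinset]
      exact (mem_roots hg).mpr hr
    exact this.to_subtype
  have hcardroots : Nat.card {r : F // g.IsRoot r} ≤ g.natDegree := by
    have hsub : {r : F | g.IsRoot r} = ↑g.roots.toFinset := by
      ext r
      simp only [Set.mem_ofPred_eq, Finset.mem_coe, Multiset.mem_toFinset]
      exact (mem_roots hg).symm
    have : Nat.card {r : F // g.IsRoot r} = g.roots.toFinset.card := by
      have h1 : Nat.card {r : F // g.IsRoot r} = Nat.card ({r : F | g.IsRoot r} : Set F) := rfl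
      rw [h1, hsub, Nat.card_coe_set_eq, Set.ncard_coe_finset]
    rw [this]
    exact (Multiset.toFinset_card_le _).trans (card_roots' g)
  have hinj := taux_countMap_injective g S h
  have hfinT : Finite (Option ({r : F // g.IsRoot r} × Bool)) := inferInstance
  refine ⟨Finite.of_injective _ hinj, ?_⟩
  calc Nat.card S ≤ Nat.card (Option ({r : F // g.IsRoot r} × Bool)) :=
        Nat.card_le_card_of_injective _ hinj
    _ = Nat.card {r : F // g.IsRoot r} * 2 + 1 := by
        rw [Finite.card_option, Nat.card_prod, Nat.card_eq_fintype_card (α := Bool),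
          Fintype.card_bool]
    _ ≤ 2 * g.natDegree + 1 := by omega

end Card

section Line

/-- In a `ZMod p`-module with at most `p ^ 2` elements, a submodule different from `⊥` and `⊤`
is a line. -/
theorem taux_exists_generator_of_card_le {p : ℕ} [Fact p.Prime] {V : Type*} [AddCommGroup V]
    [Module (ZMod p) V] [Finite V] (hV : Nat.card V < p ^ 3)
    (N : Submodule (ZMod p) V) (hbot : N ≠ ⊥) (htop : N ≠ ⊤) :
    ∃ v ∈ N, v ≠ 0 ∧ ∀ w ∈ N, ∃ c : ZMod p, w = c • v := by
  have hp : p.Prime := Fact.out
  have : Module.Finite (ZMod p) V := Module.Finite.of_finite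
  have hcard := Module.natCard_eq_pow_finrank (K := ZMod p) (V := V)
  rw [Nat.card_zmod] at hcard
  have hrank : Module.finrank (ZMod p) V ≤ 2 := by
    by_contra hcon
    push Not at hcon
    have : p ^ 3 ≤ p ^ Module.finrank (ZMod p) V := Nat.pow_le_pow_right hp.pos hcon
    omega
  have hlt : Module.finrank (ZMod p) N < Module.finrank (ZMod p) V := Submodule.finrank_lt htop
  have hpos : 0 < Module.finrank (ZMod p) N := by
    rw [Nat.pos_iff_ne_zero]
    intro h0
    exact hbot (Submodule.finrank_eq_zero.mp h0)
  have hone : Module.finrank (ZMod p) N = 1 := by omega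
  obtain ⟨v, hv0, hv⟩ := finrank_eq_one_iff'.mp hone
  refine ⟨v.1, v.2, fun h => hv0 (Subtype.ext h), fun w hw => ?_⟩
  obtain ⟨c, hc⟩ := hv ⟨w, hw⟩
  exact ⟨c, by rw [← Submodule.coe_smul, hc]⟩

end Line

end Fermat.Agent.S51
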