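import Mathlib
import Fermat.Prelude.Def_FLTPrelim_GaloisRep
import Fermat.Agent.S51.Defs
import Fermat.Agent.S51.TorsionAux

/-!
# Three-torsion points on Weierstrass curves (package A3 for S51, helper11)

Group-law lemmas for 3-torsion on `WeierstrassCurve.Affine.Point` over a field, in the shape of the
S51 interface v1:

* `two_zsmul_some`, `psi2sq_eq_sq`: doubling formula `x(2P) * psi2sq x = phi2 x`.
* `three_zsmul_eq_zero_iff`: `3 • P = 0 ↔ psi3 W x(P) = 0`.
* `exists_three_torsion`: existence of a nonzero 3-torsion point over an algebraically closed field.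
* `three_torsion_finite`: `E[3]` is finite with fewer than `27` elements.
* `t3_exists_rat_root_of_stable`, `t3_exists_rat_root_psi3`: Galois descent (a stable line in
  `E[3](ℚ̄)` gives a rational root of `psi3`).
-/

set_option autoImplicit false

namespace Fermat.Agent.S51

open WeierstrassCurve WeierstrassCurve.Affine Polynomial

section Field

variable {F : Type*} [Field F] {W : Affine F}

/-- Evaluation of the 3-division polynomial. -/
lemma t3_eval_Ψ₃ (x : F) : W.Ψ₃.eval x = psi3 W x := by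
  simp [WeierstrassCurve.Ψ₃, psi3]

/-- Evaluation of `Ψ₂Sq`. -/
lemma t3_eval_Ψ₂Sq (x : F) : W.Ψ₂Sq.eval x = psi2sq W x := by
  simp [WeierstrassCurve.Ψ₂Sq, psi2sq]

/-- On the curve, `psi2sq W x = (y - negY x y)²`. -/
theorem psi2sq_eq_sq {x y : F} (h : W.Equation x y) : psi2sq W x = (y - W.negY x y) ^ 2 := by
  rw [equation_iff] at h
  simp only [psi2sq, b₂, b₄, b₆, negY]
  linear_combination (-4 : F) * h

/-- The key polynomial identity on the curve:
`num² + a₁·num·ψ₂ − (a₂ + 3x)·ψ₂² = −psi3(x)`, where `num = 3x² + 2a₂x + a₄ − a₁y` and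
`ψ₂ = y − negY x y = 2y + a₁x + a₃`. -/
lemma t3_psi3_key {x y : F} (h : W.Equation x y) :
    (3 * x ^ 2 + 2 * W.a₂ * x + W.a₄ - W.a₁ * y) ^ 2
      + W.a₁ * (3 * x ^ 2 + 2 * W.a₂ * x + W.a₄ - W.a₁ * y) * (y - W.negY x y)
      - (W.a₂ + 3 * x) * (y - W.negY x y) ^ 2 = -psi3 W x := by
  rw [equation_iff] at h
  simp only [psi3, b₂, b₄, b₆, b₈, negY]
  linear_combination (-(12 * x + W.a₁ ^ 2 + 4 * W.a₂)) * h

/-- `x * psi2sq x - psi3 x = phi2 x`. -/
lemma t3_phi2_eq (x : F) : x * psi2sq W x - psi3 W x = phi2 W x := by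
  simp only [psi2sq, psi3, phi2]
  ring

/-- If `P` is a nonsingular 2-torsion point then `psi3 (x(P)) ≠ 0`. -/
lemma t3_psi3_ne_zero_of_Y_eq {x y : F} (h : W.Nonsingular x y) (hy : y = W.negY x y) :
    psi3 W x ≠ 0 := by
  have hkey := t3_psi3_key h.1
  have h0 : y - W.negY x y = 0 := sub_eq_zero.mpr hy
  rw [h0] at hkey
  have hX : 3 * x ^ 2 + 2 * W.a₂ * x + W.a₄ - W.a₁ * y ≠ 0 := by
    rcases (nonsingular_iff _ _).mp h with ⟨_, hX | hY⟩
    · intro h1
      apply hX
      linear_combination (-1 : F) * h1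
    · exfalso
      apply hY
      rw [negY] at hy
      linear_combination hy
  intro hΨ
  rw [hΨ] at hkey
  apply hX
  have : (3 * x ^ 2 + 2 * W.a₂ * x + W.a₄ - W.a₁ * y) ^ 2 = 0 := by
    linear_combination hkey
  exact pow_eq_zero_iff (two_ne_zero) |>.mp this

variable [DecidableEq F]

/-- Doubling formula: `(x(2P) − x(P))·ψ₂(P)² = −psi3(x(P))`. -/
lemma t3_addX_self_sub_mul {x y : F} (h : W.Equation x y) (hy : y ≠ W.negY x y) :
    (W.addX x x (W.slope x x y y) - x) * (y - W.negY x y) ^ 2 = -psi3 W x := by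
  have hne : y - W.negY x y ≠ 0 := sub_ne_zero.mpr hy
  rw [slope_of_Y_ne rfl hy, ← t3_psi3_key h, addX]
  field_simp
  ring

/-- Doubling formula: `x(2P) * psi2sq(x(P)) = phi2(x(P))`. -/
lemma t3_addX_self_mul {x y : F} (h : W.Equation x y) (hy : y ≠ W.negY x y) :
    W.addX x x (W.slope x x y y) * psi2sq W x = phi2 W x := by
  have h1 := t3_addX_self_sub_mul h hy
  rw [← psi2sq_eq_sq h] at h1
  rw [← t3_phi2_eq]
  linear_combination h1

/-- **Doubling** an affine point which is not 2-torsion. -/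
theorem two_zsmul_some {x y : F} (h : W.Nonsingular x y) (hy : y ≠ W.negY x y) :
    psi2sq W x ≠ 0 ∧ ∃ x' y', ∃ h' : W.Nonsingular x' y',
      (2 : ℤ) • Point.some x y h = Point.some x' y' h' ∧ x' * psi2sq W x = phi2 W x := by
  refine ⟨?_, _, _, nonsingular_add h h (fun hxy => hy hxy.right), ?_, t3_addX_self_mul h.1 hy⟩
  · rw [psi2sq_eq_sq h.1]
    exact pow_ne_zero 2 (sub_ne_zero.mpr hy)
  · rw [two_zsmul, Point.add_self_of_Y_ne hy]

/-- `P + P = -P` iff `psi3(x(P)) = 0`, for an affine nonsingular point `P`. -/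
theorem t3_add_self_eq_neg_iff {x y : F} (h : W.Nonsingular x y) :
    Point.some x y h + Point.some x y h = -Point.some x y h ↔ psi3 W x = 0 := by
  constructor
  · intro h3
    by_cases hy : y = W.negY x y
    · rw [Point.add_self_of_Y_eq hy] at h3
      exact absurd h3.symm (by rw [Point.neg_some]; exact Point.some_ne_zero _)
    · rw [Point.add_self_of_Y_ne hy, Point.neg_some, Point.some.injEq] at h3
      have := t3_addX_self_sub_mul h.1 hy
      rw [h3.1, sub_self, zero_mul] at this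
      exact neg_eq_zero.mp this.symm
  · intro hΨ
    have hy : y ≠ W.negY x y := fun hy => t3_psi3_ne_zero_of_Y_eq h hy hΨ
    have hne : y - W.negY x y ≠ 0 := sub_ne_zero.mpr hy
    have hx : W.addX x x (W.slope x x y y) = x := by
      have := t3_addX_self_sub_mul h.1 hy
      rw [hΨ, neg_zero, mul_eq_zero] at this
      rcases this with h1 | h1
      · exact sub_eq_zero.mp h1
      · exact absurd (pow_eq_zero_iff two_ne_zero |>.mp h1) hne
    have hns2 : W.Nonsingular (W.addX x x (W.slope x x y y))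
        (W.addY x x y (W.slope x x y y)) := nonsingular_add h h (fun hxy => hy hxy.right)
    have hPP : Point.some x y h + Point.some x y h = Point.some _ _ hns2 :=
      Point.add_self_of_Y_ne hy
    rcases (Point.X_eq_iff (h₁ := hns2) (h₂ := h)).mp hx with h1 | h1
    · exfalso
      rw [← hPP] at h1
      have : Point.some x y h = 0 := by
        have h2 := congrArg (fun Q => Q - Point.some x y h) h1
        simp at h2
      exact Point.some_ne_zero _ this
    · rw [hPP, h1]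

/-- `3 • P = 0` iff `psi3(x(P)) = 0`, for an affine nonsingular point `P` (`ℕ`-version). -/
theorem three_nsmul_eq_zero_iff {x y : F} (h : W.Nonsingular x y) :
    (3 : ℕ) • Point.some x y h = 0 ↔ psi3 W x = 0 := by
  rw [← t3_add_self_eq_neg_iff h, eq_neg_iff_add_eq_zero]
  constructor
  · intro h3
    rw [← h3]
    abel
  · intro h3
    rw [← h3]
    abel

/-- **(A3)** `3 • P = 0` iff `psi3(x(P)) = 0`, for an affine nonsingular point `P`. -/
theorem three_zsmul_eq_zero_iff {x y : F} (h : W.Nonsingular x y) :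
    (3 : ℤ) • Point.some x y h = 0 ↔ psi3 W x = 0 := by
  rw [← three_nsmul_eq_zero_iff h, ← natCast_zsmul]
  norm_num

/-- Membership in the 3-torsion submodule (literal `3 : ℤ`). -/
theorem mem_torsionBy_three_iff {x y : F} (h : W.Nonsingular x y) :
    Point.some x y h ∈ Submodule.torsionBy ℤ W.Point 3 ↔ psi3 W x = 0 := by
  rw [Submodule.mem_torsionBy_iff, three_zsmul_eq_zero_iff]

/-- Membership in the 3-torsion submodule (cast `((3 : ℕ) : ℤ)`, as in the Prelude). -/
theorem mem_torsionBy_three_iff' {x y : F} (h : W.Nonsingular x y) :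
    Point.some x y h ∈ Submodule.torsionBy ℤ W.Point ((3 : ℕ) : ℤ) ↔ psi3 W x = 0 :=
  mem_torsionBy_three_iff h

/-- Over an algebraically closed field in which `3 ≠ 0`, a Weierstrass curve with `Δ ≠ 0` has a
nonzero 3-torsion point. -/
theorem t3_exists_three_torsion_of_three_ne_zero [IsAlgClosed F] (h3 : (3 : F) ≠ 0)
    (hΔ : W.Δ ≠ 0) : ∃ P : W.Point, P ≠ 0 ∧ (3 : ℤ) • P = 0 := by
  have hdeg : W.Ψ₃.degree ≠ 0 := by
    rw [degree_eq_natDegree (W.Ψ₃_ne_zero h3), W.natDegree_Ψ₃ h3]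
    norm_num
  obtain ⟨x, hx⟩ := IsAlgClosed.exists_root W.Ψ₃ hdeg
  rw [IsRoot.def, t3_eval_Ψ₃] at hx
  -- solve for `y`
  set q : F[X] := X ^ 2 + C (W.a₁ * x + W.a₃) * X - C (x ^ 3 + W.a₂ * x ^ 2 + W.a₄ * x + W.a₆)
    with hq
  have hqdeg : q.degree ≠ 0 := by
    have : q.degree = 2 := by
      rw [hq]
      compute_degree!
    rw [this]; norm_num
  obtain ⟨y, hy⟩ := IsAlgClosed.exists_root q hqdeg
  have heq : W.Equation x y := by
    rw [equation_iff]
    rw [hq, IsRoot.def] at hy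
    simp only [eval_add, eval_sub, eval_pow, eval_mul, eval_X, eval_C] at hy
    linear_combination hy
  have hns : W.Nonsingular x y := (equation_iff_nonsingular_of_Δ_ne_zero hΔ).mp heq
  exact ⟨Point.some x y hns, Point.some_ne_zero _, (three_zsmul_eq_zero_iff hns).mpr hx⟩

/-- **(A3)** Over an algebraically closed field of characteristic zero, a Weierstrass curve with
`Δ ≠ 0` has a nonzero 3-torsion point. -/
theorem exists_three_torsion [CharZero F] [IsAlgClosed F] (hΔ : W.Δ ≠ 0) :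
    ∃ P : W.Point, P ≠ 0 ∧ (3 : ℤ) • P = 0 :=
  t3_exists_three_torsion_of_three_ne_zero (by norm_num) hΔ

/-- The 3-torsion subgroup is finite with at most `9` elements (if `3 ≠ 0` in `F`). -/
theorem t3_finite_card_torsionBy_three (h3 : (3 : F) ≠ 0) :
    Finite (Submodule.torsionBy ℤ W.Point 3) ∧
      Nat.card (Submodule.torsionBy ℤ W.Point 3) ≤ 9 := by
  have key := taux_card_le_of_forall_isRoot (W := W) W.Ψ₃ (W.Ψ₃_ne_zero h3)
    (Submodule.torsionBy ℤ W.Point 3 : Set W.Point)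
    (fun x y hxy hP => by
      rw [IsRoot.def, t3_eval_Ψ₃]
      exact (mem_torsionBy_three_iff hxy).mp hP)
  refine ⟨key.1, key.2.trans ?_⟩
  have := W.natDegree_Ψ₃_le
  omega

/-- **(A3)** The 3-torsion subgroup is finite with fewer than `27` elements. -/
theorem three_torsion_finite [CharZero F] :
    Finite (Submodule.torsionBy ℤ W.Point 3) ∧
      Nat.card (Submodule.torsionBy ℤ W.Point 3) < 27 := by
  obtain ⟨h1, h2⟩ := t3_finite_card_torsionBy_three (W := W) (by norm_num : (3 : F) ≠ 0)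
  exact ⟨h1, by omega⟩

end Field

section Descent

/-- The coordinates of a nonzero point. -/
lemma t3_exists_some_of_ne_zero {F : Type*} [Field F] {W : Affine F} {P : W.Point} (hP : P ≠ 0) :
    ∃ x y, ∃ h : W.Nonsingular x y, P = Point.some x y h := by
  rcases P with _ | ⟨x, y, h⟩
  · exact absurd rfl hP
  · exact ⟨x, y, h, rfl⟩

local notation "Qbar" => AlgebraicClosure ℚ

/-- `ℚ̄/ℚ` is Galois (for the default `Algebra ℚ ℚ̄` instance). -/
theorem t3_isGalois_Qbar : IsGalois ℚ Qbar :=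
  haveI : Algebra.IsAlgebraic ℚ Qbar := AlgebraicClosure.isAlgebraic ℚ
  haveI : IsAlgClosure ℚ Qbar := ⟨inferInstance, inferInstance⟩
  inferInstance

/-- Elements of `ℚ̄` fixed by the absolute Galois group are rational. -/
lemma t3_exists_rat_of_fixed (x : Qbar) (hx : ∀ σ : Qbar ≃ₐ[ℚ] Qbar, σ x = x) :
    ∃ x₀ : ℚ, algebraMap ℚ Qbar x₀ = x :=
  haveI := t3_isGalois_Qbar
  (InfiniteGalois.mem_range_algebraMap_iff_fixed (k := ℚ) x).mpr hx

variable (E : Affine ℚ)

/-- The Galois action on an affine point. -/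
lemma t3_smul_some (σ : Qbar ≃ₐ[ℚ] Qbar) {x y : Qbar} (h : (E⁄Qbar).Nonsingular x y) :
    ∃ h' : (E⁄Qbar).Nonsingular (σ x) (σ y),
      σ • Point.some x y h = Point.some (σ x) (σ y) h' := by
  refine ⟨(E.baseChange_nonsingular (f := σ.toAlgHom) σ.injective x y).mpr h, ?_⟩
  rw [Point.algEquiv_smul_def, Point.map_some]
  rfl

/-- `psi3` commutes with base change. -/
lemma t3_psi3_baseChange (x₀ : ℚ) :
    psi3 (E⁄Qbar) (algebraMap ℚ Qbar x₀) = algebraMap ℚ Qbar (psi3 E x₀) := by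
  simp only [psi3, WeierstrassCurve.baseChange, map_b₂, map_b₄, map_b₆, map_b₈, map_add, map_mul,
    map_pow, map_ofNat]

/-- **Descent for 3-torsion**: a Galois-stable `ZMod 3`-line in `E[3](ℚ̄)` gives a rational root of
the 3-division polynomial; moreover the line is `{0, P, -P}` with `x(P)` rational. -/
theorem t3_exists_rat_root_of_stable
    (N : Submodule (ZMod 3) (Submodule.torsionBy ℤ (E⁄Qbar).Point (3 : ℕ)))
    (hN : Point.IsGaloisStable ℚ N) (hbot : N ≠ ⊥) (htop : N ≠ ⊤) :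
    ∃ (x₀ : ℚ) (y : Qbar) (h : (E⁄Qbar).Nonsingular (algebraMap ℚ Qbar x₀) y)
      (hP : Point.some _ _ h ∈ Submodule.torsionBy ℤ (E⁄Qbar).Point (3 : ℕ)),
      psi3 E x₀ = 0 ∧
      (⟨Point.some _ _ h, hP⟩ : Submodule.torsionBy ℤ (E⁄Qbar).Point (3 : ℕ)) ∈ N ∧
      ∀ Q ∈ N, Q = 0 ∨ Q = ⟨Point.some _ _ h, hP⟩ ∨ Q = -⟨Point.some _ _ h, hP⟩ := by
  have h3 : (3 : Qbar) ≠ 0 := by norm_num
  obtain ⟨hfin, hcard⟩ := t3_finite_card_torsionBy_three (W := E⁄Qbar) h3
  have : Fact (Nat.Prime 3) := ⟨Nat.prime_three⟩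
  obtain ⟨v, hvN, hv0, hgen⟩ := taux_exists_generator_of_card_le (p := 3)
    (V := Submodule.torsionBy ℤ (E⁄Qbar).Point (3 : ℕ)) (lt_of_le_of_lt hcard (by norm_num))
    N hbot htop
  -- the three elements of `N`
  have hthree : ∀ Q ∈ N, Q = 0 ∨ Q = v ∨ Q = -v := by
    intro Q hQ
    obtain ⟨c, rfl⟩ := hgen Q hQ
    have h3v : (3 : ℕ) • v = 0 := by
      have := Submodule.smul_torsionBy (R := ℤ) (M := (E⁄Qbar).Point) (a := ((3 : ℕ) : ℤ)) v
      rwa [natCast_zsmul] at this
    have hc : c = ((c.val : ℕ) : ZMod 3) := (ZMod.natCast_zmod_val c).symm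
    have hlt : c.val < 3 := ZMod.val_lt c
    rw [hc, Nat.cast_smul_eq_nsmul]
    interval_cases c.val
    · left; simp
    · right; left; simp
    · right; right
      rw [eq_neg_iff_add_eq_zero, ← h3v]
      abel
  -- coordinates of `v`
  have hv1 : (v : (E⁄Qbar).Point) ≠ 0 := fun h => hv0 (Subtype.ext h)
  obtain ⟨x, y, hxy, hvxy⟩ := t3_exists_some_of_ne_zero hv1
  -- `x` is Galois-fixed
  have hfix : ∀ σ : Qbar ≃ₐ[ℚ] Qbar, σ x = x := by
    intro σ
    have hσv : σ • v ∈ N := hN σ v hvN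
    have hσv0 : σ • v ≠ 0 := by
      intro h0
      apply hv0
      have h1 : v = σ⁻¹ • (σ • v) := (inv_smul_smul σ v).symm
      rw [h1, h0, smul_zero]
    obtain ⟨h', hσ⟩ := t3_smul_some E σ hxy
    have hcoe : ((σ • v : Submodule.torsionBy ℤ (E⁄Qbar).Point (3 : ℕ)) : (E⁄Qbar).Point) =
        Point.some (σ x) (σ y) h' := by
      show σ • (v : (E⁄Qbar).Point) = _
      rw [hvxy, hσ]
    rcases hthree _ hσv with h0 | h1 | h1
    · exact absurd h0 hσv0
    · have := congrArg (Subtype.val) h1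
      rw [hcoe, hvxy, Point.some.injEq] at this
      exact this.1
    · have := congrArg (Subtype.val) h1
      rw [hcoe, Submodule.coe_neg, hvxy, Point.neg_some, Point.some.injEq] at this
      exact this.1
  obtain ⟨x₀, hx₀⟩ := t3_exists_rat_of_fixed x hfix
  subst hx₀
  have hvmem : Point.some _ _ hxy ∈ Submodule.torsionBy ℤ (E⁄Qbar).Point (3 : ℕ) := hvxy ▸ v.2
  have hveq : v = ⟨Point.some _ _ hxy, hvmem⟩ := Subtype.ext hvxy
  refine ⟨x₀, y, hxy, hvmem, ?_, hveq ▸ hvN, hveq ▸ hthree⟩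
  -- the root
  have hroot : psi3 (E⁄Qbar) (algebraMap ℚ Qbar x₀) = 0 := (mem_torsionBy_three_iff' hxy).mp hvmem
  rw [t3_psi3_baseChange] at hroot
  exact (map_eq_zero_iff _ (algebraMap ℚ Qbar).injective).mp hroot

/-- **(T3)** If the mod-3 representation of `E/ℚ` (`Δ ≠ 0`) is not irreducible, then the 3-division
polynomial has a rational root. -/
theorem t3_exists_rat_root_psi3 (E : WeierstrassCurve ℚ) (hΔ : E.Δ ≠ 0)
    (h : ¬ Point.GaloisRepIsIrreducible (K := Qbar) ℚ E 3) : ∃ x₀ : ℚ, psi3 E x₀ = 0 := by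
  have hΔ' : (E⁄Qbar).Δ ≠ 0 := by
    show (E.map (algebraMap ℚ Qbar)).Δ ≠ 0
    rw [map_Δ]
    exact (map_ne_zero_iff _ (algebraMap ℚ Qbar).injective).mpr hΔ
  have hnt : Nontrivial (Submodule.torsionBy ℤ (E⁄Qbar).Point (3 : ℕ)) := by
    obtain ⟨P, hP0, hP3⟩ := exists_three_torsion (W := E⁄Qbar) hΔ'
    refine ⟨⟨⟨P, ?_⟩, 0, fun h => hP0 (congrArg Subtype.val h)⟩⟩
    rw [Submodule.mem_torsionBy_iff]
    exact hP3
  rw [Point.GaloisRepIsIrreducible, not_and_or] at h
  rcases h with h | h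
  · exact absurd hnt h
  · push Not at h
    obtain ⟨N, hN, hbot, htop⟩ := h
    obtain ⟨x₀, _, _, _, hx₀, _⟩ := t3_exists_rat_root_of_stable E N hN hbot htop
    exact ⟨x₀, hx₀⟩

end Descent

end Fermat.Agent.S51
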