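/-
S51, package B5 (Galois descent for the 5-torsion).

If the mod-5 Galois representation of an elliptic curve `E/ℚ` is reducible, there is a
Galois-stable line in `E[5]`.  For a generator `P` of that line the x-coordinates
`x₁ = x(P) = x(4P)` and `x₂ = x(2P) = x(3P)` are permuted by every automorphism of
`AlgebraicClosure ℚ` over `ℚ`, hence `x₁ + x₂` and `x₁ * x₂` are rational.

`exists_kernel5_of` is the statement with the inputs of the packages A5 (5-torsion facts) and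
L (lines in small `𝔽_p`-vector spaces) as explicit hypotheses.
-/
import Mathlib
import Fermat.Prelude.Def_FLTPrelim_GaloisRep
import Fermat.Agent.S51.Defs
import Fermat.Agent.Lib.GaloisDescent
import Fermat.Agent.S51.Lines
import Fermat.Agent.S51.ThreeTorsion
import Fermat.Agent.S51.PolyIds2

set_option autoImplicit false

namespace Fermat.Agent.S51

open WeierstrassCurve WeierstrassCurve.Affine Polynomial

local notation "Qbar" => AlgebraicClosure ℚ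

/-- In an abelian group with `5 • P = 0`, a multiple `k • P` is `0`, `± P` or `± 2 • P`, and
`k • (2 • P)` is then correspondingly `0`, `± 2 • P` or `± P`. -/
private theorem gal5_cases {A : Type*} [AddCommGroup A] (P : A) (h5 : (5:ℤ) • P = 0) (k : ℕ) :
    k • P = 0 ∨
    ((k • P = P ∨ k • P = -P) ∧
      (k • ((2:ℤ) • P) = (2:ℤ) • P ∨ k • ((2:ℤ) • P) = -((2:ℤ) • P))) ∨
    ((k • P = (2:ℤ) • P ∨ k • P = -((2:ℤ) • P)) ∧
      (k • ((2:ℤ) • P) = P ∨ k • ((2:ℤ) • P) = -P)) := by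
  have key : ∀ m : ℤ, m • P = (m % 5) • P := by
    intro m
    conv_lhs => rw [← Int.emod_add_mul_ediv m 5]
    rw [add_smul, mul_comm, mul_smul, h5, smul_zero, add_zero]
  have h1 : k • P = ((k:ℤ) % 5) • P := by rw [← key, natCast_zsmul]
  have h2 : k • ((2:ℤ) • P) = ((2 * (k:ℤ)) % 5) • P := by
    rw [← key, ← natCast_zsmul, smul_smul, mul_comm]
  have hr : (k:ℤ) % 5 = 0 ∨ (k:ℤ) % 5 = 1 ∨ (k:ℤ) % 5 = 2 ∨ (k:ℤ) % 5 = 3 ∨ (k:ℤ) % 5 = 4 := by
    omega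
  have e3 : (3:ℤ) • P = -((2:ℤ) • P) := by
    rw [eq_neg_iff_add_eq_zero, ← add_smul]; norm_num; exact h5
  have e4 : (4:ℤ) • P = -P := by
    rw [eq_neg_iff_add_eq_zero]; nth_rewrite 2 [← one_smul ℤ P]; rw [← add_smul]; norm_num
    exact h5
  rcases hr with hr | hr | hr | hr | hr
  · left; rw [h1, hr, zero_smul]
  · right; left
    have : (2 * (k:ℤ)) % 5 = 2 := by omega
    rw [h1, h2, hr, this, one_smul]
    exact ⟨Or.inl rfl, Or.inl rfl⟩
  · right; right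
    have : (2 * (k:ℤ)) % 5 = 4 := by omega
    rw [h1, h2, hr, this]
    exact ⟨Or.inl rfl, Or.inr e4⟩
  · right; right
    have : (2 * (k:ℤ)) % 5 = 1 := by omega
    rw [h1, h2, hr, this, one_smul]
    exact ⟨Or.inr e3, Or.inl rfl⟩
  · right; left
    have : (2 * (k:ℤ)) % 5 = 3 := by omega
    rw [h1, h2, hr, this]
    exact ⟨Or.inr e4, Or.inr e3⟩

/-- x-coordinates of `±`-equal affine points agree. -/
private theorem gal5_x_eq {F : Type*} [Field F] [DecidableEq F] {W : Affine F} {a b c d : F}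
    {h : W.Nonsingular a b} {h' : W.Nonsingular c d}
    (e : Point.some a b h = Point.some c d h' ∨ Point.some a b h = -Point.some c d h') :
    a = c := by
  have : (Point.some a b h).xRep = (Point.some c d h').xRep := by
    rcases e with e | e
    · rw [e]
    · rw [e, Point.xRep_neg]
  simpa [Point.xRep_some] using congrFun this 0

/-- An element of `AlgebraicClosure ℚ` fixed by all automorphisms is rational. -/
private theorem gal5_rational (x : Qbar) (hx : ∀ σ : Qbar ≃ₐ[ℚ] Qbar, σ x = x) :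
    ∃ q : ℚ, x = algebraMap ℚ Qbar q := by
  obtain ⟨q, hq⟩ :=
    Fermat.Agent.Lib.GaloisDescent.mem_range_algebraMap_of_forall_algEquiv_fixed
      (k := ℚ) (K := Qbar) x hx
  exact ⟨q, hq.symm⟩

/-- (T5) with the inputs of packages A5 and L as hypotheses. -/
theorem exists_kernel5_of (E : WeierstrassCurve ℚ)
    (hrel : ∀ {x₁ y₁ : Qbar} (h₁ : (E⁄Qbar).Nonsingular x₁ y₁),
      (5:ℤ) • Point.some x₁ y₁ h₁ = 0 →
      ∃ (x₂ y₂ : Qbar) (h₂ : (E⁄Qbar).Nonsingular x₂ y₂),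
        (2:ℤ) • Point.some x₁ y₁ h₁ = Point.some x₂ y₂ h₂ ∧ x₁ ≠ x₂ ∧
        psi2sq (E⁄Qbar) x₁ ≠ 0 ∧ psi2sq (E⁄Qbar) x₂ ≠ 0 ∧
        x₂ * psi2sq (E⁄Qbar) x₁ = phi2 (E⁄Qbar) x₁ ∧
        x₁ * psi2sq (E⁄Qbar) x₂ = phi2 (E⁄Qbar) x₂)
    (hex : ∃ P : (E⁄Qbar).Point, P ≠ 0 ∧ (5:ℤ) • P = 0)
    (hL : ∀ N : Submodule (ZMod 5) (Submodule.torsionBy ℤ (E⁄Qbar).Point ((5:ℕ):ℤ)),
      N ≠ ⊥ → N ≠ ⊤ →
      ∀ {P Q : Submodule.torsionBy ℤ (E⁄Qbar).Point ((5:ℕ):ℤ)}, P ∈ N → P ≠ 0 → Q ∈ N →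
        ∃ k : ℕ, Q = k • P)
    (h : ¬ WeierstrassCurve.Affine.Point.GaloisRepIsIrreducible (K := Qbar) ℚ E 5) :
    ∃ (s₁ s₂ : ℚ) (x₁ x₂ : Qbar),
      x₁ + x₂ = algebraMap ℚ Qbar s₁ ∧ x₁ * x₂ = algebraMap ℚ Qbar s₂ ∧ x₁ ≠ x₂ ∧
      psi2sq (E.map (algebraMap ℚ Qbar)) x₁ ≠ 0 ∧ psi2sq (E.map (algebraMap ℚ Qbar)) x₂ ≠ 0 ∧
      x₂ * psi2sq (E.map (algebraMap ℚ Qbar)) x₁ = phi2 (E.map (algebraMap ℚ Qbar)) x₁ ∧
      x₁ * psi2sq (E.map (algebraMap ℚ Qbar)) x₂ = phi2 (E.map (algebraMap ℚ Qbar)) x₂ := by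
  classical
  -- `E[5]` is nontrivial
  obtain ⟨P₀, hP₀, h5P₀⟩ := hex
  have hnt : Nontrivial (Submodule.torsionBy ℤ (E⁄Qbar).Point ((5:ℕ):ℤ)) := by
    refine ⟨⟨⟨P₀, ?_⟩, 0, ?_⟩⟩
    · rw [Submodule.mem_torsionBy_iff]; exact_mod_cast h5P₀
    · intro e; exact hP₀ (congrArg Subtype.val e)
  -- a stable proper nonzero submodule
  have hN : ∃ N : Submodule (ZMod 5) (Submodule.torsionBy ℤ (E⁄Qbar).Point ((5:ℕ):ℤ)),
      Point.IsGaloisStable ℚ N ∧ N ≠ ⊥ ∧ N ≠ ⊤ := by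
    by_contra hcon
    push Not at hcon
    refine h ⟨hnt, fun N hN => ?_⟩
    by_contra hh
    push Not at hh
    exact hh.2 (hcon N hN hh.1)
  obtain ⟨N, hN, hbot, htop⟩ := hN
  obtain ⟨P, hPN, hP0⟩ := Submodule.exists_mem_ne_zero_of_ne_bot hbot
  rcases P with ⟨_ | ⟨x₁, y₁, h₁⟩, hP5⟩
  · exact absurd rfl hP0
  have h5 : (5:ℤ) • Point.some x₁ y₁ h₁ = 0 := by
    rw [Submodule.mem_torsionBy_iff] at hP5; exact_mod_cast hP5
  obtain ⟨x₂, y₂, h₂, h2P, hne, hψ1, hψ2, hr1, hr2⟩ := hrel h₁ h5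
  -- every automorphism fixes or swaps `x₁, x₂`
  have hperm : ∀ σ : Qbar ≃ₐ[ℚ] Qbar, (σ x₁ = x₁ ∧ σ x₂ = x₂) ∨ (σ x₁ = x₂ ∧ σ x₂ = x₁) := by
    intro σ
    obtain ⟨k, hk⟩ := hL N hbot htop hPN hP0 (hN σ _ hPN)
    have hk1 : σ • Point.some x₁ y₁ h₁ = k • Point.some x₁ y₁ h₁ := by
      have := congrArg Subtype.val hk
      rwa [AddSubmonoidClass.coe_nsmul] at this
    have hk2 : σ • Point.some x₂ y₂ h₂ = k • ((2:ℤ) • Point.some x₁ y₁ h₁) := by
      rw [← h2P, Point.algEquiv_smul_zsmul, hk1]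
      rw [← natCast_zsmul, ← natCast_zsmul, smul_comm]
    rw [Point.algEquiv_smul_def, Point.map_some] at hk1 hk2
    rcases gal5_cases (Point.some x₁ y₁ h₁) h5 k with h0 | ⟨ha, hb⟩ | ⟨ha, hb⟩
    · rw [h0] at hk1
      exact absurd hk1 (Point.some_ne_zero _)
    · left
      rw [← hk1] at ha
      rw [← hk2, h2P] at hb
      exact ⟨gal5_x_eq ha, gal5_x_eq hb⟩
    · right
      rw [← hk1, h2P] at ha
      rw [← hk2] at hb
      exact ⟨gal5_x_eq ha, gal5_x_eq hb⟩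
  obtain ⟨s₁, hs₁⟩ := gal5_rational (x₁ + x₂) (fun σ => by
    rcases hperm σ with ⟨e1, e2⟩ | ⟨e1, e2⟩
    · rw [map_add, e1, e2]
    · rw [map_add, e1, e2, add_comm])
  obtain ⟨s₂, hs₂⟩ := gal5_rational (x₁ * x₂) (fun σ => by
    rcases hperm σ with ⟨e1, e2⟩ | ⟨e1, e2⟩
    · rw [map_mul, e1, e2]
    · rw [map_mul, e1, e2, mul_comm])
  exact ⟨s₁, s₂, x₁, x₂, hs₁, hs₂, hne, hψ1, hψ2, hr1, hr2⟩

/-- In an abelian group, `5 • P = 0` together with a smaller nontrivial relation kills `P`. -/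
private theorem gal5_eq_zero_of {A : Type*} [AddCommGroup A] {P : A} (h5 : (5:ℤ) • P = 0)
    {m : ℤ} (hm : m • P = 0) (hcop : IsCoprime m 5) : P = 0 := by
  obtain ⟨a, b, hab⟩ := hcop
  have : (a * m + b * 5) • P = 0 := by
    rw [add_smul, mul_smul, mul_smul, hm, h5, smul_zero, smul_zero, add_zero]
  rwa [hab, one_smul] at this

/-- The relations between `x(P)` and `x(2P)` for a point `P` of order `5` (package A5,
`five_torsion_rel`), from the doubling formula `two_zsmul_some`. -/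
theorem gal5_five_torsion_rel {F : Type*} [Field F] [DecidableEq F] {W : Affine F}
    {x₁ y₁ : F} (h₁ : W.Nonsingular x₁ y₁)
    (h5 : (5:ℤ) • Point.some x₁ y₁ h₁ = 0) :
    ∃ (x₂ y₂ : F) (h₂ : W.Nonsingular x₂ y₂),
      (2:ℤ) • Point.some x₁ y₁ h₁ = Point.some x₂ y₂ h₂ ∧ x₁ ≠ x₂ ∧
      psi2sq W x₁ ≠ 0 ∧ psi2sq W x₂ ≠ 0 ∧
      x₂ * psi2sq W x₁ = phi2 W x₁ ∧ x₁ * psi2sq W x₂ = phi2 W x₂ := by
  have hP0 : Point.some x₁ y₁ h₁ ≠ 0 := Point.some_ne_zero _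
  -- `P` is not 2-torsion
  have hy₁ : y₁ ≠ W.negY x₁ y₁ := by
    intro hy
    have h2 : (2:ℤ) • Point.some x₁ y₁ h₁ = 0 := by
      rw [two_zsmul, Point.add_self_of_Y_eq hy]
    exact hP0 (gal5_eq_zero_of h5 h2 (by norm_num))
  obtain ⟨hψ1, x₂, y₂, h₂, h2P, hr1⟩ := two_zsmul_some h₁ hy₁
  -- `2P` is not 2-torsion
  have hy₂ : y₂ ≠ W.negY x₂ y₂ := by
    intro hy
    have h2 : (2:ℤ) • Point.some x₂ y₂ h₂ = 0 := by
      rw [two_zsmul, Point.add_self_of_Y_eq hy]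
    rw [← h2P, smul_smul] at h2
    exact hP0 (gal5_eq_zero_of h5 h2 (by norm_num))
  obtain ⟨hψ2, x₃, y₃, h₃, h4P, hr2⟩ := two_zsmul_some h₂ hy₂
  -- `4P = -P`
  have h4 : Point.some x₃ y₃ h₃ = -Point.some x₁ y₁ h₁ := by
    rw [← h4P, ← h2P, smul_smul, eq_neg_iff_add_eq_zero]
    nth_rewrite 2 [← one_smul ℤ (Point.some x₁ y₁ h₁)]
    rw [← add_smul]
    norm_num
    exact h5
  have hx31 : x₃ = x₁ := by
    rw [Point.neg_some, Point.some.injEq] at h4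
    exact h4.1
  -- `x(2P) ≠ x(P)`
  have hne : x₁ ≠ x₂ := by
    intro hx
    rcases (Point.X_eq_iff (h₁ := h₂) (h₂ := h₁)).mp hx.symm with e | e
    · -- `2P = P`
      rw [← h2P] at e
      have : (1:ℤ) • Point.some x₁ y₁ h₁ = 0 := by
        have h2 : (2:ℤ) • Point.some x₁ y₁ h₁ - Point.some x₁ y₁ h₁ = 0 := sub_eq_zero.mpr e
        rw [one_smul]
        rw [two_zsmul, add_sub_cancel_right] at h2
        exact h2
      exact hP0 (gal5_eq_zero_of h5 this (by norm_num))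
    · -- `2P = -P`
      rw [← h2P, eq_neg_iff_add_eq_zero] at e
      have : (3:ℤ) • Point.some x₁ y₁ h₁ = 0 := by
        nth_rewrite 2 [← one_smul ℤ (Point.some x₁ y₁ h₁)] at e
        rw [← add_smul] at e
        norm_num at e
        exact e
      exact hP0 (gal5_eq_zero_of h5 this (by norm_num))
  refine ⟨x₂, y₂, h₂, h2P, hne, hψ1, hψ2, hr1, ?_⟩
  rw [← hx31]
  exact hr2

section

variable {F : Type*} [Field F] [DecidableEq F] {W : Affine F}

/-- The x-coordinate of an affine point of order `5` is a root of `psi5`. -/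
theorem gal5_psi5_eq_zero {x y : F} (h : W.Nonsingular x y)
    (h5 : (5:ℤ) • Point.some x y h = 0) : psi5 W x = 0 := by
  obtain ⟨x₂, y₂, h₂, -, -, hD, hD2, hr1, hr2⟩ := gal5_five_torsion_rel h h5
  have hx₂ : x₂ = phi2 W x / psi2sq W x := by
    rw [eq_div_iff hD]; exact hr1
  rw [hx₂] at hr2
  have e1 := psi2sq_div_mul W (phi2 W x) (psi2sq W x) hD
  rw [polyid1] at e1
  have e2 := phi2_div_mul W (phi2 W x) (psi2sq W x) hD
  have e3 := polyid2 W x
  have hprod : psi3 W x * psi5 W x = 0 := by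
    linear_combination e3 + e2 - x * psi2sq W x * e1 + (psi2sq W x) ^ 4 * hr2
  rcases mul_eq_zero.mp hprod with h3 | h5'
  · exfalso
    have h3P : (3:ℤ) • Point.some x y h = 0 := (three_zsmul_eq_zero_iff h).mpr h3
    have hcop : IsCoprime (3:ℤ) 5 := by norm_num
    obtain ⟨a, b, hab⟩ := hcop
    have : (a * 3 + b * 5) • Point.some x y h = 0 := by
      rw [add_smul, mul_smul, mul_smul, h3P, h5, smul_zero, smul_zero, add_zero]
    rw [hab, one_smul] at this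
    exact Point.some_ne_zero _ this
  · exact h5'

/-- (A5, `five_torsion_finite`) `E[5]` is finite with fewer than `125` elements. -/
theorem gal5_five_torsion_finite [CharZero F] :
    Finite (Submodule.torsionBy ℤ W.Point 5) ∧
      Nat.card (Submodule.torsionBy ℤ W.Point 5) < 125 := by
  have h5F : (5 : F) ≠ 0 := by norm_num
  have hne : W.preΨ' 5 ≠ 0 := W.preΨ'_ne_zero (by exact_mod_cast h5F)
  have key := taux_card_le_of_forall_isRoot (W := W) (W.preΨ' 5) hne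
    (Submodule.torsionBy ℤ W.Point 5 : Set W.Point)
    (fun x y hxy hP => by
      rw [IsRoot.def, eval_preΨ'_five]
      exact gal5_psi5_eq_zero hxy ((Submodule.mem_torsionBy_iff _ _).mp hP))
  refine ⟨key.1, lt_of_le_of_lt key.2 ?_⟩
  rw [natDegree_preΨ'_five W h5F]
  norm_num

/-- (A5, `exists_five_torsion`) Over an algebraically closed field of characteristic zero, a
Weierstrass curve with `Δ ≠ 0` has a point of order `5`. -/
theorem gal5_exists_five_torsion [CharZero F] [IsAlgClosed F] (hΔ : W.Δ ≠ 0) :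
    ∃ P : W.Point, P ≠ 0 ∧ (5:ℤ) • P = 0 := by
  obtain ⟨x, hx⟩ := exists_root_psi5 W (by norm_num : (5 : F) ≠ 0)
  obtain ⟨hD, hpsi3, -, hD2, -, hr1, hr2⟩ :=
    psi5_root_chain W hΔ (by norm_num) (by norm_num) hx
  -- solve for `y`
  set q : F[X] := X ^ 2 + C (W.a₁ * x + W.a₃) * X - C (x ^ 3 + W.a₂ * x ^ 2 + W.a₄ * x + W.a₆)
    with hq
  have hqdeg : q.degree ≠ 0 := by
    have : q.degree = 2 := by
      rw [hq]
      compute_degree!
    rw [this]; norm_num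
  obtain ⟨y, hy⟩ := IsAlgClosed.exists_root q hqdeg
  have heq : W.Equation x y := by
    rw [equation_iff]
    rw [hq, IsRoot.def] at hy
    simp only [eval_add, eval_sub, eval_pow, eval_mul, eval_X, eval_C] at hy
    linear_combination hy
  have hns : W.Nonsingular x y := (equation_iff_nonsingular_of_Δ_ne_zero hΔ).mp heq
  have hy₁ : y ≠ W.negY x y := by
    intro hyy
    apply hD
    rw [psi2sq_eq_sq heq, sub_eq_zero.mpr hyy]
    ring
  obtain ⟨-, x₂, y₂, h₂, h2P, hx₂⟩ := two_zsmul_some hns hy₁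
  have hx₂' : x₂ = phi2 W x / psi2sq W x := by
    rw [eq_div_iff hD]; exact hx₂
  rw [← hx₂'] at hD2 hr2
  have hy₂ : y₂ ≠ W.negY x₂ y₂ := by
    intro hyy
    apply hD2
    rw [psi2sq_eq_sq h₂.1, sub_eq_zero.mpr hyy]
    ring
  obtain ⟨-, x₃, y₃, h₃, h4P, hx₃⟩ := two_zsmul_some h₂ hy₂
  have hx₃' : x₃ = x := by
    have : x₃ * psi2sq W x₂ = x * psi2sq W x₂ := by rw [hx₃, hr2]
    exact mul_right_cancel₀ hD2 this
  refine ⟨Point.some x y hns, Point.some_ne_zero _, ?_⟩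
  have h4 : (4:ℤ) • Point.some x y hns = Point.some x₃ y₃ h₃ := by
    rw [← h4P, ← h2P, smul_smul]; norm_num
  rcases (Point.X_eq_iff (h₁ := h₃) (h₂ := hns)).mp hx₃' with e | e
  · -- `4P = P` would give `3P = 0`
    exfalso
    rw [← h4] at e
    have h3P : (3:ℤ) • Point.some x y hns = 0 := by
      have : (4:ℤ) • Point.some x y hns - Point.some x y hns = 0 := sub_eq_zero.mpr e
      nth_rewrite 2 [← one_smul ℤ (Point.some x y hns)] at this
      rw [← sub_smul] at this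
      norm_num at this
      exact this
    exact hpsi3 ((three_zsmul_eq_zero_iff hns).mp h3P)
  · rw [← h4, eq_neg_iff_add_eq_zero] at e
    nth_rewrite 2 [← one_smul ℤ (Point.some x y hns)] at e
    rw [← add_smul] at e
    norm_num at e
    exact e

end

/-- (T5) with package L and the relation part of A5 wired in; existence of a point of order `5`
and the cardinality bound for `E[5]` (for `W := E⁄Qbar`) remain hypotheses. -/
theorem exists_kernel5_of_A5 (E : WeierstrassCurve ℚ)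
    (hex : ∃ P : (E⁄Qbar).Point, P ≠ 0 ∧ (5:ℤ) • P = 0)
    (hfin : Finite (Submodule.torsionBy ℤ (E⁄Qbar).Point 5) ∧
      Nat.card (Submodule.torsionBy ℤ (E⁄Qbar).Point 5) < 125)
    (h : ¬ WeierstrassCurve.Affine.Point.GaloisRepIsIrreducible (K := Qbar) ℚ E 5) :
    ∃ (s₁ s₂ : ℚ) (x₁ x₂ : Qbar),
      x₁ + x₂ = algebraMap ℚ Qbar s₁ ∧ x₁ * x₂ = algebraMap ℚ Qbar s₂ ∧ x₁ ≠ x₂ ∧
      psi2sq (E.map (algebraMap ℚ Qbar)) x₁ ≠ 0 ∧ psi2sq (E.map (algebraMap ℚ Qbar)) x₂ ≠ 0 ∧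
      x₂ * psi2sq (E.map (algebraMap ℚ Qbar)) x₁ = phi2 (E.map (algebraMap ℚ Qbar)) x₁ ∧
      x₁ * psi2sq (E.map (algebraMap ℚ Qbar)) x₂ = phi2 (E.map (algebraMap ℚ Qbar)) x₂ := by
  have hfin' : Finite (Submodule.torsionBy ℤ (E⁄Qbar).Point ((5:ℕ):ℤ)) ∧
      Nat.card (Submodule.torsionBy ℤ (E⁄Qbar).Point ((5:ℕ):ℤ)) < 5 ^ 3 := hfin
  have := hfin'.1
  have : Fact (Nat.Prime 5) := ⟨by norm_num⟩
  exact exists_kernel5_of E (fun h₁ h5 => gal5_five_torsion_rel h₁ h5) hex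
    (fun N hbot htop _ _ hP hP0 hQ => exists_nsmul_of_proper hfin'.2 N hbot htop hP hP0 hQ) h

/-- **(T5)** If the mod-5 representation of `E/ℚ` is reducible, the x-coordinates `x₁ = x(P)`,
`x₂ = x(2P)` of a generator `P` of a Galois-stable line in `E[5]` have rational sum and product
and satisfy the duplication relations. -/
theorem exists_kernel5 (E : WeierstrassCurve ℚ) (hΔ : E.Δ ≠ 0)
    (h : ¬ WeierstrassCurve.Affine.Point.GaloisRepIsIrreducible (K := Qbar) ℚ E 5) :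
    ∃ (s₁ s₂ : ℚ) (x₁ x₂ : Qbar),
      x₁ + x₂ = algebraMap ℚ Qbar s₁ ∧ x₁ * x₂ = algebraMap ℚ Qbar s₂ ∧ x₁ ≠ x₂ ∧
      psi2sq (E.map (algebraMap ℚ Qbar)) x₁ ≠ 0 ∧ psi2sq (E.map (algebraMap ℚ Qbar)) x₂ ≠ 0 ∧
      x₂ * psi2sq (E.map (algebraMap ℚ Qbar)) x₁ = phi2 (E.map (algebraMap ℚ Qbar)) x₁ ∧
      x₁ * psi2sq (E.map (algebraMap ℚ Qbar)) x₂ = phi2 (E.map (algebraMap ℚ Qbar)) x₂ := by
  have hΔ' : (E⁄Qbar).Δ ≠ 0 := by
    show (E.map (algebraMap ℚ Qbar)).Δ ≠ 0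
    rw [WeierstrassCurve.map_Δ]
    exact (_root_.map_ne_zero _).mpr hΔ
  exact exists_kernel5_of_A5 E (gal5_exists_five_torsion hΔ') gal5_five_torsion_finite h

end Fermat.Agent.S51
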