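import Mathlib
import Fermat.Prelude.Def_FLTPrelim_Modularity

set_option autoImplicit false

namespace Fermat.Agent.S51

open WeierstrassCurve

/-- Core arithmetic: if `a * c ^ 3 = 5 * b * D` or `a * c^3 = 25 * b * D` with `5 ∤ a`, `5 ∤ b`,
then `5 ∣ c` and `5 ∣ D`. -/
theorem five_dvd_of_eq_one {a b c D : ℤ} (ha : ¬ (5 : ℤ) ∣ a) (hb : ¬ (5 : ℤ) ∣ b)
    (h : a * c ^ 3 = 5 * b * D) : (5 : ℤ) ∣ c ∧ (5 : ℤ) ∣ D := by
  have h5 : Prime (5 : ℤ) := by norm_num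
  have hc : (5 : ℤ) ∣ c := by
    have h1 : (5 : ℤ) ∣ a * c ^ 3 := ⟨b * D, by rw [h]; ring⟩
    rcases h5.dvd_or_dvd h1 with h2 | h2
    · exact absurd h2 ha
    · exact h5.dvd_of_dvd_pow h2
  refine ⟨hc, ?_⟩
  obtain ⟨k, rfl⟩ := hc
  have h2 : b * D = 5 * (5 * (a * k ^ 3)) := by
    have : 5 * (b * D) = 5 * (5 * (5 * (a * k ^ 3))) := by linear_combination -h
    exact mul_left_cancel₀ (by norm_num) this
  have h3 : (5 : ℤ) ∣ b * D := ⟨5 * (a * k ^ 3), h2⟩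
  rcases h5.dvd_or_dvd h3 with h4 | h4
  · exact absurd h4 hb
  · exact h4

theorem five_dvd_of_eq_two {a b c D : ℤ} (ha : ¬ (5 : ℤ) ∣ a) (hb : ¬ (5 : ℤ) ∣ b)
    (h : a * c ^ 3 = 25 * b * D) : (5 : ℤ) ∣ c ∧ (5 : ℤ) ∣ D := by
  have h5 : Prime (5 : ℤ) := by norm_num
  have hc : (5 : ℤ) ∣ c := by
    have h1 : (5 : ℤ) ∣ a * c ^ 3 := ⟨5 * b * D, by rw [h]; ring⟩
    rcases h5.dvd_or_dvd h1 with h2 | h2
    · exact absurd h2 ha
    · exact h5.dvd_of_dvd_pow h2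
  refine ⟨hc, ?_⟩
  obtain ⟨k, rfl⟩ := hc
  have h2 : b * D = 5 * (a * k ^ 3) := by
    have : 25 * (b * D) = 25 * (5 * (a * k ^ 3)) := by linear_combination -h
    exact mul_left_cancel₀ (by norm_num) this
  have h3 : (5 : ℤ) ∣ b * D := ⟨a * k ^ 3, h2⟩
  rcases h5.dvd_or_dvd h3 with h4 | h4
  · exact absurd h4 hb
  · exact h4

/-- A semistable integral model cannot have `5 ∣ c₄` and `5 ∣ Δ` simultaneously. -/
theorem not_five_dvd_both (W : WeierstrassCurve ℤ) (hW : W.IsSemistableModel)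
    (h : (5 : ℤ) ∣ W.c₄ ∧ (5 : ℤ) ∣ W.Δ) : False :=
  hW 5 (by norm_num) (by exact_mod_cast h.2) (by exact_mod_cast h.1)

/-- Endgame of S51: the four non-cuspidal rational `j`-invariants on `X₀(15)` are not the
`j`-invariant of a semistable integral Weierstrass model. Here `j` is encoded by
`c₄ ^ 3 = j * Δ` (over `ℚ`). -/
theorem false_of_j (W : WeierstrassCurve ℤ) (hW : W.IsSemistableModel) (j : ℚ)
    (hj : (W.c₄ : ℚ) ^ 3 = j * (W.Δ : ℚ))
    (h4 : j = -25 / 2 ∨ j = -349938025 / 8 ∨ j = -121945 / 32 ∨ j = 46969655 / 32768) :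
    False := by
  rcases h4 with rfl | rfl | rfl | rfl
  · -- 2 c^3 = -25 Δ
    have h : (2 : ℤ) * W.c₄ ^ 3 = 25 * (-1) * W.Δ := by
      have : ((2 : ℤ) * W.c₄ ^ 3 : ℚ) = ((25 * (-1) * W.Δ : ℤ) : ℚ) := by
        push_cast; linear_combination 2 * hj
      exact_mod_cast this
    exact not_five_dvd_both W hW (five_dvd_of_eq_two (by norm_num) (by norm_num) h)
  · -- 8 c^3 = -349938025 Δ = 25 * (-13997521) Δ
    have h : (8 : ℤ) * W.c₄ ^ 3 = 25 * (-13997521) * W.Δ := by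
      have : ((8 : ℤ) * W.c₄ ^ 3 : ℚ) = ((25 * (-13997521) * W.Δ : ℤ) : ℚ) := by
        push_cast; linear_combination 8 * hj
      exact_mod_cast this
    exact not_five_dvd_both W hW (five_dvd_of_eq_two (by norm_num) (by norm_num) h)
  · -- 32 c^3 = -121945 Δ = 5 * (-24389) Δ
    have h : (32 : ℤ) * W.c₄ ^ 3 = 5 * (-24389) * W.Δ := by
      have : ((32 : ℤ) * W.c₄ ^ 3 : ℚ) = ((5 * (-24389) * W.Δ : ℤ) : ℚ) := by
        push_cast; linear_combination 32 * hj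
      exact_mod_cast this
    exact not_five_dvd_both W hW (five_dvd_of_eq_one (by norm_num) (by norm_num) h)
  · -- 32768 c^3 = 46969655 Δ = 5 * 9393931 Δ
    have h : (32768 : ℤ) * W.c₄ ^ 3 = 5 * 9393931 * W.Δ := by
      have : ((32768 : ℤ) * W.c₄ ^ 3 : ℚ) = ((5 * 9393931 * W.Δ : ℤ) : ℚ) := by
        push_cast; linear_combination 32768 * hj
      exact_mod_cast this
    exact not_five_dvd_both W hW (five_dvd_of_eq_one (by norm_num) (by norm_num) h)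

/-- Variant of `false_of_j` phrased with the base change of `W` to `ℚ`. -/
theorem false_of_j_map (W : WeierstrassCurve ℤ) (hW : W.IsSemistableModel) (j : ℚ)
    (hj : (W.map (Int.castRingHom ℚ)).c₄ ^ 3 = j * (W.map (Int.castRingHom ℚ)).Δ)
    (h4 : j = -25 / 2 ∨ j = -349938025 / 8 ∨ j = -121945 / 32 ∨ j = 46969655 / 32768) :
    False := by
  refine false_of_j W hW j ?_ h4
  simpa [WeierstrassCurve.map_c₄, WeierstrassCurve.map_Δ] using hj

end Fermat.Agent.S51
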