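import Fermat.Agent.S51.CubicOfFricke

set_option autoImplicit false

/-!
# S51: further bridges to `CubicPoints` (rational points of `y² = X(X+16)(X+25)`)

* from the 2-isogenous curve `E' : y² = x(x-1)(x-81)` (15a2), via `x' = (y/X)²`,
  `y' = y (X² - 400) / X²`;
* from the shifted model `Y² = X(X+9)(X-16)`.
-/

namespace Fermat.Agent.S51.Tau

/-- Rational points of `E' : y² = x(x-1)(x-81)` are the 2-torsion points. -/
def EprimePoints : Prop :=
  ∀ x y : ℚ, y ^ 2 = x * (x - 1) * (x - 81) → y = 0

/-- Rational points of the shifted model `Y² = X(X+9)(X-16)` of 15a1. -/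
def ShiftedCubicPoints : Prop :=
  ∀ X Y : ℚ, Y ^ 2 = X * (X + 9) * (X - 16) → X = 0 ∨ X = -9 ∨ X = 16 ∨ X = 36 ∨ X = -4

theorem cubicPoints_of_eprimePoints (hE : EprimePoints) : CubicPoints := by
  intro X y h
  by_cases hX : X = 0
  · left; exact hX
  have h' : (y * (X ^ 2 - 400) / X ^ 2) ^ 2
      = (y / X) ^ 2 * ((y / X) ^ 2 - 1) * ((y / X) ^ 2 - 81) := by
    field_simp
    rw [h]
    ring
  have h0 := hE _ _ h'
  have h1 : y * (X ^ 2 - 400) = 0 := by
    have hX2 : X ^ 2 ≠ 0 := pow_ne_zero 2 hX
    rcases div_eq_zero_iff.mp h0 with h2 | h2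
    · exact h2
    · exact absurd h2 hX2
  rcases mul_eq_zero.mp h1 with hy | hy
  · rw [hy] at h
    have h2 : X * (X + 16) * (X + 25) = 0 := by linarith
    rcases mul_eq_zero.mp h2 with h3 | h3
    · rcases mul_eq_zero.mp h3 with h4 | h4
      · exact absurd h4 hX
      · right; left; linarith
    · right; right; left; linarith
  · have h2 : (X - 20) * (X + 20) = 0 := by linear_combination hy
    rcases mul_eq_zero.mp h2 with h3 | h3
    · right; right; right; left; linarith
    · right; right; right; right; linarith

theorem cubicPoints_of_shiftedCubicPoints (hS : ShiftedCubicPoints) : CubicPoints := by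
  intro X y h
  have h' : y ^ 2 = (X + 16) * ((X + 16) + 9) * ((X + 16) - 16) := by rw [h]; ring
  rcases hS _ _ h' with h1 | h1 | h1 | h1 | h1
  · right; left; linarith
  · right; right; left; linarith
  · left; linarith
  · right; right; right; left; linarith
  · right; right; right; right; linarith

theorem shiftedCubicPoints_of_cubicPoints (hC : CubicPoints) : ShiftedCubicPoints := by
  intro X Y h
  have h' : Y ^ 2 = (X - 16) * ((X - 16) + 16) * ((X - 16) + 25) := by rw [h]; ring
  rcases hC _ _ h' with h1 | h1 | h1 | h1 | h1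
  · right; right; left; linarith
  · left; linarith
  · right; left; linarith
  · right; right; right; left; linarith
  · right; right; right; right; linarith

end Fermat.Agent.S51.Tau
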