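import Fermat.Agent.S51.TauModel

set_option autoImplicit false

/-!
# S51: the cubic model `y² = X(X+16)(X+25)` versus Fricke's quartic model of `X₀(15)`

Explicit isomorphism: for `(X, y)` on the cubic with `X ≠ 20`, put `U = (20 - X)/2`,
`v = (y - 80 - 5X)/(4U)`, `Y = U + v² - 5v - 19`; then `Y² = (v²+v-1)(v²-11v-1)`.
Hence the rational points of the quartic determine those of the cubic.
-/

namespace Fermat.Agent.S51.Tau

/-- The statement about rational points of Fricke's quartic (package D of S51). -/
def FrickePoints : Prop :=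
  ∀ v y : ℚ, y ^ 2 = (v ^ 2 + v - 1) * (v ^ 2 - 11 * v - 1) → v = 0 ∨ v = -2 ∨ v = 1 / 2

theorem cubicPoints_of_frickePoints (hF : FrickePoints) : CubicPoints := by
  intro X y h
  by_cases hX : X = 20
  · right; right; right; left; exact hX
  have hU : (20 - X) ≠ 0 := sub_ne_zero.mpr (Ne.symm hX)
  obtain ⟨v, hv⟩ : ∃ v : ℚ, 2 * (20 - X) * v = y - 80 - 5 * X :=
    ⟨(y - 80 - 5 * X) / (2 * (20 - X)), by field_simp⟩
  have key : ((20 - X) / 2) ^ 2 + 2 * ((20 - X) / 2) * (v ^ 2 - 5 * v - 19) + 180 * (v + 2) = 0 := by
    have h8 : (20 - X) * (((20 - X) / 2) ^ 2 + 2 * ((20 - X) / 2) * (v ^ 2 - 5 * v - 19)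
        + 180 * (v + 2)) = 0 := by
      linear_combination (1 / 4) * h + ((1 / 4) * (2 * (20 - X) * v + (y - 80 - 5 * X))
        - (5 / 2) * (20 - X) + 90) * hv
    exact (mul_eq_zero.mp h8).resolve_left hU
  have hQ : ((20 - X) / 2 + v ^ 2 - 5 * v - 19) ^ 2 = (v ^ 2 + v - 1) * (v ^ 2 - 11 * v - 1) := by
    linear_combination key
  rcases hF v _ hQ with hv0 | hv0 | hv0
  · -- v = 0 : y = 5X + 80
    subst hv0
    have hy : y = 5 * X + 80 := by linarith
    subst hy
    have h0 : (X + 16) * (X - 20) * (X + 20) = 0 := by linear_combination (-1 : ℚ) * h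
    rcases mul_eq_zero.mp h0 with h1 | h1
    · rcases mul_eq_zero.mp h1 with h2 | h2
      · right; left; linarith
      · exact absurd (by linarith) hX
    · right; right; right; right; linarith
  · -- v = -2 : y = 9X
    subst hv0
    have hy : y = 9 * X := by linarith
    subst hy
    have h0 : X * (X - 20) ^ 2 = 0 := by linear_combination (-1 : ℚ) * h
    rcases mul_eq_zero.mp h0 with h1 | h1
    · left; exact h1
    · exact absurd (by have := pow_eq_zero_iff two_ne_zero |>.mp h1; linarith) hX
  · -- v = 1/2 : y = 4X + 100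
    subst hv0
    have hy : y = 4 * X + 100 := by linarith
    subst hy
    have h0 : (X + 25) * (X - 20) * (X + 20) = 0 := by linear_combination (-1 : ℚ) * h
    rcases mul_eq_zero.mp h0 with h1 | h1
    · rcases mul_eq_zero.mp h1 with h2 | h2
      · right; right; left; linarith
      · exact absurd (by linarith) hX
    · right; right; right; right; linarith


theorem frickePoints_of_cubicPoints (hC : CubicPoints) : FrickePoints := by
  intro v Y h
  obtain ⟨U, hUdef⟩ : ∃ U : ℚ, U = Y - v ^ 2 + 5 * v + 19 := ⟨_, rfl⟩
  have key : U ^ 2 + 2 * U * (v ^ 2 - 5 * v - 19) + 180 * (v + 2) = 0 := by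
    rw [hUdef]; linear_combination h
  have hcub : (4 * U * v + 180 - 10 * U) ^ 2
      = (20 - 2 * U) * ((20 - 2 * U) + 16) * ((20 - 2 * U) + 25) := by
    linear_combination (8 * U) * key
  rcases hC _ _ hcub with hX | hX | hX | hX | hX
  · have hU : U = 10 := by linarith
    rw [hU] at key
    have : (v + 2) ^ 2 = 0 := by linear_combination (1 / 20) * key
    right; left
    have := pow_eq_zero_iff two_ne_zero |>.mp this
    linarith
  · have hU : U = 18 := by linarith
    rw [hU] at key
    have : v ^ 2 = 0 := by linear_combination (1 / 36) * key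
    left
    exact pow_eq_zero_iff two_ne_zero |>.mp this
  · have hU : U = 45 / 2 := by linarith
    rw [hU] at key
    have : (v - 1 / 2) ^ 2 = 0 := by linear_combination (1 / 45) * key
    right; right
    have := pow_eq_zero_iff two_ne_zero |>.mp this
    linarith
  · have hU : U = 0 := by linarith
    rw [hU] at key
    right; left
    linarith
  · have hU : U = 20 := by linarith
    rw [hU] at key
    have : v * (2 * v - 1) = 0 := by linear_combination (1 / 20) * key
    rcases mul_eq_zero.mp this with h1 | h1
    · left; exact h1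
    · right; right; linarith

end Fermat.Agent.S51.Tau
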