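import Mathlib

/-!
# Rational points on the Fricke model of `X₀(15)` (second, independent route)

We prove that the only rational points on `y² = (v²+v-1)(v²-11v-1)` have `v ∈ {0, -2, 1/2}`.
Route: explicit isomorphism with `E : Y² = X(X+9)(X-16)` (15a1), explicit 4-isogeny to the
curve `Y² = X(X² - 322 X + 1)`, whose rational points correspond to solutions of
`x⁴ - 322 x² y² + y⁴ = z²`; the latter has only trivial solutions by an elementary descent.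
-/

namespace Fermat.Agent.S51.E15

/-- Four numbers lemma. -/
theorem four_numbers {a b c d : ℕ} (hab : Nat.Coprime a b) (hcd : Nat.Coprime c d)
    (h : a * b = c * d) :
    ∃ p q r s : ℕ, a = p * q ∧ b = r * s ∧ c = p * r ∧ d = q * s := by
  refine ⟨Nat.gcd a c, Nat.gcd a d, Nat.gcd b c, Nat.gcd b d, ?_, ?_, ?_, ?_⟩
  · rw [← Nat.Coprime.gcd_mul a hcd, ← h]
    exact (Nat.gcd_eq_left (Dvd.intro b rfl)).symm
  · rw [← Nat.Coprime.gcd_mul b hcd, ← h]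
    exact (Nat.gcd_eq_left (Dvd.intro_left a rfl)).symm
  · rw [Nat.gcd_comm a c, Nat.gcd_comm b c, ← Nat.Coprime.gcd_mul c hab, h]
    exact (Nat.gcd_eq_left (Dvd.intro d rfl)).symm
  · rw [Nat.gcd_comm a d, Nat.gcd_comm b d, ← Nat.Coprime.gcd_mul d hab, h]
    exact (Nat.gcd_eq_left (Dvd.intro_left c rfl)).symm

/-- Step II of the descent: a point of class `(1,1,1)` on `y² = x(x-1)(x-81)` gives a smaller
solution of the quartic. -/
theorem stepII {M e A B : ℤ} (h1 : M ^ 2 - e ^ 2 = A ^ 2) (h2 : M ^ 2 - 81 * e ^ 2 = B ^ 2)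
    (he : e ≠ 0) :
    ∃ r s z : ℤ, r ≠ 0 ∧ s ≠ 0 ∧ IsCoprime r s ∧
      r ^ 4 - 322 * r ^ 2 * s ^ 2 + s ^ 4 = z ^ 2 ∧ r ∣ e ∧ s ∣ e := by
  have huv : (M + A) * (M - A) = e ^ 2 := by linear_combination h1
  have hu0 : M + A ≠ 0 := by
    intro h0
    rw [h0, zero_mul] at huv
    exact he (pow_eq_zero_iff (by norm_num) |>.mp huv.symm)
  have hd0 : 0 < Int.gcd (M + A) e := Int.gcd_pos_of_ne_zero_left _ hu0
  obtain ⟨r, s, hrs, hr, hs⟩ := Int.exists_gcd_one hd0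
  set d : ℤ := (Int.gcd (M + A) e : ℤ) with hd
  have hdne : d ≠ 0 := by
    have : (0 : ℤ) < d := Int.natCast_pos.mpr hd0
    exact this.ne'
  have hcop' : IsCoprime r s := Int.isCoprime_iff_gcd_eq_one.mpr hrs
  have hr0 : r ≠ 0 := by
    rintro rfl
    rw [zero_mul] at hr
    exact hu0 hr
  have hs0 : s ≠ 0 := by
    rintro rfl
    rw [zero_mul] at hs
    exact he hs
  -- r ∣ e
  have hre : r ∣ e := by
    have h3 : r * (M - A) = d * s ^ 2 := by
      have : d * (r * (M - A)) = d * (d * s ^ 2) := by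
        calc d * (r * (M - A)) = (r * d) * (M - A) := by ring
          _ = (M + A) * (M - A) := by rw [← hr]
          _ = e ^ 2 := huv
          _ = (s * d) ^ 2 := by rw [← hs]
          _ = d * (d * s ^ 2) := by ring
      exact mul_left_cancel₀ hdne this
    have h4 : r ∣ d * s ^ 2 := Dvd.intro _ h3
    have h5 : r ∣ d := (hcop'.pow_right (n := 2)).dvd_of_dvd_mul_right h4
    rw [hs]
    exact Dvd.dvd.mul_left h5 s
  have hse : s ∣ e := Dvd.intro _ hs.symm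
  -- the quartic
  have hK : (d ^ 2) ^ 2 * (r ^ 4 - 322 * r ^ 2 * s ^ 2 + s ^ 4) = (2 * (M + A) * B) ^ 2 := by
    have e2 : e ^ 2 = (M + A) * (M - A) := huv.symm
    have : (d ^ 2) ^ 2 * (r ^ 4 - 322 * r ^ 2 * s ^ 2 + s ^ 4)
        = (r * d) ^ 4 - 322 * (r * d) ^ 2 * (s * d) ^ 2 + ((s * d) ^ 2) ^ 2 := by ring
    rw [this, ← hr, ← hs, e2]
    linear_combination (4 * (M + A) ^ 2) * h2 + (- 324 * (M+A)^2) * huv
  have hdvd : d ^ 2 ∣ 2 * (M + A) * B := by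
    have : (d ^ 2) ^ 2 ∣ (2 * (M + A) * B) ^ 2 := Dvd.intro _ hK
    exact (Int.pow_dvd_pow_iff (by norm_num)).mp this
  obtain ⟨z, hz⟩ := hdvd
  refine ⟨r, s, z, hr0, hs0, hcop', ?_, hre, hse⟩
  have hd2 : (d ^ 2) ^ 2 ≠ 0 := pow_ne_zero _ (pow_ne_zero _ hdne)
  apply mul_left_cancel₀ hd2
  rw [hK, hz]
  ring


theorem odd_sq_sub_one {n : ℤ} (hn : Odd n) : (8 : ℤ) ∣ n ^ 2 - 1 := by
  obtain ⟨m, rfl⟩ := hn
  obtain ⟨k, hk⟩ := Int.even_mul_succ_self m
  exact ⟨k, by linear_combination 4 * hk⟩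

/-- If `a² - b² ` is even and `a, b` coprime, both are odd. -/
theorem both_odd_of_even_sq_sub {a b : ℤ} (hcop : IsCoprime a b) {n : ℤ} (hn : Even n)
    {p q : ℤ} (hp : Odd p) (h : p * a ^ 2 - b ^ 2 = n * q) : Odd a ∧ Odd b := by
  have hev : Even (p * a ^ 2 - b ^ 2) := by rw [h]; exact hn.mul_right q
  have hiff : Even a ↔ Even b := by
    have := hev
    rw [Int.even_sub, Int.even_mul, Int.even_pow' two_ne_zero, Int.even_pow' two_ne_zero] at this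
    constructor
    · intro ha; exact this.mp (Or.inr ha)
    · intro hb
      rcases this.mpr hb with h' | h'
      · exact absurd h' (Int.not_even_iff_odd.mpr hp)
      · exact h'
  have hna : ¬ Even a := by
    intro ha
    have hb := hiff.mp ha
    obtain ⟨a', rfl⟩ := ha
    obtain ⟨b', rfl⟩ := hb
    have h2 : IsCoprime (2 : ℤ) 2 := by
      have h3 : IsCoprime (2 * a') (2 * b') := by simpa [two_mul] using hcop
      exact h3.of_mul_left_left.of_mul_right_left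
    have := h2.isUnit_of_dvd' (dvd_refl 2) (dvd_refl 2)
    rw [Int.isUnit_iff] at this
    omega
  have hnb : ¬ Even b := fun hb => hna (hiff.mpr hb)
  exact ⟨Int.not_even_iff_odd.mp hna, Int.not_even_iff_odd.mp hnb⟩

theorem divisors80 {c c' : ℤ} (hc : 0 < c) (h : c * c' = 80) :
    (c = 1 ∧ c' = 80) ∨ (c = 2 ∧ c' = 40) ∨ (c = 4 ∧ c' = 20) ∨ (c = 5 ∧ c' = 16) ∨
    (c = 8 ∧ c' = 10) ∨ (c = 10 ∧ c' = 8) ∨ (c = 16 ∧ c' = 5) ∨ (c = 20 ∧ c' = 4) ∨
    (c = 40 ∧ c' = 2) ∨ (c = 80 ∧ c' = 1) := by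
  have hc80 : c ≤ 80 := Int.le_of_dvd (by norm_num) ⟨c', h.symm⟩
  interval_cases c <;> omega


/-- The two "classes" cannot both be even. -/
theorem both_even_false {x1 x2 y1 y2 c c' : ℤ}
    (hc21 : IsCoprime x2 y1) (hc12 : IsCoprime x1 y2)
    (e1 : x2 ^ 2 - y1 ^ 2 = c * x1 ^ 2) (e3 : 81 * x1 ^ 2 - y2 ^ 2 = c' * x2 ^ 2)
    (hcc : c * c' = 80) (hc : Even c) (hc' : Even c') : False := by
  obtain ⟨hx2, hy1⟩ := both_odd_of_even_sq_sub hc21 hc (p := 1) (q := x1 ^ 2) odd_one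
    (by linear_combination e1)
  obtain ⟨hx1, hy2⟩ := both_odd_of_even_sq_sub hc12 hc' (p := 81) (q := x2 ^ 2) (by decide)
    (by linear_combination e3)
  obtain ⟨a, ha⟩ := odd_sq_sub_one hx1
  obtain ⟨b, hb⟩ := odd_sq_sub_one hx2
  obtain ⟨d, hd⟩ := odd_sq_sub_one hy1
  obtain ⟨f, hf⟩ := odd_sq_sub_one hy2
  have h8c : (8 : ℤ) ∣ c := ⟨b - d - c * a, by linear_combination -e1 + hb - hd - c * ha⟩
  have h8c' : (8 : ℤ) ∣ c' :=
    ⟨81 * a + 10 - f - c' * b, by linear_combination -e3 + 81 * ha - hf - c' * hb⟩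
  obtain ⟨m, rfl⟩ := h8c
  obtain ⟨n, rfl⟩ := h8c'
  have h64 : (64 : ℤ) ∣ 80 := ⟨m * n, by linear_combination -hcc⟩
  norm_num at h64

theorem descent_core {x1 x2 y1 y2 : ℤ} (hx1 : 0 < x1) (hx2 : 0 < x2) (hy1 : 0 < y1) (hy2 : 0 < y2)
    (hcop : IsCoprime (x1 * x2) (y1 * y2))
    (hlt : y1 * y2 < x1 * x2)
    (hE : 81 * x1 ^ 2 * y1 ^ 2 + x2 ^ 2 * y2 ^ 2 = x1 ^ 2 * x2 ^ 2 + y1 ^ 2 * y2 ^ 2) :
    ∃ r s z : ℤ, r ≠ 0 ∧ s ≠ 0 ∧ IsCoprime r s ∧
      r ^ 4 - 322 * r ^ 2 * s ^ 2 + s ^ 4 = z ^ 2 ∧ |r| ≤ y1 * y2 ∧ |s| ≤ y1 * y2 := by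
  have hc12 : IsCoprime x1 y2 := hcop.of_mul_left_left.of_mul_right_right
  have hc11 : IsCoprime x1 y1 := hcop.of_mul_left_left.of_mul_right_left
  have hc21 : IsCoprime x2 y1 := hcop.of_mul_left_right.of_mul_right_left
  have hc22 : IsCoprime x2 y2 := hcop.of_mul_left_right.of_mul_right_right
  -- k
  have hdvd1 : x1 ^ 2 ∣ y1 ^ 2 - x2 ^ 2 := by
    have h : x1 ^ 2 ∣ y2 ^ 2 * (y1 ^ 2 - x2 ^ 2) :=
      ⟨81 * y1 ^ 2 - x2 ^ 2, by linear_combination -hE⟩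
    exact (hc12.pow (m := 2) (n := 2)).dvd_of_dvd_mul_left h
  obtain ⟨k, hk⟩ := hdvd1
  have hk2 : 81 * y1 ^ 2 - x2 ^ 2 = k * y2 ^ 2 := by
    have hx1sq : x1 ^ 2 ≠ 0 := pow_ne_zero _ hx1.ne'
    apply mul_left_cancel₀ hx1sq
    linear_combination hE + y2 ^ 2 * hk
  have hdvd2 : y1 ^ 2 ∣ x1 ^ 2 - y2 ^ 2 := by
    have h : y1 ^ 2 ∣ x2 ^ 2 * (x1 ^ 2 - y2 ^ 2) :=
      ⟨81 * x1 ^ 2 - y2 ^ 2, by linear_combination -hE⟩
    exact (hc21.symm.pow (m := 2) (n := 2)).dvd_of_dvd_mul_left h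
  obtain ⟨k', hk'⟩ := hdvd2
  have hk'2 : 81 * x1 ^ 2 - y2 ^ 2 = k' * x2 ^ 2 := by
    have hy1sq : y1 ^ 2 ≠ 0 := pow_ne_zero _ hy1.ne'
    apply mul_left_cancel₀ hy1sq
    linear_combination hE + x2 ^ 2 * hk'
  have hkk : k * k' = -80 := by
    have hy1sq : y1 ^ 2 ≠ 0 := pow_ne_zero _ hy1.ne'
    apply mul_left_cancel₀ hy1sq
    linear_combination hk2 - hk - k * hk'
  -- sign
  have hkneg : k < 0 := by
    by_contra hneg
    rw [not_lt] at hneg
    have hk0 : k ≠ 0 := by rintro rfl; omega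
    have hkpos : 0 < k := lt_of_le_of_ne hneg (Ne.symm hk0)
    have hk'neg : k' < 0 := by
      by_contra h'
      rw [not_lt] at h'
      have := mul_nonneg hkpos.le h'
      omega
    have h1 : x2 < y1 := by
      have : x2 ^ 2 < y1 ^ 2 := by nlinarith [pow_pos hx1 2]
      exact lt_of_pow_lt_pow_left₀ 2 hy1.le this
    have h2 : x1 < y2 := by
      have : x1 ^ 2 < y2 ^ 2 := by nlinarith [pow_pos hy1 2]
      exact lt_of_pow_lt_pow_left₀ 2 hy2.le this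
    nlinarith
  have hcpos : 0 < -k := by omega
  have hcc : (-k) * k' = 80 := by linear_combination -hkk
  have e1 : x2 ^ 2 - y1 ^ 2 = (-k) * x1 ^ 2 := by linear_combination -hk
  have e2 : x2 ^ 2 - 81 * y1 ^ 2 = (-k) * y2 ^ 2 := by linear_combination -hk2
  have e3 : 81 * x1 ^ 2 - y2 ^ 2 = k' * x2 ^ 2 := hk'2
  have e4 : x1 ^ 2 - y2 ^ 2 = k' * y1 ^ 2 := by linear_combination hk'
  have hy1le : y1 ≤ y1 * y2 := by nlinarith
  have hy2le : y2 ≤ y1 * y2 := by nlinarith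
  have bound : ∀ {r e : ℤ}, 0 < e → r ∣ e → |r| ≤ e := by
    intro r e he hr
    exact Int.le_of_dvd he ((abs_dvd r e).mpr hr)
  -- 3 ∤ y2 in the S_b cases
  have h3y2 : ∀ {m : ℤ}, ¬ (3 : ℤ) ∣ m → 81 * x1 ^ 2 - y2 ^ 2 = m * x2 ^ 2 → IsCoprime (9 * x1) y2 := by
    intro m hm hm'
    have h3 : IsCoprime (3 : ℤ) y2 := by
      rw [Prime.coprime_iff_not_dvd Int.prime_three]
      intro h3
      have h3x : (3 : ℤ) ∣ m * x2 ^ 2 := by
        rw [← hm']
        exact Dvd.dvd.sub (Dvd.dvd.mul_right (by norm_num) _) (Dvd.dvd.pow h3 two_ne_zero)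
      have h3x2 : (3 : ℤ) ∣ x2 := by
        rcases Int.prime_three.dvd_or_dvd h3x with h | h
        · exact absurd h hm
        · exact Int.prime_three.dvd_of_dvd_pow h
      have := hc22.isUnit_of_dvd' h3x2 h3
      rw [Int.isUnit_iff] at this
      omega
    have h9 : IsCoprime (9 : ℤ) y2 := by
      have := h3.pow_left (m := 2)
      norm_num at this
      exact this
    exact h9.mul_left hc12
  rcases divisors80 hcpos hcc with ⟨hc, hc'⟩ | ⟨hc, hc'⟩ | ⟨hc, hc'⟩ | ⟨hc, hc'⟩ | ⟨hc, hc'⟩ |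
      ⟨hc, hc'⟩ | ⟨hc, hc'⟩ | ⟨hc, hc'⟩ | ⟨hc, hc'⟩ | ⟨hc, hc'⟩
  · -- c = 1
    rw [hc] at e1 e2
    obtain ⟨r, s, z, hr0, hs0, hrs, hq, hre, hse⟩ :=
      stepII (M := x2) (e := y1) (A := x1) (B := y2) (by linear_combination e1)
        (by linear_combination e2) hy1.ne'
    exact ⟨r, s, z, hr0, hs0, hrs, hq, (bound hy1 hre).trans hy1le, (bound hy1 hse).trans hy1le⟩
  · exact (both_even_false hc21 hc12 e1 e3 hcc (by rw [hc]; decide) (by rw [hc']; decide)).elim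
  · exact (both_even_false hc21 hc12 e1 e3 hcc (by rw [hc]; decide) (by rw [hc']; decide)).elim
  · -- c = 5, c' = 16
    rw [hc'] at e3 e4
    have hcop9 : IsCoprime (9 * x1) y2 := h3y2 (m := 16) (by norm_num) e3
    obtain ⟨r, s, z, hr0, hs0, hrs, hq, hre, hse⟩ :=
      stepII (M := 9 * x1) (e := y2) (A := 4 * x2) (B := 36 * y1) (by linear_combination e3)
        (by linear_combination 81 * e4) hy2.ne'
    exact ⟨r, s, z, hr0, hs0, hrs, hq, (bound hy2 hre).trans hy2le, (bound hy2 hse).trans hy2le⟩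
  · exact (both_even_false hc21 hc12 e1 e3 hcc (by rw [hc]; decide) (by rw [hc']; decide)).elim
  · exact (both_even_false hc21 hc12 e1 e3 hcc (by rw [hc]; decide) (by rw [hc']; decide)).elim
  · -- c = 16
    rw [hc] at e1 e2
    obtain ⟨r, s, z, hr0, hs0, hrs, hq, hre, hse⟩ :=
      stepII (M := x2) (e := y1) (A := 4 * x1) (B := 4 * y2) (by linear_combination e1)
        (by linear_combination e2) hy1.ne'
    exact ⟨r, s, z, hr0, hs0, hrs, hq, (bound hy1 hre).trans hy1le, (bound hy1 hse).trans hy1le⟩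
  · exact (both_even_false hc21 hc12 e1 e3 hcc (by rw [hc]; decide) (by rw [hc']; decide)).elim
  · exact (both_even_false hc21 hc12 e1 e3 hcc (by rw [hc]; decide) (by rw [hc']; decide)).elim
  · -- c = 80, c' = 1
    rw [hc'] at e3 e4
    obtain ⟨r, s, z, hr0, hs0, hrs, hq, hre, hse⟩ :=
      stepII (M := 9 * x1) (e := y2) (A := x2) (B := 9 * y1) (by linear_combination e3)
        (by linear_combination 81 * e4) hy2.ne'
    exact ⟨r, s, z, hr0, hs0, hrs, hq, (bound hy2 hre).trans hy2le, (bound hy2 hse).trans hy2le⟩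


theorem not_three_dvd_sq_add_sq {X Y : ℤ} (hcop : IsCoprime X Y) : ¬ (3 : ℤ) ∣ X ^ 2 + Y ^ 2 := by
  intro h
  have key : ∀ a b : ZMod 3, a ^ 2 + b ^ 2 = 0 → a = 0 ∧ b = 0 := by decide
  have h0 : ((X ^ 2 + Y ^ 2 : ℤ) : ZMod 3) = 0 := (ZMod.intCast_zmod_eq_zero_iff_dvd _ 3).mpr h
  push_cast at h0
  obtain ⟨hX, hY⟩ := key _ _ h0
  have hX' : (3 : ℤ) ∣ X := (ZMod.intCast_zmod_eq_zero_iff_dvd _ 3).mp hX
  have hY' : (3 : ℤ) ∣ Y := (ZMod.intCast_zmod_eq_zero_iff_dvd _ 3).mp hY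
  have := hcop.isUnit_of_dvd' hX' hY'
  rw [Int.isUnit_iff] at this
  omega

/-- Descent, given the auxiliary pair `(s, t)` with `9 ∣ s`. -/
theorem descent_of_st {x y s t : ℕ} (hy : 0 < y) (hxy : y < x) (hcop : Nat.Coprime x y)
    (hst : Nat.Coprime s t) (h9 : 9 ∣ s) (hsum : s ^ 2 + t ^ 2 = x ^ 2 + y ^ 2)
    (hprod : s * t = 9 * (x * y)) :
    ∃ r' s' : ℕ, ∃ z' : ℤ, 0 < r' ∧ 0 < s' ∧ Nat.Coprime r' s' ∧ r' ≤ y ∧ s' ≤ y ∧
      (r' : ℤ) ^ 4 - 322 * (r' : ℤ) ^ 2 * (s' : ℤ) ^ 2 + (s' : ℤ) ^ 4 = z' ^ 2 := by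
  obtain ⟨s1, rfl⟩ := h9
  have hprod' : s1 * t = x * y := by
    have : 9 * (s1 * t) = 9 * (x * y) := by rw [← hprod]; ring
    exact Nat.eq_of_mul_eq_mul_left (by norm_num) this
  have hs1t : Nat.Coprime s1 t := Nat.Coprime.coprime_mul_left hst
  obtain ⟨x1, y1, x2, y2, hs1, ht, hx, hy'⟩ := four_numbers hs1t hcop hprod'
  subst hs1 ht hx hy'
  have hxpos : 0 < x1 * x2 := lt_trans hy hxy
  have hx1 : 0 < x1 := Nat.pos_of_mul_pos_right hxpos
  have hx2 : 0 < x2 := Nat.pos_of_mul_pos_left hxpos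
  have hy1 : 0 < y1 := Nat.pos_of_mul_pos_right hy
  have hy2 : 0 < y2 := Nat.pos_of_mul_pos_left hy
  have hE : (81 : ℤ) * (x1 : ℤ) ^ 2 * (y1 : ℤ) ^ 2 + (x2 : ℤ) ^ 2 * (y2 : ℤ) ^ 2
      = (x1 : ℤ) ^ 2 * (x2 : ℤ) ^ 2 + (y1 : ℤ) ^ 2 * (y2 : ℤ) ^ 2 := by
    have := congrArg (Nat.cast : ℕ → ℤ) hsum
    push_cast at this
    linear_combination this
  have hcopZ : IsCoprime ((x1 : ℤ) * (x2 : ℤ)) ((y1 : ℤ) * (y2 : ℤ)) := by
    have := Nat.isCoprime_iff_coprime.mpr hcop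
    push_cast at this
    exact this
  obtain ⟨r, s, z, hr0, hs0, hrs, hq, hrb, hsb⟩ :=
    descent_core (x1 := x1) (x2 := x2) (y1 := y1) (y2 := y2) (by exact_mod_cast hx1)
      (by exact_mod_cast hx2) (by exact_mod_cast hy1) (by exact_mod_cast hy2) hcopZ
      (by exact_mod_cast hxy) hE
  refine ⟨r.natAbs, s.natAbs, z, Int.natAbs_pos.mpr hr0, Int.natAbs_pos.mpr hs0, ?_, ?_, ?_, ?_⟩
  · exact Int.isCoprime_iff_gcd_eq_one.mp hrs
  · have : ((r.natAbs : ℕ) : ℤ) ≤ ((y1 * y2 : ℕ) : ℤ) := by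
      rw [Int.natCast_natAbs]; push_cast; exact hrb
    exact_mod_cast this
  · have : ((s.natAbs : ℕ) : ℤ) ≤ ((y1 * y2 : ℕ) : ℤ) := by
      rw [Int.natCast_natAbs]; push_cast; exact hsb
    exact_mod_cast this
  · rw [Int.natCast_natAbs, Int.natCast_natAbs]
    have e4 : ∀ a : ℤ, |a| ^ 4 = a ^ 4 := fun a => Even.pow_abs (by decide) a
    have e2 : ∀ a : ℤ, |a| ^ 2 = a ^ 2 := fun a => sq_abs a
    rw [e4, e4, e2, e2]
    exact hq

theorem descent_step {x y : ℕ} {z : ℤ} (hy : 0 < y) (hxy : y < x) (hcop : Nat.Coprime x y)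
    (h : (x : ℤ) ^ 4 - 322 * (x : ℤ) ^ 2 * (y : ℤ) ^ 2 + (y : ℤ) ^ 4 = z ^ 2) :
    ∃ r' s' : ℕ, ∃ z' : ℤ, 0 < r' ∧ 0 < s' ∧ Nat.Coprime r' s' ∧ r' ≤ y ∧ s' ≤ y ∧
      (r' : ℤ) ^ 4 - 322 * (r' : ℤ) ^ 2 * (s' : ℤ) ^ 2 + (s' : ℤ) ^ 4 = z' ^ 2 := by
  set X : ℤ := (x : ℤ) with hX
  set Y : ℤ := (y : ℤ) with hY
  have hXpos : 0 < X := by rw [hX]; exact_mod_cast lt_trans hy hxy
  have hYpos : 0 < Y := by rw [hY]; exact_mod_cast hy
  have hcopZ : IsCoprime X Y := Nat.isCoprime_iff_coprime.mpr hcop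
  have hPQ : (X ^ 2 + Y ^ 2 + z) * (X ^ 2 + Y ^ 2 - z) = 324 * X ^ 2 * Y ^ 2 := by
    linear_combination h
  have hevPQ : Even ((X ^ 2 + Y ^ 2 + z) * (X ^ 2 + Y ^ 2 - z)) :=
    ⟨162 * X ^ 2 * Y ^ 2, by rw [hPQ]; ring⟩
  have hdiff : Even ((X ^ 2 + Y ^ 2 + z) - (X ^ 2 + Y ^ 2 - z)) := ⟨z, by ring⟩
  have hiff := Int.even_sub.mp hdiff
  have hP : Even (X ^ 2 + Y ^ 2 + z) := by
    rcases Int.even_mul.mp hevPQ with h1 | h1
    · exact h1
    · exact hiff.mpr h1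
  have hQ : Even (X ^ 2 + Y ^ 2 - z) := hiff.mp hP
  obtain ⟨U, hU⟩ := hP
  obtain ⟨V, hV⟩ := hQ
  have hUVsum : U + V = X ^ 2 + Y ^ 2 := by linarith
  have hUVprod : U * V = (9 * X * Y) ^ 2 := by
    have h4 : 4 * (U * V) = 4 * (9 * X * Y) ^ 2 := by
      have : (U + U) * (V + V) = 324 * X ^ 2 * Y ^ 2 := by rw [← hU, ← hV]; exact hPQ
      linear_combination this
    linarith
  -- coprimality
  have hc3 : IsCoprime (X ^ 2 + Y ^ 2) (3 : ℤ) := by
    rw [isCoprime_comm, Prime.coprime_iff_not_dvd Int.prime_three]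
    exact not_three_dvd_sq_add_sq hcopZ
  have hc9 : IsCoprime (X ^ 2 + Y ^ 2) (9 : ℤ) := by
    have := hc3.pow_right (n := 2)
    norm_num at this
    exact this
  have hcX : IsCoprime (X ^ 2 + Y ^ 2) X := by
    have h1 : IsCoprime (Y ^ 2) X := (hcopZ.symm).pow_left
    have h2 := h1.add_mul_left_left X
    have : Y ^ 2 + X * X = X ^ 2 + Y ^ 2 := by ring
    rwa [this] at h2
  have hcY : IsCoprime (X ^ 2 + Y ^ 2) Y := by
    have h1 : IsCoprime (X ^ 2) Y := hcopZ.pow_left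
    have h2 := h1.add_mul_left_left Y
    have : X ^ 2 + Y * Y = X ^ 2 + Y ^ 2 := by ring
    rwa [this] at h2
  have hcprod : IsCoprime (U + V) (U * V) := by
    rw [hUVsum, hUVprod]
    exact ((hc9.mul_right hcX).mul_right hcY).pow_right
  have hcUV : IsCoprime U V := by
    have h1 : IsCoprime (U + V) V := hcprod.of_mul_right_right
    have h2 : IsCoprime (U + V * 1) V := by simpa using h1
    exact IsCoprime.add_mul_left_left_iff.mp h2
  -- positivity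
  have hprodpos : 0 < U * V := by
    rw [hUVprod]; positivity
  have hsumpos : 0 < U + V := by rw [hUVsum]; positivity
  have hUpos : 0 < U := by
    rcases pos_and_pos_or_neg_and_neg_of_mul_pos hprodpos with ⟨h1, _⟩ | ⟨h1, h2⟩
    · exact h1
    · linarith
  have hVpos : 0 < V := by
    rcases pos_and_pos_or_neg_and_neg_of_mul_pos hprodpos with ⟨_, h2⟩ | ⟨h1, h2⟩
    · exact h2
    · linarith
  -- squares
  obtain ⟨s0, hs0⟩ := Int.sq_of_isCoprime hcUV hUVprod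
  obtain ⟨t0, ht0⟩ := Int.sq_of_isCoprime hcUV.symm (by rw [mul_comm]; exact hUVprod)
  have hUs : U = s0 ^ 2 := by
    rcases hs0 with h1 | h1
    · exact h1
    · have := sq_nonneg s0; linarith
  have hVt : V = t0 ^ 2 := by
    rcases ht0 with h1 | h1
    · exact h1
    · have := sq_nonneg t0; linarith
  -- naturals
  have hsN : ((s0.natAbs : ℕ) : ℤ) ^ 2 = U := by rw [Int.natCast_natAbs, sq_abs, hUs]
  have htN : ((t0.natAbs : ℕ) : ℤ) ^ 2 = V := by rw [Int.natCast_natAbs, sq_abs, hVt]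
  have hstcop : Nat.Coprime s0.natAbs t0.natAbs := by
    rw [← Nat.isCoprime_iff_coprime]
    have : IsCoprime (((s0.natAbs : ℕ) : ℤ) ^ 2) (((t0.natAbs : ℕ) : ℤ) ^ 2) := by
      rw [hsN, htN]; exact hcUV
    exact (IsCoprime.pow_iff (by norm_num) (by norm_num)).mp this
  have hsumN : s0.natAbs ^ 2 + t0.natAbs ^ 2 = x ^ 2 + y ^ 2 := by
    have : ((s0.natAbs ^ 2 + t0.natAbs ^ 2 : ℕ) : ℤ) = ((x ^ 2 + y ^ 2 : ℕ) : ℤ) := by
      simp only [Nat.cast_add, Nat.cast_pow]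
      rw [hsN, htN, hUVsum]
    exact Nat.cast_injective this
  have hprodN : s0.natAbs * t0.natAbs = 9 * (x * y) := by
    have h1 : (((s0.natAbs : ℕ) : ℤ) * ((t0.natAbs : ℕ) : ℤ)) ^ 2 = (9 * X * Y) ^ 2 := by
      rw [mul_pow, hsN, htN, hUVprod]
    have h2 : ((s0.natAbs : ℕ) : ℤ) * ((t0.natAbs : ℕ) : ℤ) = 9 * X * Y := by
      apply (sq_eq_sq₀ (by positivity) (by positivity)).mp h1
    have h3 : ((s0.natAbs * t0.natAbs : ℕ) : ℤ) = ((9 * (x * y) : ℕ) : ℤ) := by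
      simp only [Nat.cast_mul, Nat.cast_ofNat]
      rw [h2, hX, hY]; ring
    exact Nat.cast_injective h3
  -- 9 ∣ s or 9 ∣ t
  have h9 : 9 ∣ s0.natAbs * t0.natAbs := ⟨x * y, hprodN⟩
  have h3 : 3 ∣ s0.natAbs * t0.natAbs := Dvd.dvd.trans (by norm_num) h9
  rcases (Nat.Prime.dvd_mul Nat.prime_three).mp h3 with h3s | h3t
  · have hnt : Nat.Coprime 9 t0.natAbs := by
      have : Nat.Coprime 3 t0.natAbs := by
        rw [Nat.Prime.coprime_iff_not_dvd Nat.prime_three]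
        intro h3t
        have := Nat.dvd_gcd h3s h3t
        rw [hstcop] at this
        omega
      exact Nat.Coprime.pow_left 2 this
    have h9s : 9 ∣ s0.natAbs := hnt.dvd_of_dvd_mul_right h9
    exact descent_of_st hy hxy hcop hstcop h9s hsumN hprodN
  · have hns : Nat.Coprime 9 s0.natAbs := by
      have : Nat.Coprime 3 s0.natAbs := by
        rw [Nat.Prime.coprime_iff_not_dvd Nat.prime_three]
        intro h3s
        have := Nat.dvd_gcd h3s h3t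
        rw [hstcop] at this
        omega
      exact Nat.Coprime.pow_left 2 this
    have h9t : 9 ∣ t0.natAbs := hns.dvd_of_dvd_mul_left h9
    exact descent_of_st hy hxy hcop hstcop.symm h9t (by rw [add_comm]; exact hsumN)
      (by rw [mul_comm]; exact hprodN)


/-- No nontrivial coprime natural solutions. -/
theorem no_nat_solution : ∀ n x y : ℕ, ∀ z : ℤ, x + y ≤ n → 0 < x → 0 < y → Nat.Coprime x y →
    (x : ℤ) ^ 4 - 322 * (x : ℤ) ^ 2 * (y : ℤ) ^ 2 + (y : ℤ) ^ 4 = z ^ 2 → False := by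
  intro n
  induction n with
  | zero =>
    intro x y z hn hx hy _ _
    omega
  | succ n ih =>
    intro x y z hn hx hy hcop h
    rcases lt_trichotomy x y with hlt | heq | hgt
    · have h' : (y : ℤ) ^ 4 - 322 * (y : ℤ) ^ 2 * (x : ℤ) ^ 2 + (x : ℤ) ^ 4 = z ^ 2 := by
        linear_combination h
      obtain ⟨r, s, z', hr, hs, hrs, hrx, hsx, hq⟩ := descent_step hx hlt hcop.symm h'
      exact ih r s z' (by omega) hr hs hrs hq
    · subst heq
      have hx1 : x = 1 := by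
        have := Nat.Coprime.gcd_eq_one hcop
        rwa [Nat.gcd_self] at this
      subst hx1
      have : z ^ 2 = -320 := by rw [← h]; norm_num
      have := sq_nonneg z
      omega
    · obtain ⟨r, s, z', hr, hs, hrs, hry, hsy, hq⟩ := descent_step hy hgt hcop h
      exact ih r s z' (by omega) hr hs hrs hq

/-- The quartic `x⁴ - 322x²y² + y⁴ = z²` has only trivial integer solutions. -/
theorem quartic_int {x y z : ℤ} (h : x ^ 4 - 322 * x ^ 2 * y ^ 2 + y ^ 4 = z ^ 2) :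
    x = 0 ∨ y = 0 := by
  by_contra hne
  rw [not_or] at hne
  obtain ⟨hx, hy⟩ := hne
  have hg : 0 < Int.gcd x y := Int.gcd_pos_of_ne_zero_left _ hx
  obtain ⟨x', y', hcop, hx', hy'⟩ := Int.exists_gcd_one hg
  set g : ℤ := (Int.gcd x y : ℤ) with hgdef
  have hg0 : g ≠ 0 := (Int.natCast_pos.mpr hg).ne'
  have hx'0 : x' ≠ 0 := by rintro rfl; rw [zero_mul] at hx'; exact hx hx'
  have hy'0 : y' ≠ 0 := by rintro rfl; rw [zero_mul] at hy'; exact hy hy'
  have hK : (g ^ 2) ^ 2 * (x' ^ 4 - 322 * x' ^ 2 * y' ^ 2 + y' ^ 4) = z ^ 2 := by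
    rw [← h, hx', hy']; ring
  have hdvd : g ^ 2 ∣ z := by
    have : (g ^ 2) ^ 2 ∣ z ^ 2 := Dvd.intro _ hK
    exact (Int.pow_dvd_pow_iff (by norm_num)).mp this
  obtain ⟨z', hz'⟩ := hdvd
  have hq : x' ^ 4 - 322 * x' ^ 2 * y' ^ 2 + y' ^ 4 = z' ^ 2 := by
    have hd2 : (g ^ 2) ^ 2 ≠ 0 := pow_ne_zero _ (pow_ne_zero _ hg0)
    apply mul_left_cancel₀ hd2
    rw [hK, hz']; ring
  have e4 : ∀ a : ℤ, ((a.natAbs : ℕ) : ℤ) ^ 4 = a ^ 4 := fun a => by
    rw [Int.natCast_natAbs]; exact Even.pow_abs (by decide) a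
  have e2 : ∀ a : ℤ, ((a.natAbs : ℕ) : ℤ) ^ 2 = a ^ 2 := fun a => by
    rw [Int.natCast_natAbs]; exact sq_abs a
  refine no_nat_solution (x'.natAbs + y'.natAbs) x'.natAbs y'.natAbs z' le_rfl
    (Int.natAbs_pos.mpr hx'0) (Int.natAbs_pos.mpr hy'0) hcop ?_
  rw [e4, e4, e2, e2]
  exact hq

/-- Rational version. -/
theorem quartic_rat {w t : ℚ} (h : w ^ 4 - 322 * w ^ 2 + 1 = t ^ 2) : w = 0 := by
  have hden : (w.den : ℚ) ≠ 0 := by exact_mod_cast w.den_ne_zero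
  have hw : w = (w.num : ℚ) / (w.den : ℚ) := (Rat.num_div_den w).symm
  have hsq : IsSquare (((w.num ^ 4 - 322 * w.num ^ 2 * (w.den : ℤ) ^ 2 + (w.den : ℤ) ^ 4 : ℤ)) : ℚ) := by
    refine ⟨t * (w.den : ℚ) ^ 2, ?_⟩
    push_cast
    have : (w.num : ℚ) = w * (w.den : ℚ) := (Rat.mul_den_eq_num w).symm
    rw [this]
    linear_combination ((w.den : ℚ) ^ 4) * h
  rw [Rat.isSquare_intCast_iff] at hsq
  obtain ⟨z, hz⟩ := hsq
  have := quartic_int (x := w.num) (y := (w.den : ℤ)) (z := z) (by rw [hz]; ring)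
  rcases this with h0 | h0
  · exact Rat.zero_iff_num_zero.mpr h0
  · exact absurd (by exact_mod_cast h0) w.den_ne_zero


/-- All rational points of `Y² = X(X+9)(X-16)` (the curve 15a1). -/
theorem e15_points {x y : ℚ} (h : y ^ 2 = x * (x + 9) * (x - 16)) :
    x = 0 ∨ x = -9 ∨ x = 16 ∨ x = 36 ∨ x = -4 := by
  by_cases h16 : x = 16
  · exact Or.inr (Or.inr (Or.inl h16))
  by_cases h36 : x = 36
  · exact Or.inr (Or.inr (Or.inr (Or.inl h36)))
  have hD1 : x - 16 ≠ 0 := sub_ne_zero.mpr h16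
  have hD2 : x - 36 ≠ 0 := sub_ne_zero.mpr h36
  have hb : (x - 16) * (x - 36) ≠ 0 := mul_ne_zero hD1 hD2
  have key : (y * (x + 4)) ^ 4 - 322 * (y * (x + 4)) ^ 2 * ((x - 16) * (x - 36)) ^ 2
      + ((x - 16) * (x - 36)) ^ 4
      = ((x ^ 4 - 144 * x ^ 3 + 1296 * x ^ 2 + 20736 * x + 20736) * (x - 16)) ^ 2 := by
    linear_combination ((y ^ 2 + x * (x + 9) * (x - 16)) * (x + 4) ^ 4
      - 322 * (x + 4) ^ 2 * (x - 16) ^ 2 * (x - 36) ^ 2) * h
  have hw : y * (x + 4) / ((x - 16) * (x - 36)) = 0 := by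
    apply quartic_rat (t := (x ^ 4 - 144 * x ^ 3 + 1296 * x ^ 2 + 20736 * x + 20736) * (x - 16)
      / ((x - 16) * (x - 36)) ^ 2)
    rw [div_pow, div_pow, div_pow]
    field_simp
    linear_combination key
  rw [div_eq_zero_iff] at hw
  rcases hw with hw | hw
  · rcases mul_eq_zero.mp hw with hy | hx4
    · rw [hy] at h
      have h0 : x * (x + 9) * (x - 16) = 0 := by rw [← h]; ring
      rcases mul_eq_zero.mp h0 with h1 | h1
      · rcases mul_eq_zero.mp h1 with h2 | h2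
        · exact Or.inl h2
        · exact Or.inr (Or.inl (by linarith))
      · exact absurd h1 hD1
    · exact Or.inr (Or.inr (Or.inr (Or.inr (by linarith))))
  · exact absurd hw hb

/-- Rational points on the Fricke quartic model of `X₀(15)`. -/
theorem fricke_rational_points' (v y : ℚ) (h : y ^ 2 = (v ^ 2 + v - 1) * (v ^ 2 - 11 * v - 1)) :
    v = 0 ∨ v = -2 ∨ v = 1 / 2 := by
  have hE : ((2 * v - 5) * (2 * y + 2 * v ^ 2 - 10 * v - 38) - 180) ^ 2
      = (2 * y + 2 * v ^ 2 - 10 * v - 2) * ((2 * y + 2 * v ^ 2 - 10 * v - 2) + 9)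
        * ((2 * y + 2 * v ^ 2 - 10 * v - 2) - 16) := by
    linear_combination (-8 * v ^ 2 + 40 * v - 8 * y + 152) * h
  rcases e15_points hE with hX | hX | hX | hX | hX
  · -- X = 0
    have h0 : 36 * v ^ 2 = 0 := by
      linear_combination h - (y + (-v ^ 2 + 5 * v + 1)) / 2 * hX
    left
    have : v ^ 2 = 0 := by linarith
    exact pow_eq_zero_iff (two_ne_zero) |>.mp this
  · -- X = -9
    have h0 : 45 * (v - 1 / 2) ^ 2 = 0 := by
      linear_combination h - (y + (-v ^ 2 + 5 * v - 7 / 2)) / 2 * hX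
    right; right
    have : (v - 1 / 2) ^ 2 = 0 := by linarith
    have := pow_eq_zero_iff (two_ne_zero) |>.mp this
    linarith
  · -- X = 16
    have h0 : 20 * (v + 2) ^ 2 = 0 := by
      linear_combination h - (y + (-v ^ 2 + 5 * v + 9)) / 2 * hX
    right; left
    have : (v + 2) ^ 2 = 0 := by linarith
    have := pow_eq_zero_iff (two_ne_zero) |>.mp this
    linarith
  · -- X = 36
    have h0 : 180 * (v + 2) = 0 := by
      linear_combination h - (y + (-v ^ 2 + 5 * v + 19)) / 2 * hX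
    right; left
    linarith
  · -- X = -4
    have h0 : 20 * v * (2 * v - 1) = 0 := by
      linear_combination h - (y + (-v ^ 2 + 5 * v - 1)) / 2 * hX
    rcases mul_eq_zero.mp h0 with h1 | h1
    · left
      rcases mul_eq_zero.mp h1 with h2 | h2
      · norm_num at h2
      · exact h2
    · right; right
      linarith

end Fermat.Agent.S51.E15
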