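/-
S51 package D (backup route, helper98): rational points on the quartic model of X_0(15)
  y^2 = (v^2+v-1)(v^2-11v-1)
via the Weierstrass model E : Y^2 = x(x+16)(x+25) (15a1) and the 2-isogenous curve
E' : w^2 = x(x-1)(x-81) (15a2), on which a Kummer-style 2-descent on x-coordinates is run.
-/
import Mathlib

namespace Fermat.Agent.S51.E2

/-- `x` is the abscissa of a rational point of `E' : w^2 = x(x-1)(x-81)` with `w ≠ 0`. -/
def InS (x : ℚ) : Prop := ∃ w : ℚ, w ≠ 0 ∧ w ^ 2 = x * (x - 1) * (x - 81)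

/-- naive height of a rational number -/
def H (x : ℚ) : ℕ := max x.num.natAbs x.den

/-! ## Part 1: halving in the trivial class -/

theorem halving_inS {M e a b : ℤ} (he : e ≠ 0) (h1 : M ^ 2 - e ^ 2 = a ^ 2)
    (h2 : M ^ 2 - 81 * e ^ 2 = b ^ 2) :
    InS (((M + b : ℤ) : ℚ) / ((M - a : ℤ) : ℚ)) := by
  have hMa : (M - a) * (M + a) = e ^ 2 := by linear_combination h1
  have hMb : (M - b) * (M + b) = 81 * e ^ 2 := by linear_combination h2
  have hab : (a - b) * (a + b) = 80 * e ^ 2 := by linear_combination h2 - h1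
  have he2 : e ^ 2 ≠ 0 := pow_ne_zero 2 he
  have n1 : M - a ≠ 0 := by
    intro h; rw [h, zero_mul] at hMa; exact he2 hMa.symm
  have n2 : M + a ≠ 0 := by
    intro h; rw [h, mul_zero] at hMa; exact he2 hMa.symm
  have n3 : M + b ≠ 0 := by
    intro h; rw [h, mul_zero] at hMb
    have : e ^ 2 = 0 := by omega
    exact he2 this
  have n4 : a + b ≠ 0 := by
    intro h; rw [h, mul_zero] at hab
    have : e ^ 2 = 0 := by omega
    exact he2 this
  have q1 : ((M - a : ℤ) : ℚ) ≠ 0 := by exact_mod_cast n1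
  have q2 : ((M + a : ℤ) : ℚ) ≠ 0 := by exact_mod_cast n2
  have q3 : ((M + b : ℤ) : ℚ) ≠ 0 := by exact_mod_cast n3
  have q4 : ((a + b : ℤ) : ℚ) ≠ 0 := by exact_mod_cast n4
  have qe : (e : ℚ) ≠ 0 := by exact_mod_cast he
  have h1q : (M : ℚ) ^ 2 - (e : ℚ) ^ 2 = (a : ℚ) ^ 2 := by exact_mod_cast h1
  have h2q : (M : ℚ) ^ 2 - 81 * (e : ℚ) ^ 2 = (b : ℚ) ^ 2 := by exact_mod_cast h2
  refine ⟨((M + a : ℤ) : ℚ) * ((M + b : ℤ) : ℚ) * ((a + b : ℤ) : ℚ) / (e : ℚ) ^ 3, ?_, ?_⟩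
  · exact div_ne_zero (mul_ne_zero (mul_ne_zero q2 q3) q4) (pow_ne_zero 3 qe)
  · have hx : ((M + b : ℤ) : ℚ) / ((M - a : ℤ) : ℚ)
        = ((M + a : ℤ) : ℚ) * ((M + b : ℤ) : ℚ) / (e : ℚ) ^ 2 := by
      rw [div_eq_div_iff q1 (pow_ne_zero 2 qe)]
      push_cast
      linear_combination (-(M : ℚ) - (b : ℚ)) * h1q
    rw [hx]
    have e2 : (e : ℚ) ^ 2 ≠ 0 := pow_ne_zero 2 qe
    have hx1 : ((M + a : ℤ) : ℚ) * ((M + b : ℤ) : ℚ) / (e : ℚ) ^ 2 - 1
        = ((M + a : ℤ) : ℚ) * ((a + b : ℤ) : ℚ) / (e : ℚ) ^ 2 := by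
      rw [div_sub_one e2, div_left_inj' e2]
      push_cast
      linear_combination h1q
    have hx2 : ((M + a : ℤ) : ℚ) * ((M + b : ℤ) : ℚ) / (e : ℚ) ^ 2 - 81
        = ((M + b : ℤ) : ℚ) * ((a + b : ℤ) : ℚ) / (e : ℚ) ^ 2 := by
      rw [div_sub' e2, div_left_inj' e2]
      push_cast
      linear_combination h2q
    rw [hx1, hx2]
    field_simp


theorem H_div_le (p q : ℤ) (hq : q ≠ 0) :
    H ((p : ℚ) / (q : ℚ)) ≤ max p.natAbs q.natAbs := by
  unfold H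
  rw [← Rat.divInt_eq_div]
  have h1 : (Rat.divInt p q).num ∣ p := Rat.num_dvd p hq
  have h2 : ((Rat.divInt p q).den : ℤ) ∣ q := Rat.den_dvd p q
  have h2' : (Rat.divInt p q).den ≤ q.natAbs := by
    have := Int.natAbs_dvd_natAbs.mpr h2
    rw [Int.natAbs_natCast] at this
    exact Nat.le_of_dvd (Int.natAbs_pos.mpr hq) this
  rcases eq_or_ne p 0 with rfl | hp
  · simp only [Rat.zero_divInt, Rat.num_zero, Int.natAbs_zero, Rat.den_zero]
    have : 1 ≤ q.natAbs := Int.natAbs_pos.mpr hq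
    omega
  · have h1' : (Rat.divInt p q).num.natAbs ≤ p.natAbs :=
      Nat.le_of_dvd (Int.natAbs_pos.mpr hp) (Int.natAbs_dvd_natAbs.mpr h1)
    exact max_le_max h1' h2'

/-- halving with the height bound: `H x₂ < 2 |M|`. -/
theorem halving {M e a b : ℤ} (he : e ≠ 0) (h1 : M ^ 2 - e ^ 2 = a ^ 2)
    (h2 : M ^ 2 - 81 * e ^ 2 = b ^ 2) :
    ∃ x2 : ℚ, InS x2 ∧ ((H x2 : ℤ)) ^ 2 < 4 * M ^ 2 := by
  refine ⟨_, halving_inS he h1 h2, ?_⟩
  have hMa : (M - a) * (M + a) = e ^ 2 := by linear_combination h1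
  have he2 : 0 < e ^ 2 := by positivity
  have n1 : M - a ≠ 0 := by
    intro h; rw [h, zero_mul] at hMa; omega
  have hH := H_div_le (M + b) (M - a) n1
  have ha : a ^ 2 < M ^ 2 := by nlinarith
  have hb : b ^ 2 < M ^ 2 := by nlinarith
  have ha' : |a| < |M| := sq_lt_sq.mp ha
  have hb' : |b| < |M| := sq_lt_sq.mp hb
  have k1 : ((M + b).natAbs : ℤ) < 2 * |M| := by
    rw [Int.natCast_natAbs]
    calc |M + b| ≤ |M| + |b| := abs_add_le M b
      _ < 2 * |M| := by linarith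
  have k2 : ((M - a).natAbs : ℤ) < 2 * |M| := by
    rw [Int.natCast_natAbs]
    calc |M - a| ≤ |M| + |a| := abs_sub M a
      _ < 2 * |M| := by linarith
  have k3 : ((max (M + b).natAbs (M - a).natAbs : ℕ) : ℤ) < 2 * |M| := by
    rcases max_choice (M + b).natAbs (M - a).natAbs with h | h <;> rw [h] <;> assumption
  have k4 : (H (((M + b : ℤ) : ℚ) / ((M - a : ℤ) : ℚ)) : ℤ) < 2 * |M| :=
    lt_of_le_of_lt (by exact_mod_cast hH) k3
  have k5 : (0 : ℤ) ≤ (H (((M + b : ℤ) : ℚ) / ((M - a : ℤ) : ℚ)) : ℤ) := by positivity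
  have : (H (((M + b : ℤ) : ℚ) / ((M - a : ℤ) : ℚ)) : ℤ) ^ 2 < (2 * |M|) ^ 2 := by nlinarith
  calc (H (((M + b : ℤ) : ℚ) / ((M - a : ℤ) : ℚ)) : ℤ) ^ 2 < (2 * |M|) ^ 2 := this
    _ = 4 * M ^ 2 := by rw [mul_pow, sq_abs]; norm_num

/-! ## Part 2: translation by the 2-torsion points -/

theorem translate {M e a b d : ℤ} (hM : M ≠ 0) (he : e ≠ 0) (ha : a ≠ 0) (hb : b ≠ 0)
    (hd : d = 1 ∨ d = -1 ∨ d = 5 ∨ d = -5)
    (h1 : M ^ 2 - e ^ 2 = d * a ^ 2) (h2 : M ^ 2 - 81 * e ^ 2 = d * b ^ 2) :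
    ∃ M' e' a' b' : ℤ, e' ≠ 0 ∧ M' ^ 2 - e' ^ 2 = a' ^ 2 ∧ M' ^ 2 - 81 * e' ^ 2 = b' ^ 2 ∧
      M' ^ 2 ≤ 81 * max (M ^ 2) (e ^ 2) := by
  have hM2 : 0 < M ^ 2 := by positivity
  have he2 : 0 < e ^ 2 := by positivity
  have ha2 : 0 < a ^ 2 := by positivity
  have hb2 : 0 < b ^ 2 := by positivity
  have mM : M ^ 2 ≤ max (M ^ 2) (e ^ 2) := le_max_left _ _
  have me : e ^ 2 ≤ max (M ^ 2) (e ^ 2) := le_max_right _ _
  rcases hd with rfl | rfl | rfl | rfl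
  · exact ⟨M, e, a, b, he, by linarith, by linarith, by linarith⟩
  · refine ⟨9 * e, M, b, 9 * a, hM, by linear_combination (-1) * h2,
      by linear_combination (-81) * h1, ?_⟩
    nlinarith
  · refine ⟨9 * a, b, 4 * M, 36 * e, hb, ?_, ?_, ?_⟩
    · nlinarith
    · nlinarith
    · nlinarith
  · refine ⟨b, a, 4 * e, 4 * M, ha, ?_, ?_, ?_⟩
    · nlinarith
    · nlinarith
    · nlinarith

/-! ## Part 3: arithmetic structure of a point of `S` (first descent) -/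

theorem sq_mod_four (a : ℤ) : a ^ 2 % 4 = 0 ∨ a ^ 2 % 4 = 1 := by
  have h : a % 4 = 0 ∨ a % 4 = 1 ∨ a % 4 = 2 ∨ a % 4 = 3 := by omega
  rcases h with h | h | h | h <;> simp [pow_two, Int.mul_emod, h]

theorem sq_mod_eight_of_odd (a : ℤ) (ha : a % 2 = 1) : a ^ 2 % 8 = 1 := by
  have h : a % 8 = 1 ∨ a % 8 = 3 ∨ a % 8 = 5 ∨ a % 8 = 7 := by omega
  rcases h with h | h | h | h <;> simp [pow_two, Int.mul_emod, h]

theorem sq_mod_two_of_even (a : ℤ) (ha : a % 2 = 0) : a ^ 2 % 4 = 0 := by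
  have h : a % 4 = 0 ∨ a % 4 = 2 := by omega
  rcases h with h | h <;> simp [pow_two, Int.mul_emod, h]

theorem dvd_eighty (g : ℕ) (hg : g ∣ 80) :
    g = 1 ∨ g = 2 ∨ g = 4 ∨ g = 5 ∨ g = 8 ∨ g = 10 ∨ g = 16 ∨ g = 20 ∨ g = 40 ∨ g = 80 := by
  have h80 : g ≤ 80 := Nat.le_of_dvd (by norm_num) hg
  interval_cases g <;> omega

/-- second descent step: the class of `x - 1` modulo squares is `±1, ±5`. -/
theorem class_lemma {M e N : ℤ} (hcop : IsCoprime M e) (hN : N ≠ 0)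
    (h : N ^ 2 = (M ^ 2 - e ^ 2) * (M ^ 2 - 81 * e ^ 2)) :
    ∃ d a b : ℤ, (d = 1 ∨ d = -1 ∨ d = 5 ∨ d = -5) ∧ a ≠ 0 ∧ b ≠ 0 ∧
      M ^ 2 - e ^ 2 = d * a ^ 2 ∧ M ^ 2 - 81 * e ^ 2 = d * b ^ 2 := by
  have hN2 : 0 < N ^ 2 := by positivity
  have hA0 : M ^ 2 - e ^ 2 ≠ 0 := by
    intro h0; rw [h0, zero_mul] at h; omega
  have hgpos : 0 < Int.gcd (M ^ 2 - e ^ 2) (M ^ 2 - 81 * e ^ 2) :=
    Int.gcd_pos_of_ne_zero_left _ hA0
  obtain ⟨A', B', hco, hA, hB⟩ := Int.exists_gcd_one hgpos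
  -- the gcd divides 80
  have hg80 : Int.gcd (M ^ 2 - e ^ 2) (M ^ 2 - 81 * e ^ 2) ∣ 80 := by
    have d1 : ((Int.gcd (M ^ 2 - e ^ 2) (M ^ 2 - 81 * e ^ 2) : ℕ) : ℤ) ∣ M ^ 2 - e ^ 2 :=
      Int.gcd_dvd_left ..
    have d2 : ((Int.gcd (M ^ 2 - e ^ 2) (M ^ 2 - 81 * e ^ 2) : ℕ) : ℤ) ∣ M ^ 2 - 81 * e ^ 2 :=
      Int.gcd_dvd_right ..
    have d3 : ((Int.gcd (M ^ 2 - e ^ 2) (M ^ 2 - 81 * e ^ 2) : ℕ) : ℤ) ∣ 80 * M ^ 2 := by
      have := dvd_sub (Dvd.dvd.mul_left d1 81) d2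
      have e1 : 81 * (M ^ 2 - e ^ 2) - (M ^ 2 - 81 * e ^ 2) = 80 * M ^ 2 := by ring
      rwa [e1] at this
    have d4 : ((Int.gcd (M ^ 2 - e ^ 2) (M ^ 2 - 81 * e ^ 2) : ℕ) : ℤ) ∣ 80 * e ^ 2 := by
      have := dvd_sub d1 d2
      have e1 : (M ^ 2 - e ^ 2) - (M ^ 2 - 81 * e ^ 2) = 80 * e ^ 2 := by ring
      rwa [e1] at this
    obtain ⟨u, v, huv⟩ := (hcop.pow (m := 2) (n := 2))
    have d5 : ((Int.gcd (M ^ 2 - e ^ 2) (M ^ 2 - 81 * e ^ 2) : ℕ) : ℤ) ∣ ((80 : ℕ) : ℤ) := by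
      have := dvd_add (Dvd.dvd.mul_left d3 u) (Dvd.dvd.mul_left d4 v)
      have e1 : u * (80 * M ^ 2) + v * (80 * e ^ 2) = ((80 : ℕ) : ℤ) := by
        push_cast; linear_combination 80 * huv
      rwa [e1] at this
    exact Int.natCast_dvd_natCast.mp d5
  -- parity
  have hpar : (M % 2 = 1 ∧ e % 2 = 1) ∨ (M ^ 2 - e ^ 2) % 2 = 1 := by
    rcases Int.emod_two_eq_zero_or_one M with hM | hM <;>
      rcases Int.emod_two_eq_zero_or_one e with he | he
    · exfalso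
      obtain ⟨u, v, huv⟩ := hcop
      have : (2 : ℤ) ∣ 1 := by
        rw [← huv]
        exact dvd_add (Dvd.dvd.mul_left (Int.dvd_of_emod_eq_zero hM) u)
          (Dvd.dvd.mul_left (Int.dvd_of_emod_eq_zero he) v)
      omega
    · right
      have := sq_mod_two_of_even M hM
      have := sq_mod_eight_of_odd e he
      omega
    · right
      have := sq_mod_two_of_even e he
      have := sq_mod_eight_of_odd M hM
      omega
    · left; exact ⟨hM, he⟩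
  generalize hgdef : Int.gcd (M ^ 2 - e ^ 2) (M ^ 2 - 81 * e ^ 2) = g at *
  have hgz : (g : ℤ) ≠ 0 := by exact_mod_cast hgpos.ne'
  -- `g ∣ N`
  have hgN : (g : ℤ) ∣ N := by
    rw [← Int.pow_dvd_pow_iff two_ne_zero, h]
    refine ⟨A' * B', ?_⟩
    rw [hA, hB]; ring
  obtain ⟨N3, rfl⟩ := hgN
  have hN3 : A' * B' = N3 ^ 2 := by
    have h' : (g : ℤ) ^ 2 * (A' * B') = (g : ℤ) ^ 2 * N3 ^ 2 := by
      have : ((g : ℤ) * N3) ^ 2 = (A' * g) * (B' * g) := by rw [h]; rw [← hA, ← hB]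
      linear_combination -this
    exact mul_left_cancel₀ (pow_ne_zero 2 hgz) h'
  have hN3z : N3 ≠ 0 := by
    rintro rfl; simp at hN
  have hN3pos : 0 < N3 ^ 2 := by positivity
  obtain ⟨a0, ha0⟩ := Int.sq_of_gcd_eq_one hco hN3
  obtain ⟨b0, hb0⟩ := Int.sq_of_gcd_eq_one (Int.gcd_comm A' B' ▸ hco) (mul_comm A' B' ▸ hN3)
  -- common sign
  have hsign : ∃ s : ℤ, (s = 1 ∨ s = -1) ∧ A' = s * a0 ^ 2 ∧ B' = s * b0 ^ 2 := by
    have p1 : 0 ≤ a0 ^ 2 * b0 ^ 2 := by positivity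
    rcases ha0 with ha0 | ha0 <;> rcases hb0 with hb0 | hb0
    · exact ⟨1, Or.inl rfl, by rw [ha0]; ring, by rw [hb0]; ring⟩
    · exfalso; rw [ha0, hb0] at hN3; nlinarith
    · exfalso; rw [ha0, hb0] at hN3; nlinarith
    · exact ⟨-1, Or.inr rfl, by rw [ha0]; ring, by rw [hb0]; ring⟩
  obtain ⟨s, hs, hA's, hB's⟩ := hsign
  have ha0z : a0 ≠ 0 := by
    rintro rfl
    rw [hA's] at hN3; simp at hN3; exact hN3z (pow_eq_zero_iff two_ne_zero |>.mp hN3.symm)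
  have hb0z : b0 ≠ 0 := by
    rintro rfl
    rw [hB's] at hN3; simp at hN3; exact hN3z (pow_eq_zero_iff two_ne_zero |>.mp hN3.symm)
  have hAf : M ^ 2 - e ^ 2 = s * g * a0 ^ 2 := by rw [hA, hA's]; ring
  have hBf : M ^ 2 - 81 * e ^ 2 = s * g * b0 ^ 2 := by rw [hB, hB's]; ring
  have hds : ∀ s : ℤ, (s = 1 ∨ s = -1) → (s = 1 ∨ s = -1 ∨ s = 5 ∨ s = -5) := by
    intro s hs; rcases hs with rfl | rfl <;> simp
  have hds5 : ∀ s : ℤ, (s = 1 ∨ s = -1) → (5 * s = 1 ∨ 5 * s = -1 ∨ 5 * s = 5 ∨ 5 * s = -5) := by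
    intro s hs; rcases hs with rfl | rfl <;> simp
  have m4a := sq_mod_four a0
  have m4b := sq_mod_four b0
  rcases hpar with ⟨hMo, heo⟩ | hAodd
  · -- both odd: `8 ∣ g`
    have hM8 := sq_mod_eight_of_odd M hMo
    have he8 := sq_mod_eight_of_odd e heo
    have h8g : 8 ∣ g := by
      have d1 : (8 : ℤ) ∣ M ^ 2 - e ^ 2 := by omega
      have d2 : (8 : ℤ) ∣ M ^ 2 - 81 * e ^ 2 := by omega
      have := Int.dvd_coe_gcd d1 d2
      rw [hgdef] at this
      exact_mod_cast this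
    rcases dvd_eighty g hg80 with rfl | rfl | rfl | rfl | rfl | rfl | rfl | rfl | rfl | rfl <;>
      try omega
    · -- g = 8
      exfalso
      push_cast at hAf hBf
      rcases hs with rfl | rfl <;> omega
    · -- g = 16
      exact ⟨s, 4 * a0, 4 * b0, hds s hs, by simpa using ha0z, by simpa using hb0z,
        by rw [hAf]; push_cast; ring, by rw [hBf]; push_cast; ring⟩
    · -- g = 40
      exfalso
      push_cast at hAf hBf
      rcases hs with rfl | rfl <;> omega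
    · -- g = 80
      exact ⟨5 * s, 4 * a0, 4 * b0, hds5 s hs, by simpa using ha0z, by simpa using hb0z,
        by rw [hAf]; push_cast; ring, by rw [hBf]; push_cast; ring⟩
  · -- `A` odd: `g` odd
    have hgodd : ¬ 2 ∣ g := by
      intro h2
      have : (2 : ℤ) ∣ M ^ 2 - e ^ 2 := by
        rw [hA]
        exact Dvd.dvd.mul_left (by exact_mod_cast h2) A'
      omega
    rcases dvd_eighty g hg80 with rfl | rfl | rfl | rfl | rfl | rfl | rfl | rfl | rfl | rfl <;>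
      try omega
    · -- g = 1
      exact ⟨s, a0, b0, hds s hs, ha0z, hb0z,
        by rw [hAf]; push_cast; ring, by rw [hBf]; push_cast; ring⟩
    · -- g = 5
      exact ⟨5 * s, a0, b0, hds5 s hs, ha0z, hb0z,
        by rw [hAf]; push_cast; ring, by rw [hBf]; push_cast; ring⟩

theorem zmod3_a : ∀ r s e : ZMod 3,
    r ^ 2 = (3 * s ^ 2 - e ^ 2) * (s ^ 2 - 27 * e ^ 2) → e ≠ 0 → s = 0 := by decide

theorem zmod3_b : ∀ r s e : ZMod 3,
    r ^ 2 = (27 * s ^ 2 - e ^ 2) * (s ^ 2 - 3 * e ^ 2) → e ≠ 0 → s = 0 := by decide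

theorem zmod3_c : ∀ r s e : ZMod 3,
    3 * r ^ 2 = (243 * s ^ 2 - e ^ 2) * (3 * s ^ 2 - e ^ 2) → e = 0 := by decide

/-- the class of `3` is excluded 3-adically -/
theorem three_contra {s e r : ℤ} (hs : s ≠ 0) (he : ¬ (3 : ℤ) ∣ e)
    (h : r ^ 2 = 9 * s ^ 2 * (3 * s ^ 2 - e ^ 2) * (s ^ 2 - 27 * e ^ 2)) : False := by
  have he3 : (e : ZMod 3) ≠ 0 := by
    intro h0
    exact he (by exact_mod_cast (ZMod.intCast_zmod_eq_zero_iff_dvd e 3).mp h0)
  -- step 1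
  have d1 : 3 * s ∣ r := by
    rw [← Int.pow_dvd_pow_iff two_ne_zero, h]
    exact ⟨(3 * s ^ 2 - e ^ 2) * (s ^ 2 - 27 * e ^ 2), by ring⟩
  obtain ⟨r1, rfl⟩ := d1
  have h1 : r1 ^ 2 = (3 * s ^ 2 - e ^ 2) * (s ^ 2 - 27 * e ^ 2) := by
    have h3s : (3 * s) ^ 2 ≠ 0 := pow_ne_zero 2 (mul_ne_zero (by norm_num) hs)
    apply mul_left_cancel₀ h3s
    linear_combination h
  have s3 : (s : ZMod 3) = 0 := by
    refine zmod3_a (r1 : ZMod 3) (s : ZMod 3) (e : ZMod 3) ?_ he3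
    have := congrArg (Int.cast : ℤ → ZMod 3) h1
    push_cast at this
    exact this
  obtain ⟨s1, rfl⟩ := (ZMod.intCast_zmod_eq_zero_iff_dvd s 3).mp s3
  -- step 2
  have d2 : (3 : ℤ) ∣ r1 := by
    rw [← Int.pow_dvd_pow_iff two_ne_zero, h1]
    exact ⟨(27 * s1 ^ 2 - e ^ 2) * (s1 ^ 2 - 3 * e ^ 2), by push_cast; ring⟩
  obtain ⟨r2, rfl⟩ := d2
  have h2 : r2 ^ 2 = (27 * s1 ^ 2 - e ^ 2) * (s1 ^ 2 - 3 * e ^ 2) := by
    push_cast at h1
    apply mul_left_cancel₀ (show (9 : ℤ) ≠ 0 by norm_num)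
    linear_combination h1
  have s3' : (s1 : ZMod 3) = 0 := by
    refine zmod3_b (r2 : ZMod 3) (s1 : ZMod 3) (e : ZMod 3) ?_ he3
    have := congrArg (Int.cast : ℤ → ZMod 3) h2
    push_cast at this
    exact this
  obtain ⟨s2, rfl⟩ := (ZMod.intCast_zmod_eq_zero_iff_dvd s1 3).mp s3'
  -- step 3
  have d3 : (3 : ℤ) ∣ r2 := by
    apply Int.prime_three.dvd_of_dvd_pow (n := 2)
    rw [h2]
    exact ⟨(243 * s2 ^ 2 - e ^ 2) * (3 * s2 ^ 2 - e ^ 2), by push_cast; ring⟩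
  obtain ⟨r3, rfl⟩ := d3
  have h3 : 3 * r3 ^ 2 = (243 * s2 ^ 2 - e ^ 2) * (3 * s2 ^ 2 - e ^ 2) := by
    push_cast at h2
    apply mul_left_cancel₀ (show (3 : ℤ) ≠ 0 by norm_num)
    linear_combination h2
  apply he3
  refine zmod3_c (r3 : ZMod 3) (s2 : ZMod 3) (e : ZMod 3) ?_
  have := congrArg (Int.cast : ℤ → ZMod 3) h3
  push_cast at this
  exact this

/-- first descent step: the numerator is a perfect square -/
theorem num_is_square {m e r : ℤ} (hcop : IsCoprime m (e ^ 2)) (he : e ≠ 0) (hr : r ≠ 0)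
    (h : r ^ 2 = m * (m - e ^ 2) * (m - 81 * e ^ 2)) : ∃ M : ℤ, 0 < M ∧ m = M ^ 2 := by
  have hr2 : 0 < r ^ 2 := by positivity
  have he2 : 0 < e ^ 2 := by positivity
  have hm : 0 < m := by
    by_contra hneg
    push Not at hneg
    have h1 : m - e ^ 2 < 0 := by linarith
    have h2 : m - 81 * e ^ 2 < 0 := by linarith
    have : m * (m - e ^ 2) * (m - 81 * e ^ 2) ≤ 0 :=
      mul_nonpos_of_nonneg_of_nonpos (mul_nonneg_of_nonpos_of_nonpos hneg h1.le) h2.le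
    linarith
  obtain ⟨c, hc, h3c⟩ := (Int.finiteMultiplicity_iff.mpr ⟨by norm_num, hm.ne'⟩ :
    FiniteMultiplicity (3 : ℤ) m).exists_eq_pow_mul_and_not_dvd
  generalize multiplicity (3 : ℤ) m = k at hc
  subst hc
  have h3k : (0 : ℤ) < 3 ^ k := by positivity
  have hcpos : 0 < c := (mul_pos_iff_of_pos_left h3k).mp hm
  have hc3 : IsCoprime c 3 := (Int.prime_three.coprime_iff_not_dvd.mpr h3c).symm
  have hce : IsCoprime c (e ^ 2) := hcop.of_isCoprime_of_dvd_left ⟨3 ^ k, by ring⟩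
  have hc1 : IsCoprime c (3 ^ k * c - e ^ 2) := by
    have := hce.neg_right.add_mul_left_right (3 ^ k)
    have e1 : -e ^ 2 + c * 3 ^ k = 3 ^ k * c - e ^ 2 := by ring
    rwa [e1] at this
  have hc2 : IsCoprime c (3 ^ k * c - 81 * e ^ 2) := by
    have := (((hc3.pow_right (n := 4)).mul_right hce).neg_right).add_mul_left_right (3 ^ k)
    have e1 : -(3 ^ 4 * e ^ 2) + c * 3 ^ k = 3 ^ k * c - 81 * e ^ 2 := by ring
    rwa [e1] at this
  have hcall : IsCoprime c (3 ^ k * ((3 ^ k * c - e ^ 2) * (3 ^ k * c - 81 * e ^ 2))) :=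
    (hc3.pow_right).mul_right (hc1.mul_right hc2)
  have hprod : c * (3 ^ k * ((3 ^ k * c - e ^ 2) * (3 ^ k * c - 81 * e ^ 2))) = r ^ 2 := by
    rw [h]; ring
  obtain ⟨u, hu | hu⟩ := Int.sq_of_isCoprime hcall hprod
  · subst hu
    have hu0 : u ≠ 0 := by
      rintro rfl; simp at hcpos
    rcases Nat.even_or_odd' k with ⟨j, rfl | rfl⟩
    · refine ⟨3 ^ j * |u|, by positivity, ?_⟩
      rw [mul_pow, sq_abs, ← pow_mul, mul_comm j 2]
    · exfalso
      have h3e : ¬ (3 : ℤ) ∣ e := by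
        intro h3
        have u1 : IsUnit (3 : ℤ) :=
          hcop.isUnit_of_dvd' ⟨3 ^ (2 * j) * u ^ 2, by ring⟩ (Dvd.dvd.pow h3 two_ne_zero)
        exact Int.prime_three.not_isUnit u1
      refine three_contra (s := 3 ^ j * u) (mul_ne_zero (by positivity) hu0) h3e (r := r) ?_
      rw [h]; ring
  · exfalso
    have : 0 ≤ u ^ 2 := sq_nonneg u
    linarith

theorem structure_aux {m n : ℤ} (hn : 0 < n) (hcop : IsCoprime m n) {w : ℚ} (hw : w ≠ 0)
    (h : w ^ 2 = ((m : ℚ) / n) * ((m : ℚ) / n - 1) * ((m : ℚ) / n - 81)) :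
    ∃ M e d a b : ℤ, 0 < M ∧ 0 < e ∧ m = M ^ 2 ∧ n = e ^ 2 ∧
      (d = 1 ∨ d = -1 ∨ d = 5 ∨ d = -5) ∧ a ≠ 0 ∧ b ≠ 0 ∧
      M ^ 2 - e ^ 2 = d * a ^ 2 ∧ M ^ 2 - 81 * e ^ 2 = d * b ^ 2 := by
  have hnq : (n : ℚ) ≠ 0 := by exact_mod_cast hn.ne'
  -- integrality
  have hK : ((m * (m - n) * (m - 81 * n) * n : ℤ) : ℚ) = (w * n ^ 2) * (w * n ^ 2) := by
    have e1 : (w * (n : ℚ) ^ 2) * (w * (n : ℚ) ^ 2) = w ^ 2 * (n : ℚ) ^ 4 := by ring
    rw [e1, h]
    push_cast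
    field_simp
  obtain ⟨N, hN⟩ := Rat.isSquare_intCast_iff.mp ⟨w * n ^ 2, hK⟩
  have hNz : N ≠ 0 := by
    rintro rfl
    rw [hN] at hK
    have : (w * (n : ℚ) ^ 2) * (w * (n : ℚ) ^ 2) ≠ 0 :=
      mul_self_ne_zero.mpr (mul_ne_zero hw (pow_ne_zero 2 hnq))
    apply this
    rw [← hK]; simp
  have hN2 : 0 < N ^ 2 := by positivity
  -- coprimality of `n` with the cubic part
  have hcop1 : IsCoprime (m - n) n := by
    have := hcop.add_mul_left_left (-1)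
    have e1 : m + n * -1 = m - n := by ring
    rwa [e1] at this
  have hcop2 : IsCoprime (m - 81 * n) n := by
    have := hcop.add_mul_left_left (-81)
    have e1 : m + n * -81 = m - 81 * n := by ring
    rwa [e1] at this
  have hcopP : IsCoprime (m * (m - n) * (m - 81 * n)) n := (hcop.mul_left hcop1).mul_left hcop2
  have hprod : n * (m * (m - n) * (m - 81 * n)) = N ^ 2 := by rw [sq, ← hN]; ring
  have hprod' : (m * (m - n) * (m - 81 * n)) * n = N ^ 2 := by rw [sq, ← hN]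
  obtain ⟨e0, he0⟩ := Int.sq_of_isCoprime hcopP.symm hprod
  obtain ⟨r0, hr0⟩ := Int.sq_of_isCoprime hcopP hprod'
  have hne : n = e0 ^ 2 := by
    rcases he0 with he0 | he0
    · exact he0
    · exfalso
      have : 0 ≤ e0 ^ 2 := sq_nonneg e0
      linarith
  have he0z : e0 ≠ 0 := by
    rintro rfl
    simp at hne; omega
  have hPpos : 0 < m * (m - n) * (m - 81 * n) := by
    by_contra hneg
    push Not at hneg
    have : (m * (m - n) * (m - 81 * n)) * n ≤ 0 := mul_nonpos_of_nonpos_of_nonneg hneg hn.le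
    linarith
  have hPr : m * (m - n) * (m - 81 * n) = r0 ^ 2 := by
    rcases hr0 with hr0 | hr0
    · exact hr0
    · exfalso
      have : 0 ≤ r0 ^ 2 := sq_nonneg r0
      linarith
  have hr0z : r0 ≠ 0 := by
    rintro rfl
    rw [hPr] at hPpos; simp at hPpos
  -- the numerator is a square
  subst hne
  obtain ⟨M, hMpos, rfl⟩ := num_is_square hcop he0z hr0z hPr.symm
  -- pass to `|e0|`
  have hMe : IsCoprime M e0 := (IsCoprime.pow_iff (by norm_num) (by norm_num)).mp hcop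
  have hM_dvd : M ∣ r0 := by
    rw [← Int.pow_dvd_pow_iff two_ne_zero, ← hPr]
    exact ⟨(M ^ 2 - e0 ^ 2) * (M ^ 2 - 81 * e0 ^ 2), by ring⟩
  obtain ⟨N2, rfl⟩ := hM_dvd
  have hMz : M ≠ 0 := hMpos.ne'
  have hN2z : N2 ≠ 0 := by
    rintro rfl; simp at hr0z
  have hN2eq : N2 ^ 2 = (M ^ 2 - e0 ^ 2) * (M ^ 2 - 81 * e0 ^ 2) := by
    apply mul_left_cancel₀ (pow_ne_zero 2 hMz)
    linear_combination -hPr
  obtain ⟨d, a, b, hd, ha, hb, h1, h2⟩ := class_lemma hMe hN2z hN2eq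
  refine ⟨M, |e0|, d, a, b, hMpos, abs_pos.mpr he0z, rfl, (sq_abs e0).symm, hd, ha, hb, ?_, ?_⟩
  · rw [sq_abs]; exact h1
  · rw [sq_abs]; exact h2

theorem structure_of_inS {x : ℚ} (hx : InS x) :
    ∃ M e d a b : ℤ, 0 < M ∧ 0 < e ∧ x.num = M ^ 2 ∧ (x.den : ℤ) = e ^ 2 ∧
      (d = 1 ∨ d = -1 ∨ d = 5 ∨ d = -5) ∧ a ≠ 0 ∧ b ≠ 0 ∧
      M ^ 2 - e ^ 2 = d * a ^ 2 ∧ M ^ 2 - 81 * e ^ 2 = d * b ^ 2 := by
  obtain ⟨w, hw, hEq⟩ := hx
  have hn : 0 < (x.den : ℤ) := by exact_mod_cast x.den_pos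
  refine structure_aux (m := x.num) (n := (x.den : ℤ)) hn (Rat.isCoprime_num_den x) hw ?_
  rw [Int.cast_natCast, Rat.num_div_den]
  exact hEq

/-! ## Part 4: the descent -/

set_option synthInstance.maxSize 2000 in
set_option synthInstance.maxHeartbeats 200000 in
set_option maxRecDepth 100000 in
theorem fc1 : ∀ M < 18, ∀ e < 18, ∀ a < 18, 0 < M → 0 < e → 0 < a →
    M ^ 2 = e ^ 2 + a ^ 2 → ∀ b < 162, 0 < b → M ^ 2 ≠ 81 * e ^ 2 + b ^ 2 := by decide

set_option synthInstance.maxSize 2000 in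
set_option synthInstance.maxHeartbeats 200000 in
set_option maxRecDepth 100000 in
theorem fc2 : ∀ M < 18, ∀ e < 18, ∀ a < 18, 0 < M → 0 < e → 0 < a →
    e ^ 2 = M ^ 2 + a ^ 2 → ∀ b < 162, 0 < b → 81 * e ^ 2 ≠ M ^ 2 + b ^ 2 := by decide

set_option synthInstance.maxSize 2000 in
set_option synthInstance.maxHeartbeats 200000 in
set_option maxRecDepth 100000 in
theorem fc3 : ∀ M < 18, ∀ e < 18, ∀ a < 18, 0 < M → 0 < e → 0 < a →
    M ^ 2 = e ^ 2 + 5 * a ^ 2 → ∀ b < 162, 0 < b → M ^ 2 ≠ 81 * e ^ 2 + 5 * b ^ 2 := by decide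

set_option synthInstance.maxSize 2000 in
set_option synthInstance.maxHeartbeats 200000 in
set_option maxRecDepth 100000 in
theorem fc4 : ∀ M < 18, ∀ e < 18, ∀ a < 18, 0 < M → 0 < e → 0 < a →
    e ^ 2 = M ^ 2 + 5 * a ^ 2 → ∀ b < 162, 0 < b → 81 * e ^ 2 ≠ M ^ 2 + 5 * b ^ 2 := by decide

theorem small_case {M e d a b : ℤ} (hM : 0 < M) (he : 0 < e) (hM' : M ^ 2 < 324)
    (he' : e ^ 2 < 324) (hd : d = 1 ∨ d = -1 ∨ d = 5 ∨ d = -5) (ha : a ≠ 0) (hb : b ≠ 0)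
    (h1 : M ^ 2 - e ^ 2 = d * a ^ 2) (h2 : M ^ 2 - 81 * e ^ 2 = d * b ^ 2) : False := by
  obtain ⟨m, rfl⟩ := Int.eq_ofNat_of_zero_le hM.le
  obtain ⟨n, rfl⟩ := Int.eq_ofNat_of_zero_le he.le
  have haa : ((a.natAbs : ℤ)) ^ 2 = a ^ 2 := by rw [Int.natCast_natAbs, sq_abs]
  have hbb : ((b.natAbs : ℤ)) ^ 2 = b ^ 2 := by rw [Int.natCast_natAbs, sq_abs]
  have hap : 0 < a.natAbs := Int.natAbs_pos.mpr ha
  have hbp : 0 < b.natAbs := Int.natAbs_pos.mpr hb
  have hm : m < 18 := by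
    by_contra h; push Not at h
    have : (18 : ℤ) ≤ (m : ℤ) := by exact_mod_cast h
    nlinarith
  have hn : n < 18 := by
    by_contra h; push Not at h
    have : (18 : ℤ) ≤ (n : ℤ) := by exact_mod_cast h
    nlinarith
  have hnp : 0 < n := by exact_mod_cast he
  have hmp : 0 < m := by exact_mod_cast hM
  have a2pos : 0 < a ^ 2 := by positivity
  have b2pos : 0 < b ^ 2 := by positivity
  have ha18 : a.natAbs < 18 := by
    by_contra h; push Not at h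
    have : (18 : ℤ) ≤ (a.natAbs : ℤ) := by exact_mod_cast h
    have : (324 : ℤ) ≤ a ^ 2 := by rw [← haa]; nlinarith
    rcases hd with rfl | rfl | rfl | rfl <;> nlinarith
  have hb162 : b.natAbs < 162 := by
    by_contra h; push Not at h
    have : (162 : ℤ) ≤ (b.natAbs : ℤ) := by exact_mod_cast h
    have : (26244 : ℤ) ≤ b ^ 2 := by rw [← hbb]; nlinarith
    rcases hd with rfl | rfl | rfl | rfl <;> nlinarith
  rcases hd with rfl | rfl | rfl | rfl
  · refine fc1 m hm n hn a.natAbs ha18 hmp hnp hap ?_ b.natAbs hb162 hbp ?_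
    · zify; rw [sq_abs]; linarith
    · zify; rw [sq_abs]; linarith
  · refine fc2 m hm n hn a.natAbs ha18 hmp hnp hap ?_ b.natAbs hb162 hbp ?_
    · zify; rw [sq_abs]; linarith
    · zify; rw [sq_abs]; linarith
  · refine fc3 m hm n hn a.natAbs ha18 hmp hnp hap ?_ b.natAbs hb162 hbp ?_
    · zify; rw [sq_abs]; linarith
    · zify; rw [sq_abs]; linarith
  · refine fc4 m hm n hn a.natAbs ha18 hmp hnp hap ?_ b.natAbs hb162 hbp ?_
    · zify; rw [sq_abs]; linarith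
    · zify; rw [sq_abs]; linarith

/-- `E' : w^2 = x(x-1)(x-81)` has no rational point with `w ≠ 0`. -/
theorem not_inS : ∀ x : ℚ, ¬ InS x := by
  intro x
  induction' hn : H x using Nat.strong_induction_on with n ih generalizing x
  intro hx
  obtain ⟨M, e, d, a, b, hM, he, hnum, hden, hd, ha, hb, h1, h2⟩ := structure_of_inS hx
  obtain ⟨M', e', a', b', he'0, t1, t2, hsize⟩ := translate hM.ne' he.ne' ha hb hd h1 h2
  obtain ⟨x2, hx2, hH2⟩ := halving he'0 t1 t2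
  have hHx : (H x : ℤ) = max (M ^ 2) (e ^ 2) := by
    unfold H
    rw [Nat.cast_max, Int.natCast_natAbs, hnum, hden, abs_of_nonneg (sq_nonneg M)]
  have key : ((H x2 : ℤ)) ^ 2 < 324 * (H x : ℤ) := by rw [hHx]; nlinarith
  by_cases hlt : H x2 < H x
  · exact ih (H x2) (hn ▸ hlt) x2 rfl hx2
  · push Not at hlt
    have hsmall : (H x : ℤ) < 324 := by
      have h3 : (H x : ℤ) ≤ H x2 := by exact_mod_cast hlt
      have h4 : (0 : ℤ) ≤ H x := by positivity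
      nlinarith
    have hM' : M ^ 2 < 324 := lt_of_le_of_lt (by rw [hHx]; exact le_max_left _ _) hsmall
    have he' : e ^ 2 < 324 := lt_of_le_of_lt (by rw [hHx]; exact le_max_right _ _) hsmall
    exact small_case hM he hM' he' hd ha hb h1 h2

theorem Eprime_points (x w : ℚ) (h : w ^ 2 = x * (x - 1) * (x - 81)) : w = 0 := by
  by_contra hw
  exact not_inS x ⟨w, hw, h⟩

/-! ## Part 5: pull-back to `E : y^2 = x(x+16)(x+25)` and to the quartic -/

theorem E_points (x y : ℚ) (h : y ^ 2 = x * (x + 16) * (x + 25)) :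
    x = 0 ∨ x = -16 ∨ x = -25 ∨ x = 20 ∨ x = -20 := by
  by_cases hx : x = 0
  · exact Or.inl hx
  · right
    have key : (y * (x ^ 2 - 400) / x ^ 2) ^ 2
        = ((x + 16) * (x + 25) / x) * ((x + 16) * (x + 25) / x - 1)
          * ((x + 16) * (x + 25) / x - 81) := by
      field_simp
      linear_combination ((x ^ 2 - 400) ^ 2) * h
    have h0 := Eprime_points _ _ key
    have hx2 : x ^ 2 ≠ 0 := pow_ne_zero 2 hx
    rw [div_eq_zero_iff] at h0
    rcases h0 with h0 | h0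
    · rcases mul_eq_zero.mp h0 with hy | hq
      · rw [hy] at h
        have : x * (x + 16) * (x + 25) = 0 := by linarith
        rcases mul_eq_zero.mp this with h' | h'
        · rcases mul_eq_zero.mp h' with h'' | h''
          · exact absurd h'' hx
          · left; linarith
        · right; left; linarith
      · have : (x - 20) * (x + 20) = 0 := by linear_combination hq
        rcases mul_eq_zero.mp this with h' | h'
        · right; right; left; linarith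
        · right; right; right; linarith
    · exact absurd h0 hx2

/-- **Package D of S51.** The affine rational points of `y^2 = (v^2+v-1)(v^2-11v-1)`. -/
theorem quartic_rational_points (v y : ℚ) (h : y ^ 2 = (v ^ 2 + v - 1) * (v ^ 2 - 11 * v - 1)) :
    v = 0 ∨ v = -2 ∨ v = 1 / 2 := by
  -- the map to `E`
  set t : ℚ := y - v ^ 2 + 5 * v with ht
  set X : ℚ := -2 * t - 2 with hX
  set Y : ℚ := 2 * (2 * (t + 19) * v - 5 * (t + 1)) with hY
  have hE : Y ^ 2 = (X - 16) * ((X - 16) + 16) * ((X - 16) + 25) := by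
    rw [hY, hX, ht]
    linear_combination (8 * y + 152 + 40 * v - 8 * v ^ 2) * h
  -- relation between `v` and `X`
  have hrel : (36 - X) * v ^ 2 + 5 * X * v + X * (X + 4) / 4 = 0 := by
    rw [hX, ht]
    linear_combination h
  rcases E_points _ _ hE with h' | h' | h' | h' | h'
  · have hX' : X = 16 := by linarith
    rw [hX'] at hrel
    have : (v + 2) ^ 2 = 0 := by linear_combination hrel / 20
    right; left
    have := pow_eq_zero_iff (two_ne_zero) |>.mp this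
    linarith
  · have hX' : X = 0 := by linarith
    rw [hX'] at hrel
    have : v ^ 2 = 0 := by linear_combination hrel / 36
    left
    exact pow_eq_zero_iff (two_ne_zero) |>.mp this
  · have hX' : X = -9 := by linarith
    rw [hX'] at hrel
    have : (v - 1 / 2) ^ 2 = 0 := by linear_combination hrel / 45
    right; right
    have := pow_eq_zero_iff (two_ne_zero) |>.mp this
    linarith
  · have hX' : X = 36 := by linarith
    rw [hX'] at hrel
    right; left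
    linarith
  · have hX' : X = -4 := by linarith
    rw [hX'] at hrel
    have : v * (v - 1 / 2) = 0 := by linear_combination hrel / 40
    rcases mul_eq_zero.mp this with h'' | h''
    · left; exact h''
    · right; right; linarith

end Fermat.Agent.S51.E2
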