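import Mathlib
import Fermat.Prelude.Def_FLTPrelim_Modularity

/-!
# S51, package E: the four `j`-invariants of the `15`-isogeny class contradict semistability.
-/

set_option autoImplicit false

namespace Fermat.Agent.S51

open WeierstrassCurve

/-- Core arithmetic: `A * c^3 = B * d` with `5 ∤ A`, `5 ∣ B`, `125 ∤ B`, is impossible when
`5 ∣ d → 5 ∤ c`. -/
theorem endgame_core (c d A B : ℤ) (hss : (5 : ℤ) ∣ d → ¬ (5 : ℤ) ∣ c)
    (hA : ¬ (5 : ℤ) ∣ A) (hB5 : (5 : ℤ) ∣ B) (hB125 : ¬ (125 : ℤ) ∣ B)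
    (h : A * c ^ 3 = B * d) : False := by
  have h5 : Prime (5 : ℤ) := by norm_num
  have h5c3 : (5 : ℤ) ∣ A * c ^ 3 := by rw [h]; exact Dvd.dvd.mul_right hB5 d
  have h5c : (5 : ℤ) ∣ c := by
    rcases h5.dvd_or_dvd h5c3 with h' | h'
    · exact absurd h' hA
    · exact h5.dvd_of_dvd_pow h'
  have h5d : ¬ (5 : ℤ) ∣ d := fun hd => hss hd h5c
  have h125 : (125 : ℤ) ∣ B * d := by
    rw [← h]
    obtain ⟨c', rfl⟩ := h5c
    exact ⟨A * c' ^ 3, by ring⟩
  have hcop : IsCoprime (125 : ℤ) d := by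
    have : IsCoprime (5 : ℤ) d := (Prime.coprime_iff_not_dvd h5).mpr h5d
    have h3 : IsCoprime ((5 : ℤ) ^ 3) d := this.pow_left
    norm_num at h3
    exact h3
  exact hB125 (hcop.dvd_of_dvd_mul_right h125)

/-- Integer form of the endgame for a semistable integral model. -/
theorem endgame_int (W : WeierstrassCurve ℤ) (hW : W.IsSemistableModel) (A B : ℤ)
    (hA : ¬ (5 : ℤ) ∣ A) (hB5 : (5 : ℤ) ∣ B) (hB125 : ¬ (125 : ℤ) ∣ B)
    (h : A * W.c₄ ^ 3 = B * W.Δ) : False :=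
  endgame_core W.c₄ W.Δ A B (fun hd => hW 5 (by norm_num) (by exact_mod_cast hd)) hA hB5 hB125 h

/-- Rational form: `c₄^3 = (B / A) * Δ` over `ℚ` is impossible for a semistable integral model
when `5 ∤ A`, `5 ∣ B`, `125 ∤ B`, `A ≠ 0`. -/
theorem endgame_rat (W : WeierstrassCurve ℤ) (hW : W.IsSemistableModel) (A B : ℤ)
    (hA0 : A ≠ 0) (hA : ¬ (5 : ℤ) ∣ A) (hB5 : (5 : ℤ) ∣ B) (hB125 : ¬ (125 : ℤ) ∣ B)
    (h : ((W.c₄ : ℤ) : ℚ) ^ 3 = ((B : ℚ) / (A : ℚ)) * ((W.Δ : ℤ) : ℚ)) : False := by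
  apply endgame_int W hW A B hA hB5 hB125
  have hAq : (A : ℚ) ≠ 0 := by exact_mod_cast hA0
  have : ((A * W.c₄ ^ 3 : ℤ) : ℚ) = ((B * W.Δ : ℤ) : ℚ) := by
    push_cast
    rw [h]
    field_simp
  exact_mod_cast this

/-- The four `j`-invariants of elliptic curves over `ℚ` with a rational `15`-isogeny. -/
def fifteenJ : List ℚ := [-25 / 2, -349938025 / 8, -121945 / 32, 46969655 / 32768]

/-- A semistable integral Weierstrass model cannot have `c₄^3 = j₀ * Δ` for `j₀` one of the four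
`15`-isogeny `j`-invariants. -/
theorem not_c4_cube_eq_fifteenJ_mul_disc (W : WeierstrassCurve ℤ) (hW : W.IsSemistableModel)
    (j₀ : ℚ) (hj : j₀ ∈ fifteenJ)
    (h : ((W.c₄ : ℤ) : ℚ) ^ 3 = j₀ * ((W.Δ : ℤ) : ℚ)) : False := by
  simp only [fifteenJ, List.mem_cons, List.mem_nil_iff, or_false] at hj
  rcases hj with rfl | rfl | rfl | rfl
  · refine endgame_rat W hW 2 (-25) (by norm_num) (by norm_num) (by norm_num) (by norm_num) ?_
    rw [h]; push_cast; ring
  · refine endgame_rat W hW 8 (-349938025) (by norm_num) (by norm_num) (by norm_num)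
      (by norm_num) ?_
    rw [h]; push_cast; ring
  · refine endgame_rat W hW 32 (-121945) (by norm_num) (by norm_num) (by norm_num)
      (by norm_num) ?_
    rw [h]; push_cast; ring
  · refine endgame_rat W hW 32768 46969655 (by norm_num) (by norm_num) (by norm_num)
      (by norm_num) ?_
    rw [h]; push_cast; ring

/-! ### Bridge lemmas between `W : WeierstrassCurve ℤ` and its base changes -/

/-- The base change of `W` to `ℚ`. -/
abbrev ratCurve (W : WeierstrassCurve ℤ) : WeierstrassCurve ℚ := W.map (Int.castRingHom ℚ)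

theorem ratCurve_c4 (W : WeierstrassCurve ℤ) : (ratCurve W).c₄ = ((W.c₄ : ℤ) : ℚ) := by
  simp [ratCurve, WeierstrassCurve.map_c₄]

theorem ratCurve_c6 (W : WeierstrassCurve ℤ) : (ratCurve W).c₆ = ((W.c₆ : ℤ) : ℚ) := by
  simp [ratCurve, WeierstrassCurve.map_c₆]

theorem ratCurve_disc (W : WeierstrassCurve ℤ) : (ratCurve W).Δ = ((W.Δ : ℤ) : ℚ) := by
  simp [ratCurve, WeierstrassCurve.map_Δ]

theorem ratCurve_disc_ne_zero (W : WeierstrassCurve ℤ) (hΔ : W.Δ ≠ 0) : (ratCurve W).Δ ≠ 0 := by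
  rw [ratCurve_disc]; exact_mod_cast hΔ

theorem ratCurve_b2 (W : WeierstrassCurve ℤ) : (ratCurve W).b₂ = ((W.b₂ : ℤ) : ℚ) := by
  simp [ratCurve, WeierstrassCurve.map_b₂]

theorem ratCurve_b4 (W : WeierstrassCurve ℤ) : (ratCurve W).b₄ = ((W.b₄ : ℤ) : ℚ) := by
  simp [ratCurve, WeierstrassCurve.map_b₄]

theorem ratCurve_b6 (W : WeierstrassCurve ℤ) : (ratCurve W).b₆ = ((W.b₆ : ℤ) : ℚ) := by
  simp [ratCurve, WeierstrassCurve.map_b₆]

theorem ratCurve_b8 (W : WeierstrassCurve ℤ) : (ratCurve W).b₈ = ((W.b₈ : ℤ) : ℚ) := by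
  simp [ratCurve, WeierstrassCurve.map_b₈]

/-- Semistable endgame phrased on the rational curve: `c₄^3 = j₀ Δ` on `W_ℚ` is impossible. -/
theorem not_ratCurve_c4_cube_eq (W : WeierstrassCurve ℤ) (hW : W.IsSemistableModel)
    (j₀ : ℚ) (hj : j₀ ∈ fifteenJ) (h : (ratCurve W).c₄ ^ 3 = j₀ * (ratCurve W).Δ) : False := by
  rw [ratCurve_c4, ratCurve_disc] at h
  exact not_c4_cube_eq_fifteenJ_mul_disc W hW j₀ hj h

/-- Same, in terms of the `j`-invariant of the rational curve. -/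
theorem ratCurve_j_not_mem_fifteenJ (W : WeierstrassCurve ℤ) (hΔ : W.Δ ≠ 0)
    (hW : W.IsSemistableModel) [(ratCurve W).IsElliptic] : (ratCurve W).j ∉ fifteenJ := by
  intro hj
  apply not_ratCurve_c4_cube_eq W hW _ hj
  have hne : (ratCurve W).Δ ≠ 0 := ratCurve_disc_ne_zero W hΔ
  have hj' : (ratCurve W).j = (ratCurve W).c₄ ^ 3 / (ratCurve W).Δ := by
    rw [WeierstrassCurve.j, div_eq_inv_mul, Units.val_inv_eq_inv_val, WeierstrassCurve.coe_Δ']
  rw [hj']
  field_simp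

end Fermat.Agent.S51
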