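import Mathlib
import Fermat.Prelude.Def_FLTPrelim_Modularity

set_option autoImplicit false

namespace Fermat.Agent.S51

open WeierstrassCurve

/-- For a semistable integral model, `c₄` and `Δ` are coprime. -/
theorem isCoprime_c4_Δ_of_isSemistableModel (W : WeierstrassCurve ℤ)
    (hss : W.IsSemistableModel) : IsCoprime W.c₄ W.Δ := by
  rw [Int.isCoprime_iff_gcd_eq_one]
  by_contra hne
  obtain ⟨p, hp, hpd⟩ := Nat.exists_prime_and_dvd hne
  have h1 : (p : ℤ) ∣ W.c₄ := by
    have := Int.gcd_dvd_left W.c₄ W.Δ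
    exact (Int.natCast_dvd_natCast.mpr hpd).trans this
  have h2 : (p : ℤ) ∣ W.Δ := by
    have := Int.gcd_dvd_right W.c₄ W.Δ
    exact (Int.natCast_dvd_natCast.mpr hpd).trans this
  exact hss p hp h2 h1

/-- (E1) If `c₄³/Δ = num/den` in lowest terms for a semistable model, then `num = ± c₄³`. -/
theorem num_eq_or_neg_of_semistable (W : WeierstrassCurve ℤ)
    (hss : W.IsSemistableModel) (num den : ℤ) (hcop : IsCoprime num den)
    (h : W.c₄ ^ 3 * den = num * W.Δ) : num = W.c₄ ^ 3 ∨ num = -W.c₄ ^ 3 := by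
  have hc : IsCoprime (W.c₄ ^ 3) W.Δ := (isCoprime_c4_Δ_of_isSemistableModel W hss).pow_left
  have h1 : W.c₄ ^ 3 ∣ num := by
    have : W.c₄ ^ 3 ∣ num * W.Δ := ⟨den, h.symm⟩
    exact hc.dvd_of_dvd_mul_right this
  have h2 : num ∣ W.c₄ ^ 3 := by
    have : num ∣ W.c₄ ^ 3 * den := ⟨W.Δ, h⟩
    exact hcop.dvd_of_dvd_mul_right this
  rcases Int.natAbs_eq_natAbs_iff.mp (Int.natAbs_eq_of_dvd_dvd h2 h1) with h3 | h3
  · exact Or.inl h3
  · exact Or.inr h3

theorem not_cube_of_between (n c lo : ℤ) (hlo : 0 ≤ lo) (h1 : lo ^ 3 < n) (h2 : n < (lo + 1) ^ 3) :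
    n ≠ c ^ 3 := by
  intro h
  rcases le_or_gt c lo with hc | hc
  · have : c ^ 3 ≤ lo ^ 3 := by
      rcases le_or_gt 0 c with h0 | h0
      · exact pow_le_pow_left₀ h0 hc 3
      · have : c ^ 3 < 0 := by
          have := Odd.pow_neg (n := 3) (by decide) h0
          exact this
        have : (0:ℤ) ≤ lo ^ 3 := by positivity
        omega
    omega
  · have hc' : lo + 1 ≤ c := hc
    have : (lo + 1) ^ 3 ≤ c ^ 3 := pow_le_pow_left₀ (by omega) hc' 3
    omega

theorem not_cube_or_neg_cube (n lo : ℤ) (hlo : 0 ≤ lo) (h1 : lo ^ 3 < n) (h2 : n < (lo + 1) ^ 3)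
    (c : ℤ) : ¬ (n = c ^ 3 ∨ n = -c ^ 3) := by
  rintro (h | h)
  · exact not_cube_of_between n c lo hlo h1 h2 h
  · refine not_cube_of_between n (-c) lo hlo h1 h2 ?_
    rw [Odd.neg_pow (by decide)]
    exact h

/-- (E2) the four `j`-invariants of curves with a rational 15-isogeny are not attained by
a semistable integral model. -/
theorem false_of_j_15 (W : WeierstrassCurve ℤ) (hss : W.IsSemistableModel)
    (h : W.c₄ ^ 3 * 2 = -25 * W.Δ ∨ W.c₄ ^ 3 * 8 = -349938025 * W.Δ ∨
      W.c₄ ^ 3 * 32 = -121945 * W.Δ ∨ W.c₄ ^ 3 * 32768 = 46969655 * W.Δ) : False := by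
  rcases h with h | h | h | h
  · have hcop : IsCoprime (-25 : ℤ) 2 := by norm_num [Int.isCoprime_iff_gcd_eq_one]
    have h3 := num_eq_or_neg_of_semistable W hss _ _ hcop h
    refine not_cube_or_neg_cube 25 2 (by norm_num) (by norm_num) (by norm_num) W.c₄ ?_
    rcases h3 with h3 | h3
    · exact Or.inr (by linarith)
    · exact Or.inl (by linarith)
  · have hcop : IsCoprime (-349938025 : ℤ) 8 := by norm_num [Int.isCoprime_iff_gcd_eq_one]
    have h3 := num_eq_or_neg_of_semistable W hss _ _ hcop h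
    refine not_cube_or_neg_cube 349938025 704 (by norm_num) (by norm_num) (by norm_num) W.c₄ ?_
    rcases h3 with h3 | h3
    · exact Or.inr (by linarith)
    · exact Or.inl (by linarith)
  · have hcop : IsCoprime (-121945 : ℤ) 32 := by norm_num [Int.isCoprime_iff_gcd_eq_one]
    have h3 := num_eq_or_neg_of_semistable W hss _ _ hcop h
    refine not_cube_or_neg_cube 121945 49 (by norm_num) (by norm_num) (by norm_num) W.c₄ ?_
    rcases h3 with h3 | h3
    · exact Or.inr (by linarith)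
    · exact Or.inl (by linarith)
  · have hcop : IsCoprime (46969655 : ℤ) 32768 := by norm_num [Int.isCoprime_iff_gcd_eq_one]
    have h3 := num_eq_or_neg_of_semistable W hss _ _ hcop h
    exact not_cube_or_neg_cube 46969655 360 (by norm_num) (by norm_num) (by norm_num) W.c₄ h3

end Fermat.Agent.S51
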