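import Mathlib
import Fermat.Agent.S51.Defs
import Fermat.Agent.S51.PolyIds

/-!
# S51 package A5 (helper69): points of order five on a Weierstrass curve

General Weierstrass form over a field `F` of characteristic zero, points are `W.Point`
(nonsingular points of the affine curve `W`).  Interface (v1) theorems:

* `five_torsion_rel`: a point `P = (x₁, y₁)` with `5 • P = 0` has `2 • P = (x₂, y₂)` affine,
  `x₁ ≠ x₂`, and the duplication map `x ↦ phi2 x / psi2sq x` swaps `x₁` and `x₂`.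
* `exists_five_torsion`: over an algebraically closed field, if `Δ ≠ 0` there is `P ≠ 0`
  with `5 • P = 0`.
* `five_torsion_finite`: the `5`-torsion is finite with fewer than `125` elements (in fact `≤ 25`).

Private helper names carry the prefix `t5_`.
-/

set_option autoImplicit false

namespace Fermat.Agent.S51

open WeierstrassCurve WeierstrassCurve.Affine Polynomial

/-! ### The duplication formula on `x`-coordinates -/

section Doubling

variable {F : Type*} [Field F] (W : WeierstrassCurve.Affine F)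

theorem t5_psi2sq_eq_of_equation {x y : F} (h : W.Equation x y) :
    psi2sq W x = (y - W.negY x y) ^ 2 := by
  rw [Affine.equation_iff] at h
  simp only [psi2sq, negY, WeierstrassCurve.b₂, WeierstrassCurve.b₄, WeierstrassCurve.b₆]
  linear_combination (-4 : F) * h

theorem t5_psi2sq_ne_zero_of_Y_ne {x y : F} (h : W.Equation x y) (hy : y ≠ W.negY x y) :
    psi2sq W x ≠ 0 := by
  rw [t5_psi2sq_eq_of_equation W h]
  exact pow_ne_zero 2 (sub_ne_zero.mpr hy)

theorem t5_psi2sq_eq_zero_of_Y_eq {x y : F} (h : W.Equation x y) (hy : y = W.negY x y) :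
    psi2sq W x = 0 := by
  rw [t5_psi2sq_eq_of_equation W h, ← hy, sub_self]; ring

variable [DecidableEq F]

/-- The duplication formula: the `x`-coordinate `x'` of `2P` satisfies `x' Ψ₂Sq(x) = Φ₂(x)`. -/
theorem t5_addX_self_mul_psi2sq {x y : F} (h : W.Equation x y) (hy : y ≠ W.negY x y) :
    W.addX x x (W.slope x x y y) * psi2sq W x = phi2 W x := by
  rw [slope_of_Y_ne rfl hy, t5_psi2sq_eq_of_equation W h]
  have hne : y - W.negY x y ≠ 0 := sub_ne_zero.mpr hy
  rw [Affine.equation_iff] at h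
  set u : F := y - W.negY x y with hu
  set n : F := 3 * x ^ 2 + 2 * W.a₂ * x + W.a₄ - W.a₁ * y with hn
  have key : n ^ 2 + W.a₁ * n * u - (W.a₂ + 2 * x) * u ^ 2 = phi2 W x := by
    simp only [hu, hn, phi2, negY, WeierstrassCurve.b₄, WeierstrassCurve.b₆,
      WeierstrassCurve.b₈]
    linear_combination (-(W.a₁ ^ 2 + 4 * W.a₂ + 8 * x)) * h
  rw [← key]
  simp only [addX]
  field_simp
  ring

/-- Point-level duplication: for a non-2-torsion affine point `P = (x, y)`, `2 • P` is affine with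
`x`-coordinate `x'` satisfying `x' Ψ₂Sq(x) = Φ₂(x)`. -/
theorem t5_two_nsmul_some {x y : F} (h : W.Nonsingular x y) (hy : y ≠ W.negY x y) :
    ∃ (x' y' : F) (h' : W.Nonsingular x' y'),
      (2 : ℕ) • (Point.some x y h) = Point.some x' y' h' ∧ x' * psi2sq W x = phi2 W x := by
  refine ⟨_, _, nonsingular_add h h fun hxy => hy hxy.right, ?_, t5_addX_self_mul_psi2sq W h.1 hy⟩
  rw [two_nsmul]
  exact Point.add_self_of_Y_ne hy

/-- A 2-torsion affine point doubles to zero. -/
theorem t5_two_nsmul_some_of_Y_eq {x y : F} (h : W.Nonsingular x y) (hy : y = W.negY x y) :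
    (2 : ℕ) • (Point.some x y h) = 0 := by
  rw [two_nsmul]
  exact Point.add_self_of_Y_eq hy

end Doubling

/-! ### Consequences of the polynomial identities -/

section Identities

variable {F : Type*} [Field F] [CharZero F] (W : WeierstrassCurve.Affine F)

/-- `Ψ₂Sq` and `Ψ₃` have no common root when `Δ ≠ 0`. -/
theorem t5_psi3_ne_zero_of_psi2sq_eq_zero (hΔ : W.Δ ≠ 0) {x : F} (h2 : psi2sq W x = 0) :
    psi3 W x ≠ 0 := by
  intro h3
  apply hΔ
  have h0 := polyid0 W x
  rw [h2, h3] at h0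
  have hd : (12 * x ^ 2 + 2 * W.b₂ * x + 2 * W.b₄) ^ 2 = 0 := by linear_combination h0
  have hd' : 12 * x ^ 2 + 2 * W.b₂ * x + 2 * W.b₄ = 0 := by simpa using hd
  have e4 : W.b₄ = -(6 * x ^ 2 + W.b₂ * x) := by linear_combination (1 / 2 : F) * hd'
  have e6 : W.b₆ = 8 * x ^ 3 + W.b₂ * x ^ 2 := by
    simp only [psi2sq] at h2
    rw [e4] at h2
    linear_combination h2
  have e8 : W.b₈ = (W.b₂ * W.b₆ - W.b₄ ^ 2) / 4 := by
    linear_combination (1 / 4 : F) * W.b_relation
  rw [WeierstrassCurve.Δ, e8, e6, e4]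
  ring

omit [CharZero F] in
/-- `Ψ₂Sq(x') Ψ₂Sq(x)³ = preΨ₄(x)²` when `x' = x(2P)`. -/
theorem t5_psi2sq_double {x x' : F} (hx' : x' * psi2sq W x = phi2 W x) :
    psi2sq W x' * psi2sq W x ^ 3 = pre4 W x ^ 2 := by
  have h1 : psi2sq W x' * psi2sq W x ^ 3 =
      4 * (x' * psi2sq W x) ^ 3 + W.b₂ * (x' * psi2sq W x) ^ 2 * psi2sq W x
        + 2 * W.b₄ * (x' * psi2sq W x) * psi2sq W x ^ 2 + W.b₆ * psi2sq W x ^ 3 := by
    generalize psi2sq W x = P
    simp only [psi2sq]; ring
  rw [h1, hx']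
  exact polyid1 W x

omit [CharZero F] in
/-- The key identity: with `x' = x(2P)`, `(x Ψ₂Sq(x') − Φ₂(x')) Ψ₂Sq(x)⁴ = Ψ₃(x) Ψ₅(x)`. -/
theorem t5_key5 {x x' : F} (hx' : x' * psi2sq W x = phi2 W x) :
    (x * psi2sq W x' - phi2 W x') * psi2sq W x ^ 4 = psi3 W x * psi5 W x := by
  have ha := t5_psi2sq_double W hx'
  have h2 := polyid2 W x
  have h1 : phi2 W x' * psi2sq W x ^ 4 =
      (x' * psi2sq W x) ^ 4 - W.b₄ * (x' * psi2sq W x) ^ 2 * psi2sq W x ^ 2
        - 2 * W.b₆ * (x' * psi2sq W x) * psi2sq W x ^ 3 - W.b₈ * psi2sq W x ^ 4 := by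
    generalize psi2sq W x = P
    simp only [phi2]; ring
  rw [hx'] at h1
  linear_combination (x * psi2sq W x) * ha - h1 - h2

end Identities

/-! ### Points of order five -/

section Five

variable {F : Type*} [Field F] [DecidableEq F] [CharZero F] {W : WeierstrassCurve.Affine F}

omit [CharZero F] in
/-- Structure of a point killed by `5` (natural-number scalar version). -/
theorem t5_order_five_structure {x₁ y₁ : F} (h₁ : W.Nonsingular x₁ y₁)
    (h5 : (5 : ℕ) • Point.some x₁ y₁ h₁ = 0) :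
    ∃ (x₂ y₂ : F) (h₂ : W.Nonsingular x₂ y₂),
      (2 : ℕ) • Point.some x₁ y₁ h₁ = Point.some x₂ y₂ h₂ ∧ x₁ ≠ x₂ ∧
        psi2sq W x₁ ≠ 0 ∧ psi2sq W x₂ ≠ 0 ∧
        x₂ * psi2sq W x₁ = phi2 W x₁ ∧ x₁ * psi2sq W x₂ = phi2 W x₂ := by
  set P : W.Point := Point.some x₁ y₁ h₁ with hPdef
  have hP : P ≠ 0 := Point.some_ne_zero h₁
  have e5 : (5 : ℕ) • P = (2 : ℕ) • ((2 : ℕ) • P) + P := by abel
  have hy₁ : y₁ ≠ W.negY x₁ y₁ := by
    intro hy
    have h2 : (2 : ℕ) • P = 0 := t5_two_nsmul_some_of_Y_eq W h₁ hy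
    rw [e5, h2, nsmul_zero, zero_add] at h5
    exact hP h5
  obtain ⟨x₂, y₂, h₂, h2P, hd12⟩ := t5_two_nsmul_some W h₁ hy₁
  have hy₂ : y₂ ≠ W.negY x₂ y₂ := by
    intro hy
    have h4 : (2 : ℕ) • ((2 : ℕ) • P) = 0 := by
      rw [h2P]; exact t5_two_nsmul_some_of_Y_eq W h₂ hy
    rw [e5, h4, zero_add] at h5
    exact hP h5
  obtain ⟨x₄, y₄, h₄, h4P, hd24⟩ := t5_two_nsmul_some W h₂ hy₂
  have h4neg : (2 : ℕ) • ((2 : ℕ) • P) = -P := by
    rw [eq_neg_iff_add_eq_zero, ← e5, h5]
  have hx41 : x₄ = x₁ := by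
    rw [h2P, h4P, hPdef, Point.neg_some] at h4neg
    exact (Point.some.inj h4neg).1
  refine ⟨x₂, y₂, h₂, h2P, ?_, t5_psi2sq_ne_zero_of_Y_ne W h₁.1 hy₁,
    t5_psi2sq_ne_zero_of_Y_ne W h₂.1 hy₂, hd12, hx41 ▸ hd24⟩
  intro hx
  rcases (Point.X_eq_iff (h₁ := h₁) (h₂ := h₂)).mp hx with h | h
  · -- `P = 2P`
    apply hP
    have : P = (2 : ℕ) • P := by rw [h2P]; exact h
    have h0 : (2 : ℕ) • P - P = 0 := by rw [← this, sub_self]
    have : (2 : ℕ) • P - P = P := by abel
    rw [← this, h0]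
  · -- `P = -2P`
    apply hP
    have h3 : (3 : ℕ) • P = 0 := by
      have : P = -((2 : ℕ) • P) := by rw [h2P]; exact h
      have e3 : (3 : ℕ) • P = (2 : ℕ) • P + P := by abel
      rw [e3]; nth_rewrite 2 [this]; abel
    have : P = (2 : ℕ) • ((3 : ℕ) • P) - (5 : ℕ) • P := by abel
    rw [this, h3, h5]; simp

omit [CharZero F] in
/-- **Interface v1 (A5).** A point `(x₁, y₁)` killed by `5` has an affine double `(x₂, y₂)` with
`x₁ ≠ x₂`, and the duplication map swaps `x₁` and `x₂`. -/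
theorem five_torsion_rel {x₁ y₁ : F} (h₁ : W.Nonsingular x₁ y₁)
    (h5 : (5 : ℤ) • Point.some x₁ y₁ h₁ = 0) :
    ∃ (x₂ y₂ : F) (h₂ : W.Nonsingular x₂ y₂),
      (2 : ℤ) • Point.some x₁ y₁ h₁ = Point.some x₂ y₂ h₂ ∧ x₁ ≠ x₂ ∧
        psi2sq W x₁ ≠ 0 ∧ psi2sq W x₂ ≠ 0 ∧
        x₂ * psi2sq W x₁ = phi2 W x₁ ∧ x₁ * psi2sq W x₂ = phi2 W x₂ := by
  have h5' : (5 : ℕ) • Point.some x₁ y₁ h₁ = 0 := by
    rw [← h5, ← natCast_zsmul]; rfl
  obtain ⟨x₂, y₂, h₂, h2, rest⟩ := t5_order_five_structure h₁ h5'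
  refine ⟨x₂, y₂, h₂, ?_, rest⟩
  rw [← h2, ← natCast_zsmul]; rfl

/-- The `x`-coordinate of a point killed by `5` is a root of `Ψ₅`. -/
theorem t5_psi5_eq_zero {x₁ y₁ : F} (h₁ : W.Nonsingular x₁ y₁)
    (h5 : (5 : ℕ) • Point.some x₁ y₁ h₁ = 0) : psi5 W x₁ = 0 := by
  obtain ⟨x₂, y₂, h₂, -, hne, hD₁, hD₂, hd12, hd21⟩ := t5_order_five_structure h₁ h5
  have h3 : psi3 W x₁ ≠ 0 := by
    have e : psi3 W x₁ = (x₁ - x₂) * psi2sq W x₁ := by
      have := polyid_phi2 W x₁
      linear_combination hd12 + this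
    rw [e]
    exact mul_ne_zero (sub_ne_zero.mpr hne) hD₁
  have hk := t5_key5 W hd12
  rw [hd21, sub_self, zero_mul] at hk
  rcases mul_eq_zero.mp hk.symm with h | h
  · exact absurd h h3
  · exact h

/-- Conversely, a nonsingular point over a root of `Ψ₅` is killed by `5` (when `Δ ≠ 0`). -/
theorem t5_five_nsmul_eq_zero_of_psi5 (hΔ : W.Δ ≠ 0) {x₁ y₁ : F} (h₁ : W.Nonsingular x₁ y₁)
    (hpsi : psi5 W x₁ = 0) : (5 : ℕ) • Point.some x₁ y₁ h₁ = 0 := by
  set P : W.Point := Point.some x₁ y₁ h₁ with hPdef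
  have e5 : (5 : ℕ) • P = (2 : ℕ) • ((2 : ℕ) • P) + P := by abel
  -- Step 1: `Ψ₂Sq(x₁) ≠ 0`
  have hD₁ : psi2sq W x₁ ≠ 0 := by
    intro hD
    have h3 : psi3 W x₁ ^ 3 = 0 := by
      rw [psi5, hD] at hpsi
      linear_combination -hpsi
    exact t5_psi3_ne_zero_of_psi2sq_eq_zero W hΔ hD (pow_eq_zero_iff (by norm_num) |>.mp h3)
  have hy₁ : y₁ ≠ W.negY x₁ y₁ := fun hy => hD₁ (t5_psi2sq_eq_zero_of_Y_eq W h₁.1 hy)
  obtain ⟨x₂, y₂, h₂, h2P, hd12⟩ := t5_two_nsmul_some W h₁ hy₁
  have hphi := polyid_phi2 W x₁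
  -- Step 2: `Ψ₃(x₁) ≠ 0`
  have h3 : psi3 W x₁ ≠ 0 := by
    intro h3
    have hpre : pre4 W x₁ = 0 := by
      rw [psi5, h3] at hpsi
      have : pre4 W x₁ * psi2sq W x₁ ^ 2 = 0 := by linear_combination hpsi
      rcases mul_eq_zero.mp this with h | h
      · exact h
      · exact absurd (pow_eq_zero_iff (by norm_num) |>.mp h) hD₁
    have hD₂ : psi2sq W x₂ = 0 := by
      have := t5_psi2sq_double W hd12
      rw [hpre] at this
      have : psi2sq W x₂ * psi2sq W x₁ ^ 3 = 0 := by linear_combination this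
      rcases mul_eq_zero.mp this with h | h
      · exact h
      · exact absurd (pow_eq_zero_iff (by norm_num) |>.mp h) hD₁
    have hx : x₂ = x₁ := by
      have : (x₂ - x₁) * psi2sq W x₁ = 0 := by linear_combination hd12 + hphi - h3
      rcases mul_eq_zero.mp this with h | h
      · exact sub_eq_zero.mp h
      · exact absurd h hD₁
    rw [hx] at hD₂
    exact hD₁ hD₂
  have hne : x₁ ≠ x₂ := by
    intro hx
    apply h3
    rw [← hx] at hd12
    linear_combination hphi + hd12
  -- Step 3: `preΨ₄(x₁) ≠ 0`, hence `Ψ₂Sq(x₂) ≠ 0`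
  have hpre : pre4 W x₁ ≠ 0 := by
    intro hpre
    have : psi3 W x₁ ^ 3 = 0 := by
      rw [psi5, hpre] at hpsi
      linear_combination -hpsi
    exact h3 (pow_eq_zero_iff (by norm_num) |>.mp this)
  have hD₂ : psi2sq W x₂ ≠ 0 := by
    intro hD₂
    have := t5_psi2sq_double W hd12
    rw [hD₂, zero_mul] at this
    exact hpre (pow_eq_zero_iff (by norm_num) |>.mp this.symm)
  have hy₂ : y₂ ≠ W.negY x₂ y₂ := fun hy => hD₂ (t5_psi2sq_eq_zero_of_Y_eq W h₂.1 hy)
  obtain ⟨x₄, y₄, h₄, h4P, hd24⟩ := t5_two_nsmul_some W h₂ hy₂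
  -- Step 4: `x(4P) = x(P)`
  have hx41 : x₄ = x₁ := by
    have hk := t5_key5 W hd12
    rw [hpsi, mul_zero] at hk
    have h0 : x₁ * psi2sq W x₂ - phi2 W x₂ = 0 := by
      rcases mul_eq_zero.mp hk with h | h
      · exact h
      · exact absurd (pow_eq_zero_iff (by norm_num) |>.mp h) hD₁
    have : (x₄ - x₁) * psi2sq W x₂ = 0 := by linear_combination hd24 - h0
    rcases mul_eq_zero.mp this with h | h
    · exact sub_eq_zero.mp h
    · exact absurd h hD₂
  -- Step 5: `4P = ±P`
  have h4 : (2 : ℕ) • ((2 : ℕ) • P) = Point.some x₄ y₄ h₄ := by rw [h2P, h4P]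
  rcases (Point.X_eq_iff (h₁ := h₄) (h₂ := h₁)).mp hx41 with h | h
  · -- `4P = P`, so `3P = 0`, so `2P = -P` and `x₂ = x₁`
    exfalso
    apply hne
    have h4' : (2 : ℕ) • ((2 : ℕ) • P) = P := by rw [h4]; exact h
    have h2neg : (2 : ℕ) • P = -P := by
      have e : (2 : ℕ) • P = (2 : ℕ) • ((2 : ℕ) • P) - P - P := by abel
      rw [e, h4']; abel
    rw [h2P, hPdef, Point.neg_some] at h2neg
    exact ((Point.some.inj h2neg).1).symm
  · -- `4P = -P`
    have h4' : (2 : ℕ) • ((2 : ℕ) • P) = -P := by rw [h4]; exact h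
    rw [e5, h4']; abel

/-- The quadratic in `Y` cutting out the points of `W` above `x`. -/
noncomputable def t5_quad (W : WeierstrassCurve.Affine F) (x : F) : F[X] :=
  X ^ 2 + C (W.a₁ * x + W.a₃) * X - C (x ^ 3 + W.a₂ * x ^ 2 + W.a₄ * x + W.a₆)

omit [DecidableEq F] [CharZero F] in
theorem t5_quad_natDegree (W : WeierstrassCurve.Affine F) (x : F) :
    (t5_quad W x).natDegree = 2 := by
  unfold t5_quad
  compute_degree!

omit [DecidableEq F] [CharZero F] in
theorem t5_quad_ne_zero (W : WeierstrassCurve.Affine F) (x : F) : t5_quad W x ≠ 0 := by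
  intro h
  have := t5_quad_natDegree W x
  rw [h, natDegree_zero] at this
  exact absurd this (by norm_num)

omit [DecidableEq F] [CharZero F] in
theorem t5_quad_isRoot_iff (W : WeierstrassCurve.Affine F) (x y : F) :
    (t5_quad W x).IsRoot y ↔ W.Equation x y := by
  rw [Affine.equation_iff, IsRoot.def, t5_quad]
  simp only [eval_sub, eval_add, eval_pow, eval_X, eval_mul, eval_C]
  constructor
  · intro h; linear_combination h
  · intro h; linear_combination h

/-- **Interface v1 (A5).** Over an algebraically closed field of characteristic zero an elliptic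
curve has a point of order five. -/
theorem exists_five_torsion [IsAlgClosed F] (hΔ : W.Δ ≠ 0) :
    ∃ P : W.Point, P ≠ 0 ∧ (5 : ℤ) • P = 0 := by
  have h5 : (5 : F) ≠ 0 := by norm_num
  obtain ⟨x, hx⟩ := exists_root_psi5 W h5
  have hdeg : (t5_quad W x).degree ≠ 0 := by
    rw [degree_eq_natDegree (t5_quad_ne_zero W x), t5_quad_natDegree]
    norm_num
  obtain ⟨y, hy⟩ := IsAlgClosed.exists_root (t5_quad W x) hdeg
  have heq : W.Equation x y := (t5_quad_isRoot_iff W x y).mp hy
  have hns : W.Nonsingular x y := (equation_iff_nonsingular_of_Δ_ne_zero hΔ).mp heq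
  refine ⟨Point.some x y hns, Point.some_ne_zero hns, ?_⟩
  have := t5_five_nsmul_eq_zero_of_psi5 hΔ hns hx
  rw [← this, ← natCast_zsmul]; rfl

/-! ### Counting the `5`-torsion -/

/-- Coordinates of a point (`none` for the point at infinity). -/
def t5_coords (W : WeierstrassCurve.Affine F) : W.Point → Option (F × F)
  | .zero => none
  | .some x y _ => some (x, y)

omit [DecidableEq F] [CharZero F] in
theorem t5_coords_injective (W : WeierstrassCurve.Affine F) :
    Function.Injective (t5_coords W) := by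
  intro P Q h
  rcases P with _ | ⟨x, y, hP⟩ <;> rcases Q with _ | ⟨x', y', hQ⟩
  · rfl
  · simp [t5_coords] at h
  · simp [t5_coords] at h
  · simp only [t5_coords, Option.some.injEq, Prod.mk.injEq] at h
    obtain ⟨rfl, rfl⟩ := h
    rfl

/-- A finite set containing the coordinates of all points killed by `5`. -/
noncomputable def t5_bound (W : WeierstrassCurve.Affine F) : Finset (Option (F × F)) :=
  Finset.insertNone ((W.preΨ' 5).roots.toFinset.biUnion fun x =>
    (t5_quad W x).roots.toFinset.image fun y => (x, y))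

theorem t5_bound_card (W : WeierstrassCurve.Affine F) : (t5_bound W).card ≤ 25 := by
  have h5 : (5 : F) ≠ 0 := by norm_num
  rw [t5_bound, Finset.card_insertNone]
  have h1 : ((W.preΨ' 5).roots.toFinset.biUnion fun x =>
      (t5_quad W x).roots.toFinset.image fun y => (x, y)).card
      ≤ ∑ x ∈ (W.preΨ' 5).roots.toFinset,
          ((t5_quad W x).roots.toFinset.image fun y => (x, y)).card :=
    Finset.card_biUnion_le
  have h2 : ∀ x ∈ (W.preΨ' 5).roots.toFinset,
      ((t5_quad W x).roots.toFinset.image fun y => (x, y)).card ≤ 2 := by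
    intro x _
    calc ((t5_quad W x).roots.toFinset.image fun y => (x, y)).card
        ≤ (t5_quad W x).roots.toFinset.card := Finset.card_image_le
      _ ≤ Multiset.card (t5_quad W x).roots := Multiset.toFinset_card_le _
      _ ≤ (t5_quad W x).natDegree := card_roots' _
      _ = 2 := t5_quad_natDegree W x
  have h3 : (W.preΨ' 5).roots.toFinset.card ≤ 12 := by
    calc (W.preΨ' 5).roots.toFinset.card
        ≤ Multiset.card (W.preΨ' 5).roots := Multiset.toFinset_card_le _
      _ ≤ (W.preΨ' 5).natDegree := card_roots' _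
      _ = 12 := natDegree_preΨ'_five W h5
  have h4 := Finset.sum_le_card_nsmul _ _ 2 h2
  simp only [smul_eq_mul] at h4
  omega

theorem t5_coords_mem_bound (W : WeierstrassCurve.Affine F) {P : W.Point}
    (h5 : (5 : ℤ) • P = 0) : t5_coords W P ∈ t5_bound W := by
  have h5F : (5 : F) ≠ 0 := by norm_num
  rcases P with _ | ⟨x, y, hP⟩
  · simp [t5_coords, t5_bound]
  · have h5' : (5 : ℕ) • Point.some x y hP = 0 := by
      rw [← h5, ← natCast_zsmul]; rfl
    have hpsi : psi5 W x = 0 := t5_psi5_eq_zero hP h5'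
    simp only [t5_coords, t5_bound, Finset.some_mem_insertNone, Finset.mem_biUnion,
      Finset.mem_image, Multiset.mem_toFinset, Prod.mk.injEq]
    refine ⟨x, ?_, y, ?_, rfl, rfl⟩
    · rw [mem_roots (W.preΨ'_ne_zero (by exact_mod_cast h5F)), IsRoot.def, eval_preΨ'_five]
      exact hpsi
    · rw [mem_roots (t5_quad_ne_zero W x)]
      exact (t5_quad_isRoot_iff W x y).mpr hP.1

/-- **Interface v1 (A5).** The `5`-torsion of a Weierstrass curve in characteristic zero is finite
with fewer than `125` (in fact at most `25`) elements. -/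
theorem five_torsion_finite (W : WeierstrassCurve.Affine F) :
    Finite (Submodule.torsionBy ℤ W.Point 5) ∧
      Nat.card (Submodule.torsionBy ℤ W.Point 5) < 125 := by
  let f : Submodule.torsionBy ℤ W.Point 5 → (t5_bound W) := fun P =>
    ⟨t5_coords W P.1, t5_coords_mem_bound W ((Submodule.mem_torsionBy_iff _ _).mp P.2)⟩
  have hf : Function.Injective f := by
    intro P Q h
    apply Subtype.ext
    apply t5_coords_injective W
    exact congrArg Subtype.val h
  have : Finite (Submodule.torsionBy ℤ W.Point 5) := Finite.of_injective f hf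
  refine ⟨inferInstance, ?_⟩
  have h1 : Nat.card (Submodule.torsionBy ℤ W.Point 5) ≤ Nat.card (t5_bound W) :=
    Nat.card_le_card_of_injective f hf
  have h2 : Nat.card (t5_bound W) = (t5_bound W).card := by
    rw [Nat.card_eq_fintype_card, Fintype.card_coe]
  have h3 := t5_bound_card W
  omega

/-- Variant of `five_torsion_finite` with the scalar written as a cast natural number (the form
used by the Prelude's torsion modules). -/
theorem five_torsion_finite' (W : WeierstrassCurve.Affine F) :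
    Finite (Submodule.torsionBy ℤ W.Point ((5 : ℕ) : ℤ)) ∧
      Nat.card (Submodule.torsionBy ℤ W.Point ((5 : ℕ) : ℤ)) < 125 :=
  five_torsion_finite W

end Five

end Fermat.Agent.S51
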