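import Mathlib
import Fermat.Prelude.Def_FLTPrelim_GaloisRep
import Fermat.Agent.S51.Defs

/-!
# S51, shared Galois-descent lemmas (used by packages B3 and B5)

* `galfix_exists_rat`: an element of `ℚ̄` fixed by every `σ : ℚ̄ ≃ₐ[ℚ] ℚ̄` is rational.
* `galfix_smul_some`: the Prelude Galois action on points acts on affine coordinates.
* `galfix_coe_smul`: the Prelude Galois action on torsion points is the action on points.
-/

set_option autoImplicit false

open WeierstrassCurve WeierstrassCurve.Affine
open scoped WeierstrassCurve.Affine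

namespace Fermat.Agent.S51

theorem galfix_isAlgebraic : Algebra.IsAlgebraic ℚ (AlgebraicClosure ℚ) :=
  AlgebraicClosure.isAlgebraic ℚ

theorem galfix_isAlgClosure : IsAlgClosure ℚ (AlgebraicClosure ℚ) :=
  haveI := galfix_isAlgebraic
  ⟨inferInstance, inferInstance⟩

theorem galfix_isGalois : IsGalois ℚ (AlgebraicClosure ℚ) :=
  haveI := galfix_isAlgClosure
  inferInstance

/-- An element of `ℚ̄` fixed by the whole Galois group is rational. -/
theorem galfix_exists_rat (x : AlgebraicClosure ℚ)
    (h : ∀ σ : AlgebraicClosure ℚ ≃ₐ[ℚ] AlgebraicClosure ℚ, σ x = x) :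
    ∃ q : ℚ, algebraMap ℚ (AlgebraicClosure ℚ) q = x := by
  haveI := galfix_isGalois
  have hx : x ∈ (⊥ : IntermediateField ℚ (AlgebraicClosure ℚ)) :=
    (InfiniteGalois.mem_bot_iff_fixed x).mpr h
  exact IntermediateField.mem_bot.mp hx

section Action

universe r s v

variable {R : Type r} {S : Type s} {K : Type v} [CommRing R] [CommRing S] [Field K]
  [DecidableEq K] {W' : Affine R} [Algebra R S] [Algebra R K] [Algebra S K]
  [IsScalarTower R S K]

/-- The Prelude Galois action on an affine point acts on its coordinates. -/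
theorem galfix_smul_some (σ : K ≃ₐ[S] K) {x y : K} (h : (W'⁄K).Nonsingular x y) :
    ∃ h' : (W'⁄K).Nonsingular (σ x) (σ y),
      σ • (Point.some x y h : (W'⁄K).Point) = Point.some (σ x) (σ y) h' := by
  rw [Point.algEquiv_smul_def]
  exact ⟨_, Point.map_some (σ : K →ₐ[S] K) h⟩

theorem galfix_smul_zero (σ : K ≃ₐ[S] K) : σ • (0 : (W'⁄K).Point) = 0 :=
  smul_zero σ

/-- The Prelude Galois action on torsion points is the action on the underlying points. -/
theorem galfix_coe_smul (n : ℕ) (σ : K ≃ₐ[S] K)
    (P : Submodule.torsionBy ℤ (W'⁄K).Point n) :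
    ((σ • P : Submodule.torsionBy ℤ (W'⁄K).Point n) : (W'⁄K).Point) = σ • (P : (W'⁄K).Point) :=
  rfl

/-- The Galois action on torsion points is injective. -/
theorem galfix_smul_eq_zero_iff (n : ℕ) (σ : K ≃ₐ[S] K)
    (P : Submodule.torsionBy ℤ (W'⁄K).Point n) : σ • P = 0 ↔ P = 0 := by
  constructor
  · intro h
    have := congrArg (fun Q => σ⁻¹ • Q) h
    simpa using this
  · rintro rfl
    exact smul_zero σ

end Action

end Fermat.Agent.S51
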