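import Mathlib
import Fermat.Prelude.Def_FLTPrelim_GaloisRep
import Fermat.Agent.S51.Defs
import Fermat.Agent.S51.GaloisFixed

set_option autoImplicit false

open WeierstrassCurve WeierstrassCurve.Affine
open scoped WeierstrassCurve.Affine

namespace Fermat.Agent.S51

/-- `psi3` commutes with ring homomorphisms. -/
theorem gal3_psi3_map {F F' : Type*} [CommRing F] [CommRing F'] (f : F →+* F')
    (E : WeierstrassCurve F) (x : F) : psi3 (E.map f) (f x) = f (psi3 E x) := by
  simp only [psi3, WeierstrassCurve.map_b₂, WeierstrassCurve.map_b₄, WeierstrassCurve.map_b₆,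
    WeierstrassCurve.map_b₈, map_add, map_mul, map_pow, map_ofNat]

/-- Core of package B3 (T3 modulo packages A3 and L): Galois descent of the `x`-coordinate of a stable line in `E[3]`. -/
theorem gal3_exists_rat_root_psi3_of (E : WeierstrassCurve ℚ)
    (hnontriv : Nontrivial (Submodule.torsionBy ℤ (E⁄(AlgebraicClosure ℚ)).Point ((3 : ℕ) : ℤ)))
    (hroot : ∀ {x y : AlgebraicClosure ℚ} (h : (E⁄(AlgebraicClosure ℚ)).Nonsingular x y),
      (3 : ℤ) • (Point.some x y h : (E⁄(AlgebraicClosure ℚ)).Point) = 0 →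
        psi3 (E⁄(AlgebraicClosure ℚ)) x = 0)
    (hline : ∀ (N : Submodule (ZMod 3) (Submodule.torsionBy ℤ (E⁄(AlgebraicClosure ℚ)).Point ((3 : ℕ) : ℤ))),
      N ≠ ⊥ → N ≠ ⊤ → ∀ {P Q : Submodule.torsionBy ℤ (E⁄(AlgebraicClosure ℚ)).Point ((3 : ℕ) : ℤ)},
        P ∈ N → P ≠ 0 → Q ∈ N → ∃ k : ℕ, Q = k • P)
    (h : ¬ Point.GaloisRepIsIrreducible (K := AlgebraicClosure ℚ) ℚ E 3) :
    ∃ x₀ : ℚ, psi3 E x₀ = 0 := by
  classical
  -- extract a proper nonzero stable submodule
  have h' : ∃ N : Submodule (ZMod 3) (Submodule.torsionBy ℤ (E⁄(AlgebraicClosure ℚ)).Point ((3 : ℕ) : ℤ)),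
      Point.IsGaloisStable ℚ N ∧ N ≠ ⊥ ∧ N ≠ ⊤ := by
    by_contra hcon
    apply h
    refine ⟨hnontriv, fun N hN => ?_⟩
    by_contra hN'
    rw [not_or] at hN'
    exact hcon ⟨N, hN, hN'.1, hN'.2⟩
  obtain ⟨N, hstab, hbot, htop⟩ := h'
  -- a nonzero element of N
  obtain ⟨P, hPN, hP0⟩ := (Submodule.ne_bot_iff N).mp hbot
  -- its underlying point is affine
  obtain ⟨P₀, hP₀⟩ := P
  have hP₀ne : P₀ ≠ 0 := by
    rintro rfl
    exact hP0 rfl
  cases P₀ with
  | zero => exact absurd rfl hP₀ne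
  | some x₁ y₁ h₁ =>
    have h3 : (3 : ℤ) • (Point.some x₁ y₁ h₁ : (E⁄(AlgebraicClosure ℚ)).Point) = 0 := by
      have := (Submodule.mem_torsionBy_iff _ _).mp hP₀
      exact_mod_cast this
    have hpsi : psi3 (E⁄(AlgebraicClosure ℚ)) x₁ = 0 := hroot h₁ h3
    -- x₁ is Galois-fixed
    have hfix : ∀ σ : AlgebraicClosure ℚ ≃ₐ[ℚ] AlgebraicClosure ℚ, σ x₁ = x₁ := by
      intro σ
      set P : Submodule.torsionBy ℤ (E⁄(AlgebraicClosure ℚ)).Point ((3 : ℕ) : ℤ) :=
        ⟨Point.some x₁ y₁ h₁, hP₀⟩ with hPdef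
      have hσN : σ • P ∈ N := hstab σ P hPN
      obtain ⟨k, hk⟩ := hline N hbot htop hPN hP0 hσN
      have hσ0 : σ • P ≠ 0 := fun h0 => hP0 ((galfix_smul_eq_zero_iff 3 σ P).mp h0)
      obtain ⟨h', hsome⟩ := galfix_smul_some (W' := E) σ h₁
      have hval : ((σ • P : Submodule.torsionBy ℤ (E⁄(AlgebraicClosure ℚ)).Point ((3 : ℕ) : ℤ)) :
          (E⁄(AlgebraicClosure ℚ)).Point) = Point.some (σ x₁) (σ y₁) h' := by
        rw [galfix_coe_smul, hPdef]
        exact hsome
      -- k • P with k mod 3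
      have h3P : (3 : ℕ) • P = 0 := by
        apply Subtype.ext
        have : ((3 : ℕ) • P : Submodule.torsionBy ℤ (E⁄(AlgebraicClosure ℚ)).Point ((3 : ℕ) : ℤ)).val
            = (3 : ℕ) • (Point.some x₁ y₁ h₁ : (E⁄(AlgebraicClosure ℚ)).Point) := rfl
        rw [this]
        exact_mod_cast h3
      have hkmod : k • P = (k % 3) • P := by
        conv_lhs => rw [← Nat.div_add_mod k 3]
        rw [add_smul, mul_comm, mul_smul, h3P, smul_zero, zero_add]
      have hk3 : k % 3 < 3 := Nat.mod_lt _ (by norm_num)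
      rw [hkmod] at hk
      have hcases : k % 3 = 0 ∨ k % 3 = 1 ∨ k % 3 = 2 := by omega
      rcases hcases with h0 | h1 | h2
      · rw [h0, zero_smul] at hk
        exact absurd hk hσ0
      · rw [h1, one_smul] at hk
        have := congrArg Subtype.val hk
        rw [hval, hPdef] at this
        simp only [Point.some.injEq] at this
        exact this.1
      · -- 2 • P = -P
        have hneg : (2 : ℕ) • P = -P := by
          have : (2 : ℕ) • P + P = 0 := by
            rw [← h3P]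
            simp [succ_nsmul]
          exact eq_neg_of_add_eq_zero_left this
        rw [h2, hneg] at hk
        have := congrArg Subtype.val hk
        rw [hval, hPdef] at this
        have hnegval : ((-(⟨Point.some x₁ y₁ h₁, hP₀⟩ :
            Submodule.torsionBy ℤ (E⁄(AlgebraicClosure ℚ)).Point ((3 : ℕ) : ℤ)) :
              Submodule.torsionBy ℤ (E⁄(AlgebraicClosure ℚ)).Point ((3 : ℕ) : ℤ)) :
            (E⁄(AlgebraicClosure ℚ)).Point) =
              -(Point.some x₁ y₁ h₁ : (E⁄(AlgebraicClosure ℚ)).Point) := rfl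
        rw [hnegval, Point.neg_some] at this
        simp only [Point.some.injEq] at this
        exact this.1
    obtain ⟨q, hq⟩ := galfix_exists_rat x₁ hfix
    refine ⟨q, ?_⟩
    have hmap : psi3 (E⁄(AlgebraicClosure ℚ)) (algebraMap ℚ (AlgebraicClosure ℚ) q) =
        algebraMap ℚ (AlgebraicClosure ℚ) (psi3 E q) :=
      gal3_psi3_map (algebraMap ℚ (AlgebraicClosure ℚ)) E q
    rw [hq, hpsi] at hmap
    exact (map_eq_zero_iff _ (algebraMap ℚ (AlgebraicClosure ℚ)).injective).mp hmap.symm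

end Fermat.Agent.S51
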