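import Mathlib
import Fermat.Prelude.Def_FLTPrelim_Modularity

/-!
# S51, package E: semistable integral models and the `j`-invariant

For an integral Weierstrass model `W` with `Δ ≠ 0` which is semistable in the sense of the
prelude (`p ∣ Δ → ¬ p ∣ c₄`), the fraction `c₄³ / Δ` is in lowest terms, so the numerator of `j` is
a perfect cube.  In particular `j` avoids the four non-cuspidal rational `j`-invariants of
`X₀(15)`, and `j ≠ 0, 1728`.
-/

set_option autoImplicit false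

namespace Fermat.Agent.S51

open WeierstrassCurve

/-- Semistability of the model gives coprimality of `c₄` and `Δ`. -/
theorem isCoprime_c₄_Δ (W : WeierstrassCurve ℤ) (hss : W.IsSemistableModel) :
    IsCoprime W.c₄ W.Δ := by
  rw [Int.isCoprime_iff_gcd_eq_one]
  by_contra hne
  obtain ⟨p, hp, hpd⟩ := Nat.exists_prime_and_dvd hne
  have h1 : (p : ℤ) ∣ W.c₄ := by
    have : (Int.gcd W.c₄ W.Δ : ℤ) ∣ W.c₄ := Int.gcd_dvd_left _ _
    exact (Int.natCast_dvd_natCast.mpr hpd).trans this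
  have h2 : (p : ℤ) ∣ W.Δ := by
    have : (Int.gcd W.c₄ W.Δ : ℤ) ∣ W.Δ := Int.gcd_dvd_right _ _
    exact (Int.natCast_dvd_natCast.mpr hpd).trans this
  exact hss p hp h2 h1

/-- If `c₄³ · den = num · Δ` with `num/den` in lowest terms, then `num` is a cube. -/
theorem num_eq_cube_of_semistable (W : WeierstrassCurve ℤ) (hΔ : W.Δ ≠ 0)
    (hss : W.IsSemistableModel) {num den : ℤ} (hcop : IsCoprime num den)
    (hj : W.c₄ ^ 3 * den = num * W.Δ) : ∃ c : ℤ, num = c ^ 3 := by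
  have hc : IsCoprime W.c₄ W.Δ := isCoprime_c₄_Δ W hss
  have hc3 : IsCoprime (W.c₄ ^ 3) W.Δ := hc.pow_left
  -- Δ ∣ den
  have h1 : W.Δ ∣ den := by
    have : W.Δ ∣ W.c₄ ^ 3 * den := ⟨num, by rw [hj]; ring⟩
    exact hc3.symm.dvd_of_dvd_mul_left this
  -- den ∣ Δ
  have h2 : den ∣ W.Δ := by
    have : den ∣ num * W.Δ := ⟨W.c₄ ^ 3, by rw [← hj]; ring⟩
    exact hcop.symm.dvd_of_dvd_mul_left this
  rcases Int.natAbs_eq_natAbs_iff.mp (Int.natAbs_eq_of_dvd_dvd h1 h2) with h | h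
  · refine ⟨W.c₄, ?_⟩
    rw [← h] at hj
    exact (mul_right_cancel₀ hΔ hj).symm
  · refine ⟨-W.c₄, ?_⟩
    have h' : den = -W.Δ := by rw [h]; ring
    rw [h'] at hj
    have : (-(W.c₄ ^ 3)) * W.Δ = num * W.Δ := by rw [← hj]; ring
    have := mul_right_cancel₀ hΔ this
    rw [← this]; ring

/-- No integer cube is congruent to `2` or `5` modulo `9` (and more). -/
theorem cube_emod_nine (c : ℤ) : c ^ 3 % 9 = 0 ∨ c ^ 3 % 9 = 1 ∨ c ^ 3 % 9 = 8 := by
  have h : c % 9 = 0 ∨ c % 9 = 1 ∨ c % 9 = 2 ∨ c % 9 = 3 ∨ c % 9 = 4 ∨ c % 9 = 5 ∨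
      c % 9 = 6 ∨ c % 9 = 7 ∨ c % 9 = 8 := by omega
  have key : c ^ 3 % 9 = ((c % 9) ^ 3) % 9 :=
    (Int.ModEq.pow 3 (Int.mod_modEq c 9)).symm
  rcases h with h | h | h | h | h | h | h | h | h <;> rw [key, h] <;> norm_num

/-- The four non-cuspidal rational `j`-invariants of `X₀(15)` are not the `j`-invariant of a
semistable integral model: stated as `c₄³ · den ≠ num · Δ`. -/
theorem j_ne_exceptional (W : WeierstrassCurve ℤ) (hΔ : W.Δ ≠ 0) (hss : W.IsSemistableModel) :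
    W.c₄ ^ 3 * 2 ≠ (-25) * W.Δ ∧
    W.c₄ ^ 3 * 8 ≠ (-349938025) * W.Δ ∧
    W.c₄ ^ 3 * 32 ≠ (-121945) * W.Δ ∧
    W.c₄ ^ 3 * 32768 ≠ 46969655 * W.Δ := by
  refine ⟨fun h => ?_, fun h => ?_, fun h => ?_, fun h => ?_⟩
  · obtain ⟨c, hc⟩ := num_eq_cube_of_semistable W hΔ hss
      (by rw [Int.isCoprime_iff_gcd_eq_one]; decide) h
    have := cube_emod_nine c
    rw [← hc] at this
    omega
  · obtain ⟨c, hc⟩ := num_eq_cube_of_semistable W hΔ hss
      (by rw [Int.isCoprime_iff_gcd_eq_one]; decide) h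
    have := cube_emod_nine c
    rw [← hc] at this
    omega
  · obtain ⟨c, hc⟩ := num_eq_cube_of_semistable W hΔ hss
      (by rw [Int.isCoprime_iff_gcd_eq_one]; decide) h
    have := cube_emod_nine c
    rw [← hc] at this
    omega
  · obtain ⟨c, hc⟩ := num_eq_cube_of_semistable W hΔ hss
      (by rw [Int.isCoprime_iff_gcd_eq_one]; decide) h
    have := cube_emod_nine c
    rw [← hc] at this
    omega

/-- A semistable integral model with `Δ ≠ 0` has `c₄ ≠ 0` (i.e. `j ≠ 0`). -/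
theorem c₄_ne_zero_of_semistable (W : WeierstrassCurve ℤ)
    (hss : W.IsSemistableModel) : W.c₄ ≠ 0 := by
  intro h0
  have hc : IsCoprime W.c₄ W.Δ := isCoprime_c₄_Δ W hss
  rw [h0, isCoprime_zero_left] at hc
  have hrel := W.c_relation
  rw [h0] at hrel
  rcases Int.isUnit_iff.mp hc with h | h
  · rw [h] at hrel
    nlinarith [sq_nonneg W.c₆]
  · rw [h] at hrel
    have h6 : W.c₆ ^ 2 = 1728 := by linarith
    have h1 : W.c₆ < 42 := by nlinarith
    have h2 : -42 < W.c₆ := by nlinarith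
    interval_cases W.c₆ <;> omega

/-- A semistable integral model with `Δ ≠ 0` has `c₆ ≠ 0` (i.e. `j ≠ 1728`). -/
theorem c₆_ne_zero_of_semistable (W : WeierstrassCurve ℤ)
    (hss : W.IsSemistableModel) : W.c₆ ≠ 0 := by
  intro h0
  have hc : IsCoprime W.c₄ W.Δ := isCoprime_c₄_Δ W hss
  have hrel := W.c_relation
  rw [h0] at hrel
  have hrel' : W.c₄ ^ 3 = 1728 * W.Δ := by linarith
  -- Δ ∣ c₄³ and coprime ⇒ Δ unit
  have hdvd : W.Δ ∣ W.c₄ ^ 3 := ⟨1728, by rw [hrel']; ring⟩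
  have hunit : IsUnit W.Δ := by
    have h1 : IsCoprime (W.c₄ ^ 3) W.Δ := hc.pow_left
    exact h1.symm.isUnit_of_dvd hdvd
  -- c₄ = ±12
  have hc4 : W.c₄ = 12 ∨ W.c₄ = -12 := by
    rcases Int.isUnit_iff.mp hunit with h | h
    · left
      rw [h] at hrel'
      have h1 : W.c₄ < 13 := by nlinarith [sq_nonneg W.c₄, sq_nonneg (W.c₄ - 13)]
      have h2 : 0 < W.c₄ := by nlinarith [sq_nonneg W.c₄]
      interval_cases W.c₄ <;> omega
    · right
      rw [h] at hrel'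
      have h1 : -13 < W.c₄ := by nlinarith [sq_nonneg W.c₄, sq_nonneg (W.c₄ + 13)]
      have h2 : W.c₄ < 0 := by nlinarith [sq_nonneg W.c₄]
      interval_cases W.c₄ <;> omega
  -- b₂ = a₁² + 4 a₂ is 0 or 1 mod 4
  have hb2 : W.b₂ = W.a₁ ^ 2 + 4 * W.a₂ := by simp [WeierstrassCurve.b₂]
  have hc4' : W.c₄ = W.b₂ ^ 2 - 24 * W.b₄ := by simp [WeierstrassCurve.c₄]
  obtain ⟨k, hk⟩ : ∃ k : ℤ, W.b₂ = 4 * k ∨ W.b₂ = 4 * k + 1 := by
    rcases Int.even_or_odd' W.a₁ with ⟨t, ht | ht⟩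
    · exact ⟨t ^ 2 + W.a₂, Or.inl (by rw [hb2, ht]; ring)⟩
    · exact ⟨t ^ 2 + t + W.a₂, Or.inr (by rw [hb2, ht]; ring)⟩
  rcases hk with hk | hk
  · have : W.b₂ ^ 2 = 16 * k ^ 2 := by rw [hk]; ring
    generalize k ^ 2 = K at this
    rcases hc4 with h | h <;> omega
  · have : W.b₂ ^ 2 = 16 * k ^ 2 + 8 * k + 1 := by rw [hk]; ring
    generalize k ^ 2 = K at this
    rcases hc4 with h | h <;> omega

/-- Rational form: the quotient `c₄³/Δ` (the `j`-invariant of the generic fibre) of a semistable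
integral model avoids the four exceptional values and `0`, `1728`. -/
theorem j_rat_ne (W : WeierstrassCurve ℤ) (hΔ : W.Δ ≠ 0) (hss : W.IsSemistableModel) :
    let j : ℚ := (W.c₄ : ℚ) ^ 3 / (W.Δ : ℚ)
    j ≠ -25 / 2 ∧ j ≠ -349938025 / 8 ∧ j ≠ -121945 / 32 ∧ j ≠ 46969655 / 32768 ∧
      j ≠ 0 ∧ j ≠ 1728 := by
  intro j
  have hΔq : (W.Δ : ℚ) ≠ 0 := by exact_mod_cast hΔ
  obtain ⟨h1, h2, h3, h4⟩ := j_ne_exceptional W hΔ hss
  refine ⟨fun h => h1 ?_, fun h => h2 ?_, fun h => h3 ?_, fun h => h4 ?_, fun h => ?_, fun h => ?_⟩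
  · have : (W.c₄ : ℚ) ^ 3 * 2 = (-25) * (W.Δ : ℚ) := by
      have := h; simp only [j] at this; field_simp at this; linarith
    exact_mod_cast this
  · have : (W.c₄ : ℚ) ^ 3 * 8 = (-349938025) * (W.Δ : ℚ) := by
      have := h; simp only [j] at this; field_simp at this; linarith
    exact_mod_cast this
  · have : (W.c₄ : ℚ) ^ 3 * 32 = (-121945) * (W.Δ : ℚ) := by
      have := h; simp only [j] at this; field_simp at this; linarith
    exact_mod_cast this
  · have : (W.c₄ : ℚ) ^ 3 * 32768 = 46969655 * (W.Δ : ℚ) := by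
      have := h; simp only [j] at this; field_simp at this; linarith
    exact_mod_cast this
  · have h0 : (W.c₄ : ℚ) ^ 3 = 0 := by
      have := h; simp only [j] at this
      rcases div_eq_zero_iff.mp this with h' | h'
      · exact h'
      · exact absurd h' hΔq
    have : (W.c₄ : ℚ) = 0 := pow_eq_zero_iff (n := 3) (by norm_num) |>.mp h0
    exact c₄_ne_zero_of_semistable W hss (by exact_mod_cast this)
  · have h0 : (W.c₄ : ℚ) ^ 3 = 1728 * (W.Δ : ℚ) := by
      have := h; simp only [j] at this; field_simp at this; linarith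
    have h0' : W.c₄ ^ 3 = 1728 * W.Δ := by exact_mod_cast h0
    have hrel := W.c_relation
    have : W.c₆ ^ 2 = 0 := by linarith
    exact c₆_ne_zero_of_semistable W hss (pow_eq_zero_iff (n := 2) (by norm_num) |>.mp this)

end Fermat.Agent.S51
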