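/-
S51 package E: the four non-cuspidal rational points of X₀(15) have j-invariants
-25/2, -349938025/8, -121945/32, 46969655/32768; none of them is the j-invariant of a
semistable integral Weierstrass model (the numerator has 5-adic valuation 1 or 2, but for a
semistable model `c₄^3 = j Δ` with `gcd(c₄, Δ) = 1` forces it to be divisible by 3).
-/
import Mathlib
import Fermat.Prelude.Def_FLTPrelim_Modularity

set_option autoImplicit false

namespace Fermat.Agent.S51

/-- Core arithmetic: `A * c^3 = B * D`, `5 ∤ A`, `B = 5^e * B'` with `e ∈ {1,2}`, `5 ∤ B'`,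
`D ≠ 0` and (`5 ∣ D → ¬ 5 ∣ c`) is impossible. -/
theorem NotSemistable.core (c D A B' : ℤ) (e : ℕ) (he : e = 1 ∨ e = 2)
    (_hD : D ≠ 0) (hA : ¬ (5 : ℤ) ∣ A) (hB' : ¬ (5 : ℤ) ∣ B')
    (hss : (5 : ℤ) ∣ D → ¬ (5 : ℤ) ∣ c)
    (h : A * c ^ 3 = 5 ^ e * B' * D) : False := by
  have h5 : Prime (5 : ℤ) := by norm_num
  have he1 : 1 ≤ e := by rcases he with rfl | rfl <;> norm_num
  -- 5 ∣ A * c^3, so 5 ∣ c
  have hdvd : (5 : ℤ) ∣ A * c ^ 3 := by
    rw [h, mul_assoc]
    exact Dvd.dvd.mul_right (dvd_pow_self 5 (by omega)) _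
  have hc : (5 : ℤ) ∣ c := by
    rcases h5.dvd_or_dvd hdvd with h1 | h1
    · exact absurd h1 hA
    · exact h5.dvd_of_dvd_pow h1
  -- hence 5 ∤ D
  have hD5 : ¬ (5 : ℤ) ∣ D := fun hd => hss hd hc
  -- 125 ∣ A c^3 = 5^e B' D with e ≤ 2: contradiction
  obtain ⟨c', rfl⟩ := hc
  have h125 : (5 : ℤ) ^ 3 ∣ 5 ^ e * B' * D := by
    rw [← h]
    exact ⟨A * c' ^ 3, by ring⟩
  have hBD : ¬ (5 : ℤ) ∣ B' * D := fun hd => by
    rcases h5.dvd_or_dvd hd with h1 | h1
    · exact hB' h1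
    · exact hD5 h1
  rcases he with rfl | rfl
  · -- 125 ∣ 5 * (B' D) → 25 ∣ B' D
    have : (5 : ℤ) ∣ B' * D := by
      have h2 : (5 : ℤ) * 25 ∣ 5 * (B' * D) := by
        have := h125
        norm_num at this ⊢
        rw [mul_assoc] at this
        exact this
      have h3 : (25 : ℤ) ∣ B' * D := (mul_dvd_mul_iff_left (by norm_num : (5 : ℤ) ≠ 0)).mp h2
      exact Dvd.dvd.trans (by norm_num : (5 : ℤ) ∣ 25) h3
    exact hBD this
  · have : (5 : ℤ) ∣ B' * D := by
      have h2 : (25 : ℤ) * 5 ∣ 25 * (B' * D) := by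
        have := h125
        norm_num at this ⊢
        rw [mul_assoc] at this
        exact this
      exact (mul_dvd_mul_iff_left (by norm_num : (25 : ℤ) ≠ 0)).mp h2
    exact hBD this

/-- Semistable integral models: `A * c₄^3 = 5^e * B' * Δ` is impossible (`e ∈ {1,2}`,
`5 ∤ A`, `5 ∤ B'`). -/
theorem NotSemistable.int (W : WeierstrassCurve ℤ) (hΔ : W.Δ ≠ 0) (hss : W.IsSemistableModel)
    (A B' : ℤ) (e : ℕ) (he : e = 1 ∨ e = 2) (hA : ¬ (5 : ℤ) ∣ A) (hB' : ¬ (5 : ℤ) ∣ B') :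
    A * W.c₄ ^ 3 ≠ 5 ^ e * B' * W.Δ := by
  intro h
  exact NotSemistable.core W.c₄ W.Δ A B' e he hΔ hA hB'
    (fun hd => hss 5 (by norm_num) (by exact_mod_cast hd)) h

/-- Rational form: `(c₄ : ℚ)^3 = j * Δ` with `j = 5^e * B' / A`. -/
theorem NotSemistable.rat (W : WeierstrassCurve ℤ) (hΔ : W.Δ ≠ 0) (hss : W.IsSemistableModel)
    (A B' : ℤ) (e : ℕ) (he : e = 1 ∨ e = 2) (hA : ¬ (5 : ℤ) ∣ A) (hB' : ¬ (5 : ℤ) ∣ B') :
    ((W.c₄ : ℤ) : ℚ) ^ 3 ≠ ((5 ^ e * B' : ℤ) : ℚ) / (A : ℚ) * ((W.Δ : ℤ) : ℚ) := by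
  intro h
  have hA0 : (A : ℚ) ≠ 0 := by
    intro h0
    have : A = 0 := by exact_mod_cast h0
    exact hA (this ▸ dvd_zero 5)
  apply NotSemistable.int W hΔ hss A B' e he hA hB'
  have : (A : ℚ) * ((W.c₄ : ℤ) : ℚ) ^ 3 = ((5 ^ e * B' : ℤ) : ℚ) * ((W.Δ : ℤ) : ℚ) := by
    rw [h]; field_simp
  exact_mod_cast this

/-- The four `j`-invariants of the non-cuspidal rational points of `X₀(15)`. -/
def x015JValues : List ℚ := [-25 / 2, -349938025 / 8, -121945 / 32, 46969655 / 32768]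

/-- No semistable integral Weierstrass model has `c₄^3 = j Δ` with `j` one of the four
`X₀(15)` values. -/
theorem not_semistable_of_j_mem (W : WeierstrassCurve ℤ) (hΔ : W.Δ ≠ 0)
    (hss : W.IsSemistableModel) (j : ℚ) (hj : j ∈ x015JValues) :
    ((W.c₄ : ℤ) : ℚ) ^ 3 ≠ j * ((W.Δ : ℤ) : ℚ) := by
  simp only [x015JValues, List.mem_cons, List.not_mem_nil, or_false] at hj
  rcases hj with rfl | rfl | rfl | rfl
  · -- -25/2 = 5^2 * (-1) / 2
    have := NotSemistable.rat W hΔ hss 2 (-1) 2 (Or.inr rfl) (by norm_num) (by norm_num)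
    convert this using 2
    norm_num
  · -- -349938025/8 = 5^2 * (-13997521) / 8
    have := NotSemistable.rat W hΔ hss 8 (-13997521) 2 (Or.inr rfl) (by norm_num) (by norm_num)
    convert this using 2
    norm_num
  · -- -121945/32 = 5 * (-24389) / 32
    have := NotSemistable.rat W hΔ hss 32 (-24389) 1 (Or.inl rfl) (by norm_num) (by norm_num)
    convert this using 2
    norm_num
  · -- 46969655/32768 = 5 * 9393931 / 32768
    have := NotSemistable.rat W hΔ hss 32768 9393931 1 (Or.inl rfl) (by norm_num) (by norm_num)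
    convert this using 2
    norm_num

/-- (TE) of the S51 interface: the four `t`-values of the non-cuspidal rational points of
`X₀(15)` (with `j = (t+27)(t+3)^3/t`) cannot occur for a semistable integral model. -/
theorem semistable_contra (W : WeierstrassCurve ℤ) (hΔ : W.Δ ≠ 0) (hW : W.IsSemistableModel)
    (t : ℚ) (ht : t = -32 ∨ t = -2 ∨ t = -729 / 2 ∨ t = -729 / 32)
    (h : ((W.c₄ : ℤ) : ℚ) ^ 3 * t = ((W.Δ : ℤ) : ℚ) * (t + 27) * (t + 3) ^ 3) : False := by
  rcases ht with rfl | rfl | rfl | rfl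
  · -- t = -32 : j = -121945/32
    apply not_semistable_of_j_mem W hΔ hW (-121945 / 32) (by simp [x015JValues])
    linear_combination (-1 / 32 : ℚ) * h
  · -- t = -2 : j = -25/2
    apply not_semistable_of_j_mem W hΔ hW (-25 / 2) (by simp [x015JValues])
    linear_combination (-1 / 2 : ℚ) * h
  · -- t = -729/2 : j = -349938025/8
    apply not_semistable_of_j_mem W hΔ hW (-349938025 / 8) (by simp [x015JValues])
    linear_combination (-2 / 729 : ℚ) * h
  · -- t = -729/32 : j = 46969655/32768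
    apply not_semistable_of_j_mem W hΔ hW (46969655 / 32768) (by simp [x015JValues])
    linear_combination (-32 / 729 : ℚ) * h

end Fermat.Agent.S51
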