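import Mathlib
import Fermat.Prelude.Def_FLTPrelim_Modularity

/-!
# S51 package E: a semistable integral model cannot have `j`-invariant whose numerator
is exactly divisible by `ℓ` or `ℓ²` for a prime `ℓ` not dividing the denominator.

If `c₄³ · d = n · Δ` with `ℓ ∣ n`, `¬ ℓ³ ∣ n`, `¬ ℓ ∣ d`, then `ℓ ∣ c₄`, hence (semistable)
`ℓ ∤ Δ`, hence `ℓ³ ∣ c₄³ d = n Δ` forces `ℓ³ ∣ n`: contradiction.
-/

set_option autoImplicit false

namespace Fermat.Agent.S51.SemistableJ38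

open WeierstrassCurve

/-- Pure integer version: `c^3 * d = n * D`, `ℓ` prime, `ℓ ∣ n`, `¬ ℓ^3 ∣ n`, `¬ ℓ ∣ d`, and
(`ℓ ∣ D → ¬ ℓ ∣ c`) is contradictory. -/
theorem false_of_cube_mul_eq {c D n d : ℤ} {l : ℕ} (hl : l.Prime)
    (h : c ^ 3 * d = n * D) (hln : (l : ℤ) ∣ n) (hl3 : ¬ (l : ℤ) ^ 3 ∣ n) (hld : ¬ (l : ℤ) ∣ d)
    (hss : (l : ℤ) ∣ D → ¬ (l : ℤ) ∣ c) : False := by
  have hlp : Prime (l : ℤ) := Nat.prime_iff_prime_int.mp hl
  -- ℓ ∣ c^3 * d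
  have h1 : (l : ℤ) ∣ c ^ 3 * d := h ▸ Dvd.dvd.mul_right hln D
  have hc : (l : ℤ) ∣ c := by
    rcases hlp.dvd_or_dvd h1 with h2 | h2
    · exact hlp.dvd_of_dvd_pow h2
    · exact absurd h2 hld
  have hD : ¬ (l : ℤ) ∣ D := fun hD => hss hD hc
  -- ℓ^3 ∣ c^3 ∣ n * D, coprime to D
  have h3 : (l : ℤ) ^ 3 ∣ n * D := by
    rw [← h]
    exact Dvd.dvd.mul_right (pow_dvd_pow_of_dvd hc 3) d
  have hcop : IsCoprime ((l : ℤ) ^ 3) D := by
    apply IsCoprime.pow_left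
    exact (Prime.coprime_iff_not_dvd hlp).mpr hD
  exact hl3 (hcop.dvd_of_dvd_mul_right h3)

/-- Package E for S51: a semistable integral Weierstrass model with `c₄³ · d = n · Δ`
where some prime `ℓ` satisfies `ℓ ∣ n`, `¬ ℓ³ ∣ n`, `¬ ℓ ∣ d` does not exist. -/
theorem false_of_semistable_of_c4_cube_mul_eq (W : WeierstrassCurve ℤ)
    (hW : W.IsSemistableModel) {n d : ℤ} {l : ℕ} (hl : l.Prime)
    (h : W.c₄ ^ 3 * d = n * W.Δ) (hln : (l : ℤ) ∣ n) (hl3 : ¬ (l : ℤ) ^ 3 ∣ n)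
    (hld : ¬ (l : ℤ) ∣ d) : False :=
  false_of_cube_mul_eq hl h hln hl3 hld (hW l hl)

/-- Rational version: if `j = c₄³/Δ` (as rationals) equals `n/d`, same conclusion. -/
theorem false_of_semistable_of_j_eq (W : WeierstrassCurve ℤ) (hΔ : W.Δ ≠ 0)
    (hW : W.IsSemistableModel) {n d : ℤ} (hd : d ≠ 0) {l : ℕ} (hl : l.Prime)
    (h : ((W.c₄ : ℤ) : ℚ) ^ 3 / ((W.Δ : ℤ) : ℚ) = (n : ℚ) / (d : ℚ))
    (hln : (l : ℤ) ∣ n) (hl3 : ¬ (l : ℤ) ^ 3 ∣ n) (hld : ¬ (l : ℤ) ∣ d) : False := by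
  have hΔ' : ((W.Δ : ℤ) : ℚ) ≠ 0 := by exact_mod_cast hΔ
  have hd' : (d : ℚ) ≠ 0 := by exact_mod_cast hd
  rw [div_eq_div_iff hΔ' hd'] at h
  have h' : W.c₄ ^ 3 * d = n * W.Δ := by exact_mod_cast h
  exact false_of_semistable_of_c4_cube_mul_eq W hW hl h' hln hl3 hld

/-- The four `j`-invariants of elliptic curves over `ℚ` with a rational `15`-isogeny are excluded
for semistable models: numerators have `5`-adic valuation `1` or `2`. -/
theorem false_of_semistable_of_j_mem (W : WeierstrassCurve ℤ) (hΔ : W.Δ ≠ 0)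
    (hW : W.IsSemistableModel)
    (h : ((W.c₄ : ℤ) : ℚ) ^ 3 / ((W.Δ : ℤ) : ℚ) = -25 / 2 ∨
         ((W.c₄ : ℤ) : ℚ) ^ 3 / ((W.Δ : ℤ) : ℚ) = -349938025 / 8 ∨
         ((W.c₄ : ℤ) : ℚ) ^ 3 / ((W.Δ : ℤ) : ℚ) = -121945 / 32 ∨
         ((W.c₄ : ℤ) : ℚ) ^ 3 / ((W.Δ : ℤ) : ℚ) = 46969655 / 32768) : False := by
  rcases h with h | h | h | h
  · refine false_of_semistable_of_j_eq W hΔ hW (n := -25) (d := 2) (by norm_num)
      (l := 5) (by norm_num) (by rw [h]; norm_num) (by norm_num) (by norm_num) (by norm_num)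
  · refine false_of_semistable_of_j_eq W hΔ hW (n := -349938025) (d := 8) (by norm_num)
      (l := 5) (by norm_num) (by rw [h]; norm_num) (by norm_num) (by norm_num) (by norm_num)
  · refine false_of_semistable_of_j_eq W hΔ hW (n := -121945) (d := 32) (by norm_num)
      (l := 5) (by norm_num) (by rw [h]; norm_num) (by norm_num) (by norm_num) (by norm_num)
  · refine false_of_semistable_of_j_eq W hΔ hW (n := 46969655) (d := 32768) (by norm_num)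
      (l := 5) (by norm_num) (by rw [h]; norm_num) (by norm_num) (by norm_num) (by norm_num)

end Fermat.Agent.S51.SemistableJ38
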