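import Fermat.Agent.S51.Defs

set_option autoImplicit false

/-!
# S51, package C (alternative, fully explicit): the `τ`-model of `X₀(15)`

Universal curve over `X₀(3)` in `x`-coordinates: after translating the rational root `x₀` of `ψ₃`
to `0` (new invariants `B2, α, β, 0` with `B2 β = α²`) and rescaling `ξ = α x / β`, all
`x`-coordinate formulas of `E` become those of
`f(ξ) = 4ξ³ + τ(ξ+1)²`, `g(ξ) = ξ⁴ - τξ² - 2τξ` (duplication `ξ ↦ g/f`), `τ = α³/β²`,
`j = τ(τ-24)³/(τ-27)`.  A 5-cycle `ξ₂ f(ξ₁) = g(ξ₁)`, `ξ₁ f(ξ₂) = g(ξ₂)` with `p = ξ₁+ξ₂`,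
`q = ξ₁ξ₂` gives
`(D) 6pq - p³ + τ(p+q+1) = 0`, `(S) -p⁴ + 8p²q - 10q² + τ(p²+pq+3p+2q) = 0`,
hence `p²(p+q)² = q(5p²+11pq+5q²+5q)`; with `m = q/p²` this is `Y² = -m(4m-1)(25m-4)`,
i.e. `y² = X(X+16)(X+25)` (`X = -100 m`), the curve 15a1.
-/

namespace Fermat.Agent.S51.Tau

/-- The statement about rational points of `15a1 : y² = X(X+16)(X+25)` that is needed. -/
def CubicPoints : Prop :=
  ∀ X y : ℚ, y ^ 2 = X * (X + 16) * (X + 25) →
    X = 0 ∨ X = -16 ∨ X = -25 ∨ X = 20 ∨ X = -20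

section Cycle

variable {K : Type*} [Field K]

/-- The two symmetric consequences of a 5-cycle of the duplication map, for a curve whose
`b`-invariants are `(B2, α, β, 0)` (i.e. `0` is a root of `ψ₃`). -/
theorem cycle_rel_gen (B2 α β x₁ x₂ : K) (hne : x₁ ≠ x₂)
    (h1 : x₂ * (4 * x₁ ^ 3 + B2 * x₁ ^ 2 + 2 * α * x₁ + β) = x₁ ^ 4 - α * x₁ ^ 2 - 2 * β * x₁)
    (h2 : x₁ * (4 * x₂ ^ 3 + B2 * x₂ ^ 2 + 2 * α * x₂ + β) = x₂ ^ 4 - α * x₂ ^ 2 - 2 * β * x₂) :
    6 * (x₁ + x₂) * (x₁ * x₂) - (x₁ + x₂) ^ 3 + B2 * (x₁ * x₂) + α * (x₁ + x₂) + β = 0 ∧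
    -(x₁ + x₂) ^ 4 + 8 * (x₁ + x₂) ^ 2 * (x₁ * x₂) - 10 * (x₁ * x₂) ^ 2
      + B2 * (x₁ + x₂) * (x₁ * x₂) + α * ((x₁ + x₂) ^ 2 + 2 * (x₁ * x₂))
      + 3 * β * (x₁ + x₂) = 0 := by
  have hsub : x₁ - x₂ ≠ 0 := sub_ne_zero.mpr hne
  constructor
  · apply mul_left_cancel₀ hsub
    linear_combination h1 - h2
  · linear_combination h1 + h2

end Cycle

section Rational

/-- `5` is not a rational square. -/
theorem sq_ne_five (r : ℚ) : r ^ 2 ≠ 5 := by
  intro h
  have h5 : IsSquare (5 : ℚ) := ⟨r, by rw [← h]; ring⟩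
  rw [Rat.isSquare_iff] at h5
  obtain ⟨⟨a, ha⟩, -⟩ := h5
  have ha' : a * a = 5 := by simpa using ha.symm
  have h1 : a.natAbs * a.natAbs = 5 := by
    have := congrArg Int.natAbs ha'
    simpa [Int.natAbs_mul] using this
  have h2 : a.natAbs ≤ 2 := by nlinarith
  interval_cases a.natAbs <;> omega

/-- The `j = 0` case: no rational 5-cycle data. -/
theorem no_cycle_j0 (β p q : ℚ) (hβ : β ≠ 0)
    (hD : 6 * p * q - p ^ 3 + β = 0)
    (hS : -p ^ 4 + 8 * p ^ 2 * q - 10 * q ^ 2 + 3 * β * p = 0) : False := by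
  have h : p ^ 4 - 5 * p ^ 2 * q - 5 * q ^ 2 = 0 := by linear_combination (1 / 2) * hS - (3 / 2) * p * hD
  by_cases hp : p = 0
  · subst hp
    have hq : q = 0 := by
      have : q ^ 2 = 0 := by linear_combination (-1 / 5) * h
      exact pow_eq_zero_iff (two_ne_zero) |>.mp this
    subst hq
    apply hβ
    linear_combination hD
  · apply sq_ne_five ((10 * q + 5 * p ^ 2) / (3 * p ^ 2))
    field_simp
    linear_combination (-20) * h

/-- Main rational analysis on the `τ`-model of `X₀(15)`. -/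
theorem tau_list (hcub : CubicPoints) (τ p q : ℚ) (hτ27 : τ ≠ 27) (hq : q ≠ 0)
    (hpq : p ^ 2 - 4 * q ≠ 0)
    (hD : 6 * p * q - p ^ 3 + τ * (p + q + 1) = 0)
    (hS : -p ^ 4 + 8 * p ^ 2 * q - 10 * q ^ 2 + τ * (p ^ 2 + p * q + 3 * p + 2 * q) = 0) :
    τ = -5 ∨ τ = 25 ∨ τ = -675 / 2 ∨ τ = 135 / 32 := by
  have hC : p ^ 2 * (p + q) ^ 2 = q * (5 * p ^ 2 + 11 * p * q + 5 * q ^ 2 + 5 * q) := by
    linear_combination (1 / 2) * (p + q + 1) * hS - (1 / 2) * (p ^ 2 + p * q + 3 * p + 2 * q) * hD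
  by_cases hp : p = 0
  · subst hp
    have hq1 : q = -1 := by
      have h1 : q ^ 2 * (q + 1) = 0 := by linear_combination (-1 / 5) * hC
      rcases mul_eq_zero.mp h1 with h | h
      · exact absurd (pow_eq_zero_iff two_ne_zero |>.mp h) hq
      · linarith
    subst hq1
    left
    linarith
  · obtain ⟨m, hm⟩ : ∃ m : ℚ, q = m * p ^ 2 := ⟨q / p ^ 2, by field_simp⟩
    subst hm
    have hquad : (1 - 5 * m) * (m * p) ^ 2 + (2 - 11 * m) * (m * p) + (1 - 5 * m - 5 * m ^ 2) = 0 := by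
      have h4 : p ^ 4 * ((1 - 5 * m) * (m * p) ^ 2 + (2 - 11 * m) * (m * p)
          + (1 - 5 * m - 5 * m ^ 2)) = 0 := by linear_combination hC
      exact (mul_eq_zero.mp h4).resolve_left (pow_ne_zero 4 hp)
    have hY : (100 * (2 * (1 - 5 * m) * (m * p) + (2 - 11 * m))) ^ 2
        = (-100 * m) * ((-100 * m) + 16) * ((-100 * m) + 25) := by
      linear_combination (40000 * (1 - 5 * m)) * hquad
    rcases hcub _ _ hY with h | h | h | h | h
    · -- m = 0
      have hm0 : m = 0 := by linarith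
      exact absurd (by rw [hm0]; ring) hq
    · -- m = 4/25
      have hm0 : m = 4 / 25 := by linarith
      subst hm0
      have hP : (5 * (4 / 25 * p) + 3) ^ 2 = 0 := by linear_combination 125 * hquad
      have hp' : p = -15 / 4 := by
        have := pow_eq_zero_iff (two_ne_zero) |>.mp hP
        linarith
      subst hp'
      right; right; right
      linarith
    · -- m = 1/4
      have hm0 : m = 1 / 4 := by linarith
      subst hm0
      exact absurd (by ring) hpq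
    · -- m = -1/5
      have hm0 : m = -1 / 5 := by linarith
      subst hm0
      have hP : (2 * (-1 / 5 * p) + 3) * (5 * (-1 / 5 * p) + 3) = 0 := by
        linear_combination 5 * hquad
      rcases mul_eq_zero.mp hP with h' | h'
      · have hp' : p = 15 / 2 := by linarith
        subst hp'
        right; right; left
        linarith
      · have hp' : p = 3 := by linarith
        subst hp'
        exfalso
        apply hτ27
        linarith
    · -- m = 1/5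
      have hm0 : m = 1 / 5 := by linarith
      subst hm0
      have hp' : p = -5 := by linarith
      subst hp'
      right; left
      linarith

end Rational


section Main

local notation "Qbar" => AlgebraicClosure ℚ

/-- Package C of S51 (alternative): same statement as `exists_t`, from the rational points of
the cubic model `y² = X(X+16)(X+25)` of `X₀(15)`. -/
theorem exists_t_of_cubic (hcub : CubicPoints) (E : WeierstrassCurve ℚ) (hΔ : E.Δ ≠ 0)
    (x₀ : ℚ) (h3 : psi3 E x₀ = 0)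
    (s₁ s₂ : ℚ) (x₁ x₂ : Qbar)
    (hs₁ : x₁ + x₂ = algebraMap ℚ Qbar s₁) (hs₂ : x₁ * x₂ = algebraMap ℚ Qbar s₂) (hne : x₁ ≠ x₂)
    (h1 : psi2sq (E.map (algebraMap ℚ Qbar)) x₁ ≠ 0) (h2 : psi2sq (E.map (algebraMap ℚ Qbar)) x₂ ≠ 0)
    (hd1 : x₂ * psi2sq (E.map (algebraMap ℚ Qbar)) x₁ = phi2 (E.map (algebraMap ℚ Qbar)) x₁)
    (hd2 : x₁ * psi2sq (E.map (algebraMap ℚ Qbar)) x₂ = phi2 (E.map (algebraMap ℚ Qbar)) x₂) :
    ∃ t : ℚ, (t = -32 ∨ t = -2 ∨ t = -729 / 2 ∨ t = -729 / 32) ∧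
      E.c₄ ^ 3 * t = E.Δ * (t + 27) * (t + 3) ^ 3 := by
  -- notation
  set ι : ℚ →+* Qbar := algebraMap ℚ Qbar with hι
  have hinj : Function.Injective ι := (algebraMap ℚ Qbar).injective
  have hb : 4 * E.b₈ = E.b₂ * E.b₆ - E.b₄ ^ 2 := E.b_relation
  -- translated invariants
  set B2 : ℚ := E.b₂ + 12 * x₀ with hB2
  set α : ℚ := E.b₄ + E.b₂ * x₀ + 6 * x₀ ^ 2 with hα
  set β : ℚ := 4 * x₀ ^ 3 + E.b₂ * x₀ ^ 2 + 2 * E.b₄ * x₀ + E.b₆ with hβ
  set p' : ℚ := s₁ - 2 * x₀ with hp'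
  set q' : ℚ := s₂ - x₀ * s₁ + x₀ ^ 2 with hq'
  have h3' : 3 * x₀ ^ 4 + E.b₂ * x₀ ^ 3 + 3 * E.b₄ * x₀ ^ 2 + 3 * E.b₆ * x₀ + E.b₈ = 0 := h3
  have hBβ : B2 * β = α ^ 2 := by
    rw [hB2, hα, hβ]; linear_combination 4 * h3' - hb
  have hc4 : E.c₄ = B2 ^ 2 - 24 * α := by
    rw [hB2, hα, WeierstrassCurve.c₄]; ring
  have hΔ' : E.Δ = α ^ 3 - 27 * β ^ 2 := by
    rw [hα, hβ, WeierstrassCurve.Δ]
    linear_combination (36 * (E.b₄ + E.b₂ * x₀ + 6 * x₀ ^ 2) - (E.b₂ + 12 * x₀) ^ 2) * h3'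
      + (-9 * (E.b₄ + E.b₂ * x₀ + 6 * x₀ ^ 2) + 6 * E.b₂ * x₀ + 36 * x₀ ^ 2) * hb
  have hβ0 : β ≠ 0 := by
    intro h0
    have hα0 : α = 0 := by
      have : α ^ 2 = 0 := by rw [← hBβ, h0, mul_zero]
      exact pow_eq_zero_iff two_ne_zero |>.mp this
    apply hΔ
    rw [hΔ', hα0, h0]; ring
  -- the relations over Qbar, with the b-invariants of the base change
  have e2 : (E.map ι).b₂ = ι E.b₂ := WeierstrassCurve.map_b₂ _ _
  have e4 : (E.map ι).b₄ = ι E.b₄ := WeierstrassCurve.map_b₄ _ _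
  have e6 : (E.map ι).b₆ = ι E.b₆ := WeierstrassCurve.map_b₆ _ _
  have e8 : (E.map ι).b₈ = ι E.b₈ := WeierstrassCurve.map_b₈ _ _
  simp only [psi2sq, phi2, e2, e4, e6, e8] at h1 h2 hd1 hd2
  have h3K : 3 * (ι x₀) ^ 4 + ι E.b₂ * (ι x₀) ^ 3 + 3 * ι E.b₄ * (ι x₀) ^ 2
      + 3 * ι E.b₆ * ι x₀ + ι E.b₈ = 0 := by
    have := congrArg ι h3'
    simpa [map_add, map_mul, map_pow] using this
  -- translated coordinates
  set y₁ : Qbar := x₁ - ι x₀ with hy₁
  set y₂ : Qbar := x₂ - ι x₀ with hy₂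
  have hyne : y₁ ≠ y₂ := fun h => hne (by linear_combination h)
  have hιB2 : ι B2 = ι E.b₂ + 12 * ι x₀ := by rw [hB2]; simp [map_add, map_mul]
  have hια : ι α = ι E.b₄ + ι E.b₂ * ι x₀ + 6 * (ι x₀) ^ 2 := by
    rw [hα]; simp [map_add, map_mul, map_pow]
  have hιβ : ι β = 4 * (ι x₀) ^ 3 + ι E.b₂ * (ι x₀) ^ 2 + 2 * ι E.b₄ * ι x₀ + ι E.b₆ := by
    rw [hβ]; simp [map_add, map_mul, map_pow]
  have hy1 : y₂ * (4 * y₁ ^ 3 + ι B2 * y₁ ^ 2 + 2 * ι α * y₁ + ι β)
      = y₁ ^ 4 - ι α * y₁ ^ 2 - 2 * ι β * y₁ := by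
    rw [hιB2, hια, hιβ, hy₁, hy₂]
    linear_combination hd1 - h3K
  have hy2 : y₁ * (4 * y₂ ^ 3 + ι B2 * y₂ ^ 2 + 2 * ι α * y₂ + ι β)
      = y₂ ^ 4 - ι α * y₂ ^ 2 - 2 * ι β * y₂ := by
    rw [hιB2, hια, hιβ, hy₁, hy₂]
    linear_combination hd2 - h3K
  obtain ⟨hDK, hSK⟩ := cycle_rel_gen (ι B2) (ι α) (ι β) y₁ y₂ hyne hy1 hy2
  have hsum : y₁ + y₂ = ι p' := by
    rw [hp', hy₁, hy₂]; simp only [map_sub, map_mul]; rw [← hs₁]; simp; ring
  have hprod : y₁ * y₂ = ι q' := by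
    rw [hq', hy₁, hy₂]; simp only [map_sub, map_add, map_mul, map_pow]; rw [← hs₁, ← hs₂]; ring
  rw [hsum, hprod] at hDK hSK
  have hDg : 6 * p' * q' - p' ^ 3 + B2 * q' + α * p' + β = 0 := by
    apply hinj
    simpa [map_add, map_sub, map_mul, map_pow] using hDK
  have hSg : -p' ^ 4 + 8 * p' ^ 2 * q' - 10 * q' ^ 2 + B2 * p' * q' + α * (p' ^ 2 + 2 * q')
      + 3 * β * p' = 0 := by
    apply hinj
    simpa [map_add, map_sub, map_mul, map_pow, map_neg] using hSK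
  have hιβ0 : ι β ≠ 0 := fun h => hβ0 (hinj (by rw [h, map_zero]))
  -- nondegeneracy
  have hq'0 : q' ≠ 0 := by
    intro h0
    have hy : y₁ * y₂ = 0 := by rw [hprod, h0, map_zero]
    rcases mul_eq_zero.mp hy with h | h
    · rw [h] at hy1
      have : y₂ * ι β = 0 := by linear_combination hy1
      rcases mul_eq_zero.mp this with h' | h'
      · exact hyne (by rw [h, h'])
      · exact hιβ0 h'
    · rw [h] at hy2
      have : y₁ * ι β = 0 := by linear_combination hy2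
      rcases mul_eq_zero.mp this with h' | h'
      · exact hyne (by rw [h, h'])
      · exact hιβ0 h'
  have hpq' : p' ^ 2 - 4 * q' ≠ 0 := by
    intro h0
    have : (y₁ - y₂) ^ 2 = 0 := by
      have h := congrArg ι h0
      simp only [map_sub, map_mul, map_pow, map_zero] at h
      rw [← hsum, ← hprod] at h
      have h4 : ι 4 = 4 := map_ofNat ι 4
      rw [h4] at h
      linear_combination h
    exact hyne (sub_eq_zero.mp (pow_eq_zero_iff two_ne_zero |>.mp this))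
  by_cases hα0 : α = 0
  · -- j = 0 : impossible
    exfalso
    have hB20 : B2 = 0 := by
      have : B2 * β = 0 := by rw [hBβ, hα0]; ring
      exact (mul_eq_zero.mp this).resolve_right hβ0
    rw [hα0, hB20] at hDg hSg
    exact no_cycle_j0 β p' q' hβ0 (by linear_combination hDg) (by linear_combination hSg)
  · obtain ⟨r, hr⟩ : ∃ r : ℚ, α = r * β := ⟨α / β, by field_simp⟩
    have hr0 : r ≠ 0 := fun h => hα0 (by rw [hr, h, zero_mul])
    have hB2r : B2 = r ^ 2 * β := by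
      apply mul_right_cancel₀ hβ0
      rw [hBβ, hr]; ring
    rw [hr, hB2r] at hDg hSg
    have hτ27 : r ^ 3 * β ≠ 27 := by
      intro h
      apply hΔ
      rw [hΔ', hr]
      linear_combination β ^ 2 * h
    have hlist := tau_list hcub (r ^ 3 * β) (r * p') (r ^ 2 * q') hτ27
      (mul_ne_zero (pow_ne_zero 2 hr0) hq'0)
      (by
        have : (r * p') ^ 2 - 4 * (r ^ 2 * q') = r ^ 2 * (p' ^ 2 - 4 * q') := by ring
        rw [this]
        exact mul_ne_zero (pow_ne_zero 2 hr0) hpq')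
      (by linear_combination r ^ 3 * hDg)
      (by linear_combination r ^ 4 * hSg)
    refine ⟨r ^ 3 * β - 27, ?_, ?_⟩
    · rcases hlist with h | h | h | h
      · left; linarith
      · right; left; linarith
      · right; right; left; linarith
      · right; right; right; linarith
    · rw [hc4, hΔ', hr, hB2r]; ring

end Main

end Fermat.Agent.S51.Tau
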