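import Fermat.Agent.S51.X15Model

set_option autoImplicit false

namespace Fermat.Agent.S51.X15

theorem cub_ne_zero (k ξ : ℚ) (hΦ : Phi k ξ = 0) (hs : 2*k-11 ≠ 0) : cub k ξ ≠ 0 := by
  intro hf
  have h := bezout k ξ
  rw [hΦ, hf, mul_zero, mul_zero, sub_zero] at h
  have hK : (k^2+1 : ℚ) ≠ 0 := by positivity
  have : (4*(k^2+1)^3*(2*k-11) : ℚ) ≠ 0 := by positivity
  exact this h.symm

theorem sq_sub_ne_zero (k ξ : ℚ) (hΦ : Phi k ξ = 0) : ξ^2-(k^2+1) ≠ 0 := by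
  intro hA
  have h := phi_mod k ξ
  rw [hΦ, hA, mul_zero, zero_add] at h
  have hK : (k^2+1 : ℚ) ≠ 0 := by positivity
  have h1 : ξ + k = 0 := by
    have : (16*(k^2+1)^2 : ℚ) ≠ 0 := by positivity
    rcases mul_eq_zero.mp h.symm with h2 | h2
    · exact absurd h2 this
    · exact h2
  have h2 : ξ = -k := by linarith
  rw [h2] at hA
  nlinarith

/-- The core of package C in the `(k, ξ)`-model: a rational point of `Phi = 0` gives one of the
four exceptional values of the `3`-isogeny parameter `t = 4K³s/f²`. -/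
theorem core (k ξ : ℚ) (hΦ : Phi k ξ = 0) (hs : 2*k-11 ≠ 0)
    (hD : ∀ v y : ℚ, y^2 = (v^2+v-1)*(v^2-11*v-1) → v = 0 ∨ v = -2 ∨ v = 1/2) :
    ∃ t : ℚ, (t = -32 ∨ t = -2 ∨ t = -729/2 ∨ t = -729/32) ∧
      t * (cub k ξ)^2 = 4*(k^2+1)^3*(2*k-11) := by
  have hK : (k^2+1 : ℚ) ≠ 0 := by positivity
  have hf := cub_ne_zero k ξ hΦ hs
  have hA := sq_sub_ne_zero k ξ hΦ
  have hG := G_eq_zero k ξ hΦ
  set f := cub k ξ with hfdef
  set A := ξ^2-(k^2+1) with hAdef
  set s := 2*k-11 with hsdef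
  set K := k^2+1 with hKdef
  set u : ℚ := K*s*A^2/(36*f^2) with hu
  set v : ℚ := -16*f^2/(s*A^3) with hv
  have hB : 9*u^2*v + u*(1+5*v-v^2) + v = 0 := by
    have h1 : (9*u^2*v + u*(1+5*v-v^2) + v) * ((36*f^2)^2*(s*A^3)^2) =
        36*s*A^2*f^2 * Gpoly k ξ := by
      rw [hu, hv]
      unfold Gpoly
      rw [← hfdef, ← hAdef, ← hsdef, ← hKdef]
      field_simp
      ring
    rw [hG, mul_zero] at h1
    have h2 : ((36*f^2)^2*(s*A^3)^2 : ℚ) ≠ 0 := by positivity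
    rcases mul_eq_zero.mp h1 with h3 | h3
    · exact h3
    · exact absurd h3 h2
  have hY : (18*u*v + 1 + 5*v - v^2)^2 = (v^2+v-1)*(v^2-11*v-1) := by
    linear_combination 36*v*hB
  have hv0 : v ≠ 0 := by
    rw [hv]
    positivity
  have hu2 : 18*u^2 + 13*u + 2 = 0 := by
    rcases hD v _ hY with h | h | h
    · exact absurd h hv0
    · rw [h] at hB
      linear_combination (-1 : ℚ) * hB
    · rw [h] at hB
      linear_combination (4 : ℚ) * hB
  have hu3 : u = -2/9 ∨ u = -1/2 := by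
    have : (9*u+2)*(2*u+1) = 0 := by linear_combination hu2
    rcases mul_eq_zero.mp this with h | h
    · left; linarith
    · right; linarith
  have ht : 729*u^3*v^2 * f^2 = 4*K^3*s := by
    rw [hu, hv]
    field_simp
    ring
  refine ⟨729*u^3*v^2, ?_, ht⟩
  rcases hD v _ hY with h | h | h
  · exact absurd h hv0
  · rcases hu3 with h' | h'
    · left; rw [h, h']; norm_num
    · right; right; left; rw [h, h']; norm_num
  · rcases hu3 with h' | h'
    · right; left; rw [h, h']; norm_num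
    · right; right; right; rw [h, h']; norm_num

theorem jt_relation (k ξ : ℚ) (hΦ : Phi k ξ = 0) (hf : cub k ξ ≠ 0) (t : ℚ)
    (ht : t * (cub k ξ)^2 = 4*(k^2+1)^3*(2*k-11)) :
    64*(k^2-6*k+4)^3*t = (2*k-11)*(t+27)*(t+3)^3 := by
  have hK : (k^2+1 : ℚ) ≠ 0 := by positivity
  have hH := H_eq_zero k ξ hΦ
  rw [← ht] at hH
  have h1 : (cub k ξ)^6 * (256*(k^2+1)^3*(k^2-6*k+4)^3 - (cub k ξ)^2*(t+27)*(t+3)^3) = 0 := by
    linear_combination hH
  have h2 : 256*(k^2+1)^3*(k^2-6*k+4)^3 - (cub k ξ)^2*(t+27)*(t+3)^3 = 0 := by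
    rcases mul_eq_zero.mp h1 with h | h
    · exact absurd h (pow_ne_zero 6 hf)
    · exact h
  have h3 : 4*(k^2+1)^3 * (64*(k^2-6*k+4)^3*t - (2*k-11)*(t+27)*(t+3)^3) = 0 := by
    linear_combination t * h2 + (t+27)*(t+3)^3 * ht
  rcases mul_eq_zero.mp h3 with h | h
  · exact absurd h (by positivity)
  · linarith

end Fermat.Agent.S51.X15
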