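import Fermat.Agent.S51.Defs
import Fermat.Agent.S51.X15Core

set_option autoImplicit false

namespace Fermat.Agent.S51.X15

/-- Step 1 (in any field of characteristic `≠ 2`): the two duplication relations for the pair
`x₁ = r + e`, `x₂ = r - e` (`e² = n`, `e ≠ 0`) amount to two relations between `n` and the
translated `b`-invariants. -/
theorem bridge1 {L : Type*} [Field L] (h2 : (2 : L) ≠ 0) (b2 b4 b6 b8 r n e x1 x2 : L)
    (hx1 : x1 = r + e) (hx2 : x2 = r - e) (he : e^2 = n) (he0 : e ≠ 0)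
    (E1 : x2 * (4*x1^3 + b2*x1^2 + 2*b4*x1 + b6) = x1^4 - b4*x1^2 - 2*b6*x1 - b8)
    (E2 : x1 * (4*x2^3 + b2*x2^2 + 2*b4*x2 + b6) = x2^4 - b4*x2^2 - 2*b6*x2 - b8) :
    -5*n^2 - (b4 + r*b2 + 6*r^2)*n + (b8 + 3*r*b6 + 3*r^2*b4 + r^3*b2 + 3*r^4) = 0 ∧
      (b6 + 2*r*b4 + r^2*b2 + 4*r^3) - (b2 + 12*r)*n = 0 := by
  subst hx1 hx2
  have hp : (-5*n^2 - (b4 + r*b2 + 6*r^2)*n + (b8 + 3*r*b6 + 3*r^2*b4 + r^3*b2 + 3*r^4)) +
      ((b6 + 2*r*b4 + r^2*b2 + 4*r^3) - (b2 + 12*r)*n) * e = 0 := by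
    linear_combination E1 - (- b2*r - b2*e - b4 - 6*r^2 - 12*r*e - 5*n - 5*e^2) * he
  have hm : (-5*n^2 - (b4 + r*b2 + 6*r^2)*n + (b8 + 3*r*b6 + 3*r^2*b4 + r^3*b2 + 3*r^4)) -
      ((b6 + 2*r*b4 + r^2*b2 + 4*r^3) - (b2 + 12*r)*n) * e = 0 := by
    linear_combination E2 - (- b2*r + b2*e - b4 - 6*r^2 + 12*r*e - 5*n - 5*e^2) * he
  constructor
  · have : 2 * (-5*n^2 - (b4 + r*b2 + 6*r^2)*n + (b8 + 3*r*b6 + 3*r^2*b4 + r^3*b2 + 3*r^4)) = 0 := by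
      linear_combination hp + hm
    rcases mul_eq_zero.mp this with h | h
    · exact absurd h h2
    · exact h
  · have : (2 * e) * ((b6 + 2*r*b4 + r^2*b2 + 4*r^3) - (b2 + 12*r)*n) = 0 := by
      linear_combination hp - hm
    rcases mul_eq_zero.mp this with h | h
    · exact absurd h (mul_ne_zero h2 he0)
    · exact h

/-- Step 2 (over `ℚ`): from the two relations and a rational root of `Ψ₃` we get the conclusion of
package C. -/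
theorem bridge2 (b2 b4 b6 b8 r n x0 : ℚ) (hrel : 4*b8 = b2*b6 - b4^2) (hn : n ≠ 0)
    (hΔ : -b2^2*b8 - 8*b4^3 - 27*b6^2 + 9*b2*b4*b6 ≠ 0)
    (hα : -5*n^2 - (b4 + r*b2 + 6*r^2)*n + (b8 + 3*r*b6 + 3*r^2*b4 + r^3*b2 + 3*r^4) = 0)
    (hβ : (b6 + 2*r*b4 + r^2*b2 + 4*r^3) - (b2 + 12*r)*n = 0)
    (h3 : 3*x0^4 + b2*x0^3 + 3*b4*x0^2 + 3*b6*x0 + b8 = 0)
    (hD : ∀ v y : ℚ, y^2 = (v^2+v-1)*(v^2-11*v-1) → v = 0 ∨ v = -2 ∨ v = 1/2) :
    ∃ t : ℚ, (t = -32 ∨ t = -2 ∨ t = -729/2 ∨ t = -729/32) ∧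
      (b2^2 - 24*b4)^3 * t = (-b2^2*b8 - 8*b4^3 - 27*b6^2 + 9*b2*b4*b6) * (t+27) * (t+3)^3 := by
  -- translated invariants
  set B2 := b2 + 12*r with hB2
  set B4 := b4 + r*b2 + 6*r^2 with hB4
  set B6 := b6 + 2*r*b4 + r^2*b2 + 4*r^3 with hB6
  set B8 := b8 + 3*r*b6 + 3*r^2*b4 + r^3*b2 + 3*r^4 with hB8
  have hRel : 4*B8 = B2*B6 - B4^2 := by
    rw [hB2, hB4, hB6, hB8]; linear_combination hrel
  have hc4 : b2^2 - 24*b4 = B2^2 - 24*B4 := by rw [hB2, hB4]; ring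
  have hDel : -b2^2*b8 - 8*b4^3 - 27*b6^2 + 9*b2*b4*b6 =
      -B2^2*B8 - 8*B4^3 - 27*B6^2 + 9*B2*B4*B6 := by
    rw [hB2, hB4, hB6, hB8]; linear_combination (6*b2*r + 36*r^2) * hrel
  have hX : 3*x0^4 + b2*x0^3 + 3*b4*x0^2 + 3*b6*x0 + b8 =
      3*(x0-r)^4 + B2*(x0-r)^3 + 3*B4*(x0-r)^2 + 3*B6*(x0-r) + B8 := by
    rw [hB2, hB4, hB6, hB8]; ring
  rw [hX] at h3
  rw [hc4, hDel]
  rw [hDel] at hΔ
  clear hX hc4 hDel hrel
  have h6 : B6 = B2*n := by linarith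
  have h8 : B8 = 5*n^2 + B4*n := by linarith
  clear_value B2 B4 B6 B8
  subst h6 h8
  -- parameters
  set a := B2/4 with ha
  set k := (B4 + 2*n)/(4*n) with hk
  have hB2a : B2 = 4*a := by rw [ha]; ring
  have hB4k : B4 = 2*n*(2*k-1) := by rw [hk]; field_simp; ring
  have hKn : n*(k^2+1) = a^2 := by
    have h1 : (B4 + 2*n)^2 + 16*n^2 = B2^2*n := by linear_combination hRel
    have h2 : B4 + 2*n = 4*n*k := by rw [hk]; field_simp
    rw [h2, hB2a] at h1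
    have h3' : 16*n*(n*(k^2+1) - a^2) = 0 := by linear_combination h1
    rcases mul_eq_zero.mp h3' with h | h
    · exact absurd h (by positivity)
    · linarith
  have hK : (k^2+1 : ℚ) ≠ 0 := by positivity
  have ha0 : a ≠ 0 := by
    intro h
    rw [h] at hKn
    have : n*(k^2+1) ≠ 0 := mul_ne_zero hn hK
    exact this (by linarith)
  have hna : n = a^2/(k^2+1) := by field_simp; linarith
  clear_value a k
  subst hB2a hB4k
  set ξ := (x0 - r)*(k^2+1)/a with hξ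
  have hXξ : x0 - r = a*ξ/(k^2+1) := by rw [hξ]; field_simp
  have hΦ : Phi k ξ = 0 := by
    have h4 : Phi k ξ * (a^4/(k^2+1)^4) = 0 := by
      rw [← h3, hXξ, hna]
      unfold Phi
      field_simp
      ring
    rcases mul_eq_zero.mp h4 with h | h
    · exact h
    · exact absurd h (by positivity)
  have hΔ' : -(4*a)^2*(5*n^2 + 2*n*(2*k-1)*n) - 8*(2*n*(2*k-1))^3 - 27*(4*a*n)^2
      + 9*(4*a)*(2*n*(2*k-1))*(4*a*n) = 64*a^6*(2*k-11)/(k^2+1)^3 := by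
    rw [hna]; field_simp; ring
  have hc4' : (4*a)^2 - 24*(2*n*(2*k-1)) = 16*a^2*(k^2-6*k+4)/(k^2+1) := by
    rw [hna]; field_simp; ring
  rw [hΔ'] at hΔ ⊢
  rw [hc4']
  have hs : 2*k - 11 ≠ 0 := by
    intro h
    apply hΔ
    rw [h]; simp
  obtain ⟨t, htl, ht⟩ := core k ξ hΦ hs hD
  have hf := cub_ne_zero k ξ hΦ hs
  have hjt := jt_relation k ξ hΦ hf t ht
  refine ⟨t, htl, ?_⟩
  have key : ∀ K : ℚ, (16*a^2*(k^2-6*k+4)/K)^3*t = 64*a^6*(2*k-11)/K^3*(t+27)*(t+3)^3 := by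
    intro K
    linear_combination (64 * a^6 / K^3) * hjt
  exact key _

end Fermat.Agent.S51.X15

namespace Fermat.Agent.S51.X15

open Fermat.Agent.S51

/-- Package C of S51 (in the signature of the S51 interface), with the descent on the Fricke
quartic as an explicit hypothesis. `L` is any field extension of `ℚ` (e.g. `AlgebraicClosure ℚ`). -/
theorem exists_t_of_descent {L : Type*} [Field L] [CharZero L] [Algebra ℚ L]
    (E : WeierstrassCurve ℚ) (hΔ : E.Δ ≠ 0) (x₀ : ℚ) (h3 : psi3 E x₀ = 0)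
    (s₁ s₂ : ℚ) (x₁ x₂ : L)
    (h1 : x₁ + x₂ = algebraMap ℚ L s₁) (h2 : x₁ * x₂ = algebraMap ℚ L s₂) (hne : x₁ ≠ x₂)
    (he1 : x₂ * psi2sq (E.map (algebraMap ℚ L)) x₁ = phi2 (E.map (algebraMap ℚ L)) x₁)
    (he2 : x₁ * psi2sq (E.map (algebraMap ℚ L)) x₂ = phi2 (E.map (algebraMap ℚ L)) x₂)
    (hD : ∀ v y : ℚ, y^2 = (v^2+v-1)*(v^2-11*v-1) → v = 0 ∨ v = -2 ∨ v = 1/2) :
    ∃ t : ℚ, (t = -32 ∨ t = -2 ∨ t = -729/2 ∨ t = -729/32) ∧
      E.c₄^3 * t = E.Δ * (t+27) * (t+3)^3 := by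
  set c := algebraMap ℚ L with hc
  set r : ℚ := s₁/2 with hr
  set n : ℚ := r^2 - s₂ with hn
  set e : L := x₁ - c r with he
  have hs1 : c s₁ = 2 * c r := by
    rw [hr, ← map_ofNat c 2, ← map_mul]
    congr 1
    ring
  have hx1 : x₁ = c r + e := by rw [he]; ring
  have hx2 : x₂ = c r - e := by
    rw [he]
    linear_combination h1 + hs1
  have hsq : e^2 = c n := by
    rw [hn, map_sub, map_pow]
    rw [hx1, hx2] at h2
    linear_combination -h2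
  have he0 : e ≠ 0 := by
    intro h
    apply hne
    rw [hx1, hx2, h]
    ring
  have hn0 : n ≠ 0 := by
    intro h
    rw [h, map_zero] at hsq
    exact he0 (pow_eq_zero_iff (two_ne_zero) |>.mp hsq)
  unfold psi2sq phi2 at he1 he2
  simp only [WeierstrassCurve.map_b₂, WeierstrassCurve.map_b₄, WeierstrassCurve.map_b₆,
    WeierstrassCurve.map_b₈] at he1 he2
  obtain ⟨hα, hβ⟩ := bridge1 (two_ne_zero) (c E.b₂) (c E.b₄) (c E.b₆) (c E.b₈) (c r) (c n) e x₁ x₂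
    hx1 hx2 hsq he0 he1 he2
  have hα' : -5*n^2 - (E.b₄ + r*E.b₂ + 6*r^2)*n +
      (E.b₈ + 3*r*E.b₆ + 3*r^2*E.b₄ + r^3*E.b₂ + 3*r^4) = 0 := by
    apply (algebraMap ℚ L).injective
    rw [map_zero, ← hα]
    simp only [map_add, map_sub, map_mul, map_pow, map_neg, map_ofNat, ← hc]
  have hβ' : (E.b₆ + 2*r*E.b₄ + r^2*E.b₂ + 4*r^3) - (E.b₂ + 12*r)*n = 0 := by
    apply (algebraMap ℚ L).injective
    rw [map_zero, ← hβ]
    simp only [map_add, map_sub, map_mul, map_pow, map_ofNat, ← hc]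
  have hrel : 4 * E.b₈ = E.b₂ * E.b₆ - E.b₄^2 := E.b_relation
  unfold psi3 at h3
  unfold WeierstrassCurve.Δ at hΔ
  unfold WeierstrassCurve.c₄ WeierstrassCurve.Δ
  exact bridge2 E.b₂ E.b₄ E.b₆ E.b₈ r n x₀ hrel hn0 hΔ hα' hβ' h3 hD

end Fermat.Agent.S51.X15
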