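import Mathlib

set_option autoImplicit false

/-!
# A plane quartic model of `X₀(15)` and its map to the Fricke quartic

`Phi k ξ = 0` is the condition that `ξ` is the `x`-coordinate of a point of order `3` on the curve
`y² = x³ + K x² + K(2k-1) x + K²`, `K = k² + 1`, which carries the `5`-isogeny kernel polynomial
`x² - K`.  We prove (by explicit polynomial certificates) that the functions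
`u = K s A² / (36 f²)`, `v = -16 f² / (s A³)` (`s = 2k - 11`, `A = ξ² - K`, `f = cub k ξ`)
satisfy `9u²v + u(1 + 5v - v²) + v = 0`, and that `t = 4K³s/f²` satisfies
`64 (k²-6k+4)³ t = s (t+27)(t+3)³`.
-/

namespace Fermat.Agent.S51.X15

section field

variable {F : Type*} [Field F]

/-- The plane quartic model of `X₀(15)`. -/
def Phi (k ξ : F) : F :=
  3*ξ^4 + 4*(k^2+1)*ξ^3 + 6*(k^2+1)*(2*k-1)*ξ^2 + 12*(k^2+1)^2*ξ + (k^2+1)^2*(4*k+3)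

/-- The cubic `x³ + K x² + K(2k-1) x + K²`. -/
def cub (k ξ : F) : F := ξ^3 + (k^2+1)*ξ^2 + (k^2+1)*(2*k-1)*ξ + (k^2+1)^2

/-- The polynomial identity behind `9u²v + u(1 + 5v - v²) + v = 0`. -/
def Gpoly (k ξ : F) : F :=
  (k^2+1)*(2*k-11)^2*(ξ^2-(k^2+1))^6 - 4*(k^2+1)^2*(2*k-11)^2*(ξ^2-(k^2+1))^5
      - 80*(k^2+1)*(2*k-11)*(ξ^2-(k^2+1))^3*(cub k ξ)^2 - 256*(k^2+1)*(cub k ξ)^4
      - 576*(ξ^2-(k^2+1))*(cub k ξ)^4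

theorem G_eq_zero (k ξ : F) (h : Phi k ξ = 0) : Gpoly k ξ = 0 := by
  unfold Phi at h
  unfold Gpoly cub
  linear_combination
    (- 192*ξ^10 - 512*k^2*ξ^9 - 512*ξ^9 - 468*k^4*ξ^8 - 836*k^3*ξ^8 - 113*k^2*ξ^8
      - 836*k*ξ^8 + 355*ξ^8 - 144*k^6*ξ^7 - 1552*k^5*ξ^7 + 764*k^4*ξ^7 - 3104*k^3*ξ^7
      + 1960*k^2*ξ^7 - 1552*k*ξ^7 + 1052*ξ^7 - 720*k^7*ξ^6 - 1040*k^6*ξ^6 + 180*k^5*ξ^6
      - 3240*k^4*ξ^6 + 2520*k^3*ξ^6 - 3360*k^2*ξ^6 + 1620*k*ξ^6 - 1160*ξ^6 - 1360*k^8*ξ^5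
      + 1680*k^7*ξ^5 - 5060*k^6*ξ^5 + 5040*k^5*ξ^5 - 7020*k^4*ξ^5 + 5040*k^3*ξ^5 - 4300*k^2*ξ^5
      + 1680*k*ξ^5 - 980*ξ^5 - 1040*k^9*ξ^4 + 2440*k^8*ξ^4 - 5812*k^7*ξ^4 + 8846*k^6*ξ^4
      - 11196*k^5*ξ^4 + 11898*k^4*ξ^4 - 9116*k^3*ξ^4 + 7018*k^2*ξ^4 - 2692*k*ξ^4 + 1526*ξ^4
      + 80*k^10*ξ^3 + 272*k^9*ξ^3 + 404*k^8*ξ^3 + 1088*k^7*ξ^3 + 816*k^6*ξ^3 + 1632*k^5*ξ^3
      + 824*k^4*ξ^3 + 1088*k^3*ξ^3 + 416*k^2*ξ^3 + 272*k*ξ^3 + 84*ξ^3 + 656*k^11*ξ^2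
      - 912*k^10*ξ^2 + 3804*k^9*ξ^2 - 4192*k^8*ξ^2 + 8656*k^7*ξ^2 - 7648*k^6*ξ^2 + 9704*k^5*ξ^2
      - 6912*k^4*ξ^2 + 5376*k^3*ξ^2 - 3088*k^2*ξ^2 + 1180*k*ξ^2 - 544*ξ^2 + 400*k^12*ξ
      - 400*k^11*ξ + 2100*k^10*ξ - 2000*k^9*ξ + 4500*k^8*ξ - 4000*k^7*ξ + 5000*k^6*ξ
      - 4000*k^5*ξ + 3000*k^4*ξ - 2000*k^3*ξ + 900*k^2*ξ - 400*k*ξ + 100*ξ
      + 80*k^13 - 20*k^12 + 360*k^11 - 85*k^10 + 600*k^9 - 125*k^8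
      + 400*k^7 - 50*k^6 + 50*k^4 - 120*k^3 + 55*k^2 - 40*k
      + 15) * h

theorem H_eq_zero (k ξ : F) (h : Phi k ξ = 0) :
    256*(k^2+1)^3*(k^2-6*k+4)^3*(cub k ξ)^6
      - (4*(k^2+1)^3*(2*k-11) + 27*(cub k ξ)^2) * (4*(k^2+1)^3*(2*k-11) + 3*(cub k ξ)^2)^3 = 0 := by
  unfold Phi at h
  unfold cub
  linear_combination
    (- 243*ξ^20 - 1620*k^2*ξ^19 - 1620*ξ^19 - 4644*k^4*ξ^18 - 2916*k^3*ξ^18 - 7830*k^2*ξ^18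
      - 2916*k*ξ^18 - 3186*ξ^18 - 7416*k^6*ξ^17 - 16848*k^5*ξ^17 - 14796*k^4*ξ^17 - 33696*k^3*ξ^17
      - 7344*k^2*ξ^17 - 16848*k*ξ^17 + 36*ξ^17 - 7122*k^8*ξ^16 - 40608*k^7*ξ^16 - 29568*k^6*ξ^16
      - 105948*k^5*ξ^16 - 34065*k^4*ξ^16 - 90072*k^3*ξ^16 - 7914*k^2*ξ^16 - 24732*k*ξ^16 + 3705*ξ^16
      - 4112*k^10*ξ^15 - 52272*k^9*ξ^15 - 84064*k^8*ξ^15 - 143856*k^7*ξ^15 - 231632*k^6*ξ^15 - 117936*k^5*ξ^15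
      - 231632*k^4*ξ^15 - 13392*k^3*ξ^15 - 84064*k^2*ξ^15 + 12960*k*ξ^15 - 4112*ξ^15 - 1236*k^12*ξ^14
      - 39432*k^11*ξ^14 - 143148*k^10*ξ^14 - 179016*k^9*ξ^14 - 466188*k^8*ξ^14 - 306840*k^7*ξ^14 - 539964*k^6*ξ^14
      - 240744*k^5*ξ^14 - 235704*k^4*ξ^14 - 79872*k^3*ξ^14 - 7944*k^2*ξ^14 - 6384*k*ξ^14 + 12072*ξ^14
      + 216*k^14*ξ^13 - 21840*k^13*ξ^13 - 99792*k^12*ξ^13 - 407568*k^11*ξ^13 - 124992*k^10*ξ^13 - 1595328*k^9*ξ^13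
      + 587664*k^8*ξ^13 - 2742432*k^7*ξ^13 + 1597176*k^6*ξ^13 - 2403408*k^5*ξ^13 + 1517040*k^4*ξ^13 - 1054032*k^3*ξ^13
      + 617904*k^2*ξ^13 - 183456*k*ξ^13 + 85392*ξ^13 + 749*k^16*ξ^12 - 15168*k^15*ξ^12 + 8128*k^14*ξ^12
      - 565240*k^13*ξ^12 + 170102*k^12*ξ^12 - 2327856*k^11*ξ^12 + 744700*k^10*ξ^12 - 3960480*k^9*ξ^12 + 1482455*k^8*ξ^12
      - 3337280*k^7*ξ^12 + 1642324*k^6*ξ^12 - 1367448*k^5*ξ^12 + 1077428*k^4*ξ^12 - 210960*k^3*ξ^12 + 403912*k^2*ξ^12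
      + 1904*k*ξ^12 + 68330*ξ^12 + 708*k^18*ξ^11 - 10128*k^17*ξ^11 + 26772*k^16*ξ^11 - 194832*k^15*ξ^11
      - 847080*k^14*ξ^11 + 613872*k^13*ξ^11 - 5739096*k^12*ξ^11 + 6339216*k^11*ξ^11 - 15198612*k^10*ξ^11 + 16377840*k^9*ξ^11
      - 21339252*k^8*ξ^11 + 20648592*k^7*ξ^11 - 17065248*k^6*ξ^11 + 14054928*k^5*ξ^11 - 7572720*k^4*ξ^11 + 4945392*k^3*ξ^11
      - 1610856*k^2*ξ^11 + 701856*k*ξ^11 - 96792*ξ^11 + 336*k^20*ξ^10 - 2292*k^19*ξ^10 - 23694*k^18*ξ^10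
      + 233004*k^17*ξ^10 - 1492458*k^16*ξ^10 + 2332992*k^15*ξ^10 - 7889088*k^14*ξ^10 + 8717472*k^13*ξ^10 - 17935548*k^12*ξ^10
      + 17147652*k^11*ξ^10 - 21911970*k^10*ξ^10 + 20031828*k^9*ξ^10 - 15228654*k^8*ξ^10 + 14586264*k^7*ξ^10 - 5934828*k^6*ξ^10
      + 6668472*k^5*ξ^10 - 1269168*k^4*ξ^10 + 1825752*k^3*ξ^10 - 201348*k^2*ξ^10 + 239592*k*ξ^10 - 35436*ξ^10
      + 64*k^22*ξ^9 + 1248*k^21*ξ^9 - 28228*k^20*ξ^9 + 144944*k^19*ξ^9 - 247808*k^18*ξ^9 - 1332304*k^17*ξ^9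
      + 3287588*k^16*ξ^9 - 14817056*k^15*ξ^9 + 26059512*k^14*ξ^9 - 53762224*k^13*ξ^9 + 77131276*k^12*ξ^9 - 103972640*k^11*ξ^9
      + 123723616*k^10*ξ^9 - 120764656*k^9*ξ^9 + 118325892*k^8*ξ^9 - 86614304*k^7*ξ^9 + 68132888*k^6*ξ^9 - 37239856*k^5*ξ^9
      + 22260312*k^4*ξ^9 - 8636624*k^3*ξ^9 + 3426512*k^2*ξ^9 - 797888*k*ξ^9 + 117944*ξ^9 + 576*k^23*ξ^8
      - 3312*k^22*ξ^8 - 51372*k^21*ξ^8 + 564579*k^20*ξ^8 - 2453016*k^19*ξ^8 + 5342286*k^18*ξ^8 - 13846860*k^17*ξ^8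
      + 19225881*k^16*ξ^8 - 32592384*k^15*ξ^8 + 34215552*k^14*ξ^8 - 34920900*k^13*ξ^8 + 28480851*k^12*ξ^8 - 4641336*k^11*ξ^8
      - 316134*k^10*ξ^8 + 31051764*k^9*ξ^8 - 23587299*k^8*ξ^8 + 37305360*k^7*ξ^8 - 22921884*k^6*ξ^8 + 20312496*k^5*ξ^8
      - 10679958*k^4*ξ^8 + 5526144*k^3*ξ^8 - 2577852*k^2*ξ^8 + 600216*k*ξ^8 - 265398*ξ^8 + 2304*k^24*ξ^7
      - 31104*k^23*ξ^7 + 98856*k^22*ξ^7 + 328800*k^21*ξ^7 - 3229992*k^20*ξ^7 + 10569504*k^19*ξ^7 - 32699688*k^18*ξ^7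
      + 67745616*k^17*ξ^7 - 132776232*k^16*ξ^7 + 213079824*k^15*ξ^7 - 305239800*k^14*ξ^7 + 399101808*k^13*ξ^7 - 443877000*k^12*ξ^7
      + 479159184*k^11*ξ^7 - 426339192*k^10*ξ^7 + 377314704*k^9*ξ^7 - 272978088*k^8*ξ^7 + 192413616*k^7*ξ^7 - 114766032*k^6*ξ^7
      + 60211824*k^5*ξ^7 - 30521904*k^4*ξ^7 + 10167312*k^3*ξ^7 - 4817856*k^2*ξ^7 + 655584*k*ξ^7 - 382800*ξ^7
      + 5376*k^25*ξ^6 - 90720*k^24*ξ^6 + 567800*k^23*ξ^6 - 1725188*k^22*ξ^6 + 3002152*k^21*ξ^6 - 4444984*k^20*ξ^6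
      - 2962080*k^19*ξ^6 + 19533144*k^18*ξ^6 - 65234288*k^17*ξ^6 + 139277784*k^16*ξ^6 - 240379216*k^15*ξ^6 + 375330840*k^14*ξ^6
      - 478004912*k^13*ξ^6 + 588557088*k^12*ξ^6 - 601487488*k^11*ξ^6 + 592825296*k^10*ξ^6 - 503197280*k^9*ξ^6 + 393121824*k^8*ξ^6
      - 281291368*k^7*ξ^6 + 168868044*k^6*ξ^6 - 101752632*k^5*ξ^6 + 44259160*k^4*ξ^6 - 21733152*k^3*ξ^6 + 6164216*k^2*ξ^6
      - 2103920*k*ξ^6 + 316200*ξ^6 + 8064*k^26*ξ^5 - 149184*k^25*ξ^5 + 1106040*k^24*ξ^5 - 4600224*k^23*ξ^5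
      + 13742664*k^22*ξ^5 - 35548656*k^21*ξ^5 + 72693840*k^20*ξ^5 - 135553776*k^19*ξ^5 + 215900976*k^18*ξ^5 - 308199072*k^17*ξ^5
      + 401075616*k^16*ξ^5 - 451575168*k^15*ξ^5 + 486497328*k^14*ξ^5 - 440209056*k^13*ξ^5 + 386307264*k^12*ξ^5 - 288659616*k^11*ξ^5
      + 193453440*k^10*ξ^5 - 130143936*k^9*ξ^5 + 55943256*k^8*ξ^5 - 45282912*k^7*ξ^5 + 9273672*k^6*ξ^5 - 15362544*k^5*ξ^5
      + 3102768*k^4*ξ^5 - 4665072*k^3*ξ^5 + 1685520*k^2*ξ^5 - 724320*k*ξ^5 + 332880*ξ^5 + 8064*k^27*ξ^4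
      - 155232*k^26*ξ^4 + 1227432*k^25*ξ^4 - 5610141*k^24*ξ^4 + 18687072*k^23*ξ^4 - 52282404*k^22*ξ^4 + 120027768*k^21*ξ^4
      - 244872756*k^20*ξ^4 + 437739792*k^19*ξ^4 - 702377064*k^18*ξ^4 + 1025961984*k^17*ξ^4 - 1349304549*k^16*ξ^4 + 1643950080*k^15*ξ^4
      - 1817253048*k^14*ξ^4 + 1858144176*k^13*ξ^4 - 1753717056*k^12*ξ^4 + 1499888736*k^11*ξ^4 - 1218444960*k^10*ξ^4 + 862498152*k^9*ξ^4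
      - 602402919*k^8*ξ^4 + 347158560*k^7*ξ^4 - 204996612*k^6*ξ^4 + 94018008*k^5*ξ^4 - 44724012*k^4*ξ^4 + 15705744*k^3*ξ^4
      - 5343672*k^2*ξ^4 + 1260528*k*ξ^4 - 221559*ξ^4 + 5376*k^28*ξ^3 - 104832*k^27*ξ^3 + 847828*k^26*ξ^3
      - 4016336*k^25*ξ^3 + 14006004*k^24*ξ^3 - 40761104*k^23*ξ^3 + 98300000*k^22*ξ^3 - 209581584*k^21*ξ^3 + 393342416*k^20*ξ^3
      - 662991216*k^19*ξ^3 + 1014866580*k^18*ξ^3 - 1408164288*k^17*ξ^3 + 1794929028*k^16*ξ^3 - 2097302688*k^15*ξ^3 + 2242658016*k^14*ξ^3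
      - 2232075552*k^13*ξ^3 + 1999259712*k^12*ξ^3 - 1698352224*k^11*ξ^3 + 1262628540*k^10*ξ^3 - 907515216*k^9*ξ^3 + 550371004*k^8*ξ^3
      - 326213456*k^7*ξ^3 + 156984000*k^6*ξ^3 - 72166352*k^5*ξ^3 + 26454512*k^4*ξ^3 - 7996848*k^3*ξ^3 + 2133212*k^2*ξ^3
      - 203040*k*ξ^3 + 50124*ξ^3 + 2304*k^29*ξ^2 - 44784*k^28*ξ^2 + 362556*k^27*ξ^2 - 1738254*k^26*ξ^2
      + 6228684*k^25*ξ^2 - 18669930*k^24*ξ^2 + 46563624*k^23*ξ^2 - 102838980*k^22*ξ^2 + 200100648*k^21*ξ^2 - 350507532*k^20*ξ^2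
      + 556254132*k^19*ξ^2 - 804042810*k^18*ξ^2 + 1061248068*k^17*ξ^2 - 1293009246*k^16*ξ^2 + 1429796592*k^15*ξ^2 - 1480012632*k^14*ξ^2
      + 1370158704*k^13*ξ^2 - 1197794808*k^12*ξ^2 + 921184740*k^11*ξ^2 - 661025826*k^10*ξ^2 + 415662228*k^9*ξ^2 - 224085126*k^8*ξ^2
      + 112177512*k^7*ξ^2 - 29475492*k^6*ξ^2 + 11404008*k^5*ξ^2 + 8602548*k^4*ξ^2 - 2056020*k^3*ξ^2 + 4135722*k^2*ξ^2
      - 521508*k*ξ^2 + 510606*ξ^2 + 576*k^30*ξ - 11040*k^29*ξ + 88332*k^28*ξ - 424080*k^27*ξ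
      + 1554048*k^26*ξ - 4787568*k^25*ξ + 12303900*k^24*ξ - 28169184*k^23*ξ + 56748192*k^22*ξ - 103601280*k^21*ξ
      + 170749308*k^20*ξ - 258857520*k^19*ξ + 356013984*k^18*ξ - 458367120*k^17*ξ + 531933516*k^16*ξ - 586310976*k^15*ξ
      + 579369600*k^14*ξ - 542678688*k^13*ξ + 462498084*k^12*ξ - 357477360*k^11*ξ + 269642688*k^10*ξ - 160321680*k^9*ξ
      + 113722452*k^8*ξ - 43964640*k^7*ξ + 34347168*k^6*ξ - 5020608*k^5*ξ + 7401300*k^4*ξ + 594096*k^3*ξ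
      + 1116192*k^2*ξ + 178320*k*ξ + 95556*ξ + 64*k^31 - 1200*k^30 + 9412*k^29
      - 45075*k^28 + 169176*k^27 - 536202*k^26 + 1424396*k^25 - 3411249*k^24 + 7234096*k^23
      - 14270420*k^22 + 25517732*k^21 - 43608811*k^20 + 68230824*k^19 - 102539510*k^18 + 144206412*k^17
      - 188963889*k^16 + 241923552*k^15 - 272669448*k^14 + 316723372*k^13 - 304874145*k^12 + 315779752*k^11
      - 259926102*k^10 + 233086212*k^9 - 165177435*k^8 + 122741936*k^7 - 75580212*k^6 + 43493356*k^5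
      - 23498849*k^4 + 9282776*k^3 - 4441450*k^2 + 901284*k - 385091) * h

/-- Bezout identity: `Phi` and `cub` have no common zero unless `K³ s = 0`. -/
theorem bezout (k ξ : F) :
    (3*ξ^2 + 2*k^2*ξ + 2*ξ - k^4 + 8*k^3 - 6*k^2
      + 8*k - 5) * Phi k ξ
      - (9*ξ^3 + 9*k^2*ξ^2 + 9*ξ^2 - 4*k^4*ξ + 42*k^3*ξ - 29*k^2*ξ
      + 42*k*ξ - 25*ξ - 4*k^5 + 29*k^4 - 8*k^3 + 58*k^2
      - 4*k + 29) * cub k ξ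
      = 4*(k^2+1)^3*(2*k-11) := by
  unfold Phi cub
  ring

theorem phi_mod (k ξ : F) :
    Phi k ξ = (3*ξ^2 + 4*k^2*ξ + 4*ξ + 12*k^3 - 3*k^2 + 12*k
      - 3) * (ξ^2-(k^2+1)) + 16*(k^2+1)^2*(ξ+k) := by
  unfold Phi
  ring

end field

end Fermat.Agent.S51.X15
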